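import Mathlib

/-!
# Klein's binary icosahedral forms and the 5-torsion of the universal curve over `X(5)`

Explicit forms, covariants and coordinates of two basic 5-torsion points, and the identities
between them. All statements are polynomial identities over a commutative ring or field.
-/

set_option autoImplicit false

namespace Fermat.Agent.Switch

variable {k : Type*} [Field k]

section Forms

variable {R : Type*} [CommRing R]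

/-- Klein's form of degree 20. -/
def hF (x y : R) : R :=
  x^20 - 228*x^15*y^5 + 494*x^10*y^10 + 228*x^5*y^15 + y^20

/-- Klein's form of degree 30 (negated). -/
def tF (x y : R) : R :=
  -(x^30 + 522*x^25*y^5 - 10005*x^20*y^10 - 10005*x^10*y^20 - 522*x^5*y^25 + y^30)

/-- Klein's form of degree 12. -/
def dF (x y : R) : R := x^11*y + 11*x^6*y^6 - x*y^11

/-- First coordinate of the degree 11 covariant, `-∂D/∂y`. -/
def cov1 (x y : R) : R := -(x^11 + 66*x^6*y^5 - 11*x*y^10)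

/-- Second coordinate of the degree 11 covariant, `∂D/∂x`. -/
def cov2 (x y : R) : R := 11*x^10*y + 66*x^5*y^6 - y^11

theorem map_hF {S : Type*} [CommRing S] (f : R →+* S) (x y : R) :
    f (hF x y) = hF (f x) (f y) := by
  simp [hF, map_ofNat]

theorem map_tF {S : Type*} [CommRing S] (f : R →+* S) (x y : R) :
    f (tF x y) = tF (f x) (f y) := by
  simp [tF, map_ofNat]

theorem map_dF {S : Type*} [CommRing S] (f : R →+* S) (x y : R) :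
    f (dF x y) = dF (f x) (f y) := by
  simp [dF, map_ofNat]

theorem hF_eq_mul_add (x y : R) :
    hF x y = 3125 * x^10 * y^10
      + (x^10 + 11*x^5*y^5 - y^10) * (x^10 - 239*x^5*y^5 - y^10) := by
  simp only [hF]; ring

theorem hF_smul (z x y : R) : hF (z*x) (z*y) = z^20 * hF x y := by simp only [hF]; ring

theorem tF_smul (z x y : R) : tF (z*x) (z*y) = z^30 * tF x y := by simp only [tF]; ring

theorem dF_smul (z x y : R) : dF (z*x) (z*y) = z^12 * dF x y := by simp only [dF]; ring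

theorem hF_cube_sub_tF_sq' (x y : R) : hF x y ^ 3 - tF x y ^ 2 = -1728 * dF x y ^ 5 := by
  simp only [hF, tF, dF]; ring

end Forms

/-- Parameters for `ℚ(ζ₅)`: `t = ζ + ζ⁻¹` and `c = (ζ - ζ⁻¹)/√5`. -/
structure R5 (t c : k) : Prop where
  ht : t^2 + t - 1 = 0
  hc : 5*c^2 + t + 3 = 0

/-- `x`-coordinate of the first basic 5-torsion point. -/
def x1F (t x y : k) : k :=
  (-93/5 - 36/5*t)*x^10 + (-198/5 - 396/5*t)*x^5*y^5 + (-57/5 + 36/5*t)*y^10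

/-- `y`-coordinate of the first basic 5-torsion point, divided by `c`. -/
def y0F (t x y : k) : k :=
  (-432/5 - 324/5*t)*x^15 + (-4428/5 - 3996/5*t)*x^10*y^5
    + (3996/5 - 4428/5*t)*x^5*y^10 + (-324/5 + 432/5*t)*y^15

/-- `y`-coordinate of the first basic 5-torsion point. -/
def y1F (t c x y : k) : k := c * y0F t x y

/-- Tangent slope at the first basic point. -/
def slopeT (t c x y : k) : k := c*((3 + 9*t)*x^5 + (9 - 3*t)*y^5)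

/-- Slope of the chord through the two basic points. -/
def slopeC (t c x y : k) : k :=
  c*(3 + 3*t)*x^5 + ((-6 + 3*t) + (3 + 6*t)*c)*x^4*y + ((9 + 3*t) + (-6 + 3*t)*c)*x^3*y^2
    + ((-9 - 3*t) + (-6 + 3*t)*c)*x^2*y^3 + c*(3 - 3*t)*y^5

/-- `x`-coordinate of the second basic 5-torsion point. -/
def x2F (x y : k) : k :=
  3*x^10 - 36*x^9*y + 72*x^8*y^2 - 108*x^7*y^3 + 180*x^6*y^4 - 90*x^5*y^5 + 72*x^4*y^6
    + 36*x^3*y^7 + 36*x^2*y^8 + 3*y^10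

/-- `y`-coordinate of the second basic 5-torsion point. -/
def y2F (x y : k) : k :=
  -108*x^14*y + 432*x^13*y^2 - 972*x^12*y^3 + 1620*x^11*y^4 - 2700*x^10*y^5 + 3132*x^9*y^6
    - 2268*x^8*y^7 + 648*x^7*y^8 - 540*x^6*y^9 - 432*x^4*y^11 + 108*x^3*y^12 - 108*x^2*y^13

/-- `ζ⁻¹` in terms of `t`, `c`. -/
def zInv (t c : k) : k := (t - c*(2*t + 1))/2

theorem hF_cube_sub_tF_sq (x y : k) : hF x y ^ 3 - tF x y ^ 2 = -1728 * dF x y ^ 5 :=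
  hF_cube_sub_tF_sq' x y

theorem det_cov (x y : k) : x * cov2 x y - y * cov1 x y = 12 * dF x y := by
  simp only [cov1, cov2, dF]; ring

theorem p2_curve (x y : k) :
    y2F x y ^ 2 = x2F x y ^ 3 - 27 * hF x y * x2F x y - 54 * tF x y := by
  simp only [hF, tF, x2F, y2F]; ring

theorem hF_rot (x y : k) : hF (-y) x = hF x y := by simp only [hF]; ring

theorem tF_rot (x y : k) : tF (-y) x = tF x y := by simp only [tF]; ring

theorem cov1_rot (x y : k) : cov1 (-y) x = -cov2 x y := by simp only [cov1, cov2]; ring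

theorem cov2_rot (x y : k) : cov2 (-y) x = cov1 x y := by simp only [cov1, cov2]; ring

theorem y1F_neg (t c x y : k) : y1F t c (-x) (-y) = -y1F t c x y := by
  simp only [y1F, y0F]; ring

theorem x1F_neg (t x y : k) : x1F t (-x) (-y) = x1F t x y := by simp only [x1F]; ring

section Root5

variable [CharZero k] {t c : k} (h : R5 t c) (x y : k)
include h

theorem p1_curve :
    y1F t c x y ^ 2 = x1F t x y ^ 3 - 27 * hF x y * x1F t x y - 54 * tF x y := by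
  simp only [hF, tF, x1F, y1F, y0F]
  linear_combination ((-11664/25 : k)*x^30*t + (-34992/25 : k)*x^30 + (-209952/25 : k)*x^25*y^5*t +
      (-863136/25 : k)*x^25*y^5 + (-81648/5 : k)*x^20*y^10*t + (-1236384/5 : k)*x^20*y^10 +
      (956448/5 : k)*x^15*y^15*t + (-1912896/5 : k)*x^15*y^15 + (-1318032/5 : k)*x^10*y^20*t +
      (1236384/5 : k)*x^10*y^20 + (1073088/25 : k)*x^5*y^25*t + (-863136/25 : k)*x^5*y^25 +
      (-46656/25 : k)*y^30*t + (34992/25 : k)*y^30) * h.ht + ((104976/125 : k)*x^30*t^2 +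
      (279936/125 : k)*x^30*t + (186624/125 : k)*x^30 + (2589408/125 : k)*x^25*y^5*t^2 +
      (6321888/125 : k)*x^25*y^5*t + (3825792/125 : k)*x^25*y^5 + (3767472/25 : k)*x^20*y^10*t^2 +
      (7324992/25 : k)*x^20*y^10*t + (3230928/25 : k)*x^20*y^10 + (7021728/25 : k)*x^15*y^15*t^2 +
      (1423008/25 : k)*x^15*y^15*t + (-7021728/25 : k)*x^15*y^15 + (3230928/25 : k)*x^10*y^20*t^2 +
      (-7324992/25 : k)*x^10*y^20*t + (3767472/25 : k)*x^10*y^20 + (-3825792/125 : k)*x^5*y^25*t^2 +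
      (6321888/125 : k)*x^5*y^25*t + (-2589408/125 : k)*x^5*y^25 + (186624/125 : k)*y^30*t^2 +
      (-279936/125 : k)*y^30*t + (104976/125 : k)*y^30) * h.hc

theorem p1_tangent :
    3 * x1F t x y ^ 2 - 27 * hF x y = 2 * y1F t c x y * slopeT t c x y := by
  simp only [hF, x1F, y1F, y0F, slopeT]
  linear_combination ((-5832/25 : k)*x^20*t + (-17496/25 : k)*x^20 + (-69984/25 : k)*x^15*y^5*t +
      (-161352/25 : k)*x^15*y^5 + (-55728/25 : k)*x^10*y^10*t + (351216/25 : k)*x^10*y^10 +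
      (34344/25 : k)*x^5*y^15*t + (-123768/25 : k)*x^5*y^15 + (-2592/25 : k)*y^20*t +
      (8424/25 : k)*y^20) * h.ht + ((5832/25 : k)*x^20*t^2 + (1944/5 : k)*x^20*t +
      (2592/25 : k)*x^20 + (69984/25 : k)*x^15*y^5*t^2 + (21384/5 : k)*x^15*y^5*t +
      (34344/25 : k)*x^15*y^5 + (55728/25 : k)*x^10*y^10*t^2 + (55728/25 : k)*x^10*y^10 +
      (-34344/25 : k)*x^5*y^15*t^2 + (21384/5 : k)*x^5*y^15*t + (-69984/25 : k)*x^5*y^15 +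
      (2592/25 : k)*y^20*t^2 + (-1944/5 : k)*y^20*t + (5832/25 : k)*y^20) * h.hc

theorem p1_dbl_x :
    x1F t (-y) x = slopeT t c x y ^ 2 - 2 * x1F t x y := by
  simp only [x1F, slopeT]
  linear_combination ((81/5 : k)*x^10*t + (216/5 : k)*x^10 + (-54/5 : k)*x^5*y^5*t +
      (36/5 : k)*x^5*y^5 + (9/5 : k)*y^10*t + (-36/5 : k)*y^10) * h.ht + ((-81/5 : k)*x^10*t^2 +
      (-54/5 : k)*x^10*t + (-9/5 : k)*x^10 + (54/5 : k)*x^5*y^5*t^2 + (-144/5 : k)*x^5*y^5*t +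
      (-54/5 : k)*x^5*y^5 + (-9/5 : k)*y^10*t^2 + (54/5 : k)*y^10*t + (-81/5 : k)*y^10) * h.hc

theorem p1_dbl_y :
    y1F t c (-y) x
      = -(y1F t c x y + slopeT t c x y * (x1F t (-y) x - x1F t x y)) := by
  simp only [x1F, y1F, y0F, slopeT]
  linear_combination ((648/5 : k)*x^15*c + (6912/5 : k)*x^10*y^5*c + (-3024/5 : k)*x^5*y^10*c +
      (216/5 : k)*y^15*c) * h.ht

theorem c_pow_ten : c^10 = (-11/125 : k)*t + (-18/125 : k) := by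
  have e : c^2 = -(3 + t)/5 := by linear_combination (1/5 : k) * h.hc
  rw [show c^10 = (c^2)^5 by ring, e]
  linear_combination ((-1/3125 : k)*t^3 + (-14/3125 : k)*t^2 + (-77/3125 : k)*t +
      (-207/3125 : k)) * h.ht

theorem c_pow_sixteen : c^16 = (21/625 : k)*t + (34/625 : k) := by
  have e : c^2 = -(3 + t)/5 := by linear_combination (1/5 : k) * h.hc
  rw [show c^16 = (c^2)^8 by ring, e]
  linear_combination ((1/390625 : k)*t^6 + (23/390625 : k)*t^5 + (46/78125 : k)*t^4 +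
      (261/78125 : k)*t^3 + (919/78125 : k)*t^2 + (10318/390625 : k)*t + (14689/390625 : k)) * h.ht

theorem p1_S_x : x1F t (c*(-x + t*y)) (c*(t*x + y)) = x2F x y := by
  rw [show x1F t (c*(-x + t*y)) (c*(t*x + y)) = c^10 * x1F t (-x + t*y) (t*x + y) by
    simp only [x1F]; ring, c_pow_ten h]
  simp only [x1F, x2F]
  linear_combination ((-396/625 : k)*x^10*t^10 + (3/5 : k)*x^10*t^9 + (51/125 : k)*x^10*t^8 +
      (24/125 : k)*x^10*t^7 + (27/125 : k)*x^10*t^6 + (-4371/625 : k)*x^10*t^5 +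
      (-192/25 : k)*x^10*t^4 + (-627/125 : k)*x^10*t^3 + (-333/125 : k)*x^10*t^2 +
      (-294/125 : k)*x^10*t + (201/625 : k)*x^10 + (-792/125 : k)*x^9*y*t^9 + (6)*x^9*y*t^8 +
      (102/25 : k)*x^9*y*t^7 + (4596/125 : k)*x^9*y*t^6 + (1044/25 : k)*x^9*y*t^5 +
      (-1416/125 : k)*x^9*y*t^4 + (-534/25 : k)*x^9*y*t^3 + (-462/25 : k)*x^9*y*t^2 +
      (-1152/125 : k)*x^9*y*t + (-36)*x^9*y + (-3564/125 : k)*x^8*y^2*t^8 +
      (-5337/125 : k)*x^8*y^2*t^7 + (-1521/25 : k)*x^8*y^2*t^6 + (3384/25 : k)*x^8*y^2*t^5 +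
      (4401/25 : k)*x^8*y^2*t^4 + (4023/125 : k)*x^8*y^2*t^3 + (2934/125 : k)*x^8*y^2*t^2 +
      (72)*x^8*y^2*t + (72)*x^8*y^2 + (8712/125 : k)*x^7*y^3*t^8 + (396/125 : k)*x^7*y^3*t^7 +
      (-5724/25 : k)*x^7*y^3*t^6 + (-7884/25 : k)*x^7*y^3*t^5 + (3744/25 : k)*x^7*y^3*t^4 +
      (25416/125 : k)*x^7*y^3*t^3 + (-19872/125 : k)*x^7*y^3*t^2 + (-108)*x^7*y^3*t +
      (-108)*x^7*y^3 + (-4356/125 : k)*x^6*y^4*t^9 + (-198/5 : k)*x^6*y^4*t^8 +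
      (8118/25 : k)*x^6*y^4*t^7 + (30888/125 : k)*x^6*y^4*t^6 + (-8532/25 : k)*x^6*y^4*t^5 +
      (-52848/125 : k)*x^6*y^4*t^4 + (2106/5 : k)*x^6*y^4*t^3 + (11574/25 : k)*x^6*y^4*t^2 +
      (26064/125 : k)*x^6*y^4*t + (180)*x^6*y^4 + (4356/625 : k)*x^5*y^5*t^10 +
      (198/25 : k)*x^5*y^5*t^9 + (-21186/125 : k)*x^5*y^5*t^8 + (-24354/125 : k)*x^5*y^5*t^7 +
      (72468/125 : k)*x^5*y^5*t^6 + (246906/625 : k)*x^5*y^5*t^5 + (-15606/25 : k)*x^5*y^5*t^4 +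
      (-91368/125 : k)*x^5*y^5*t^3 + (-36162/125 : k)*x^5*y^5*t^2 + (-8676/125 : k)*x^5*y^5*t +
      (-52686/625 : k)*x^5*y^5 + (4356/125 : k)*x^4*y^6*t^9 + (198/5 : k)*x^4*y^6*t^8 +
      (-8118/25 : k)*x^4*y^6*t^7 + (-30888/125 : k)*x^4*y^6*t^6 + (22392/25 : k)*x^4*y^6*t^5 +
      (96948/125 : k)*x^4*y^6*t^4 + (1674/5 : k)*x^4*y^6*t^3 + (1026/25 : k)*x^4*y^6*t^2 +
      (5436/125 : k)*x^4*y^6*t + (72)*x^4*y^6 + (8712/125 : k)*x^3*y^7*t^8 +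
      (396/125 : k)*x^3*y^7*t^7 + (-13644/25 : k)*x^3*y^7*t^6 + (-12924/25 : k)*x^3*y^7*t^5 +
      (864/25 : k)*x^3*y^7*t^4 + (14616/125 : k)*x^3*y^7*t^3 + (16128/125 : k)*x^3*y^7*t^2 +
      (36)*x^3*y^7*t + (36)*x^3*y^7 + (3564/125 : k)*x^2*y^8*t^8 + (20187/125 : k)*x^2*y^8*t^7 +
      (3411/25 : k)*x^2*y^8*t^6 + (-2304/25 : k)*x^2*y^8*t^5 + (-3591/25 : k)*x^2*y^8*t^4 +
      (-2673/125 : k)*x^2*y^8*t^3 + (-234/125 : k)*x^2*y^8*t^2 + (36)*x^2*y^8*t + (36)*x^2*y^8 +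
      (-792/125 : k)*x*y^9*t^9 + (-102/5 : k)*x*y^9*t^8 + (-318/25 : k)*x*y^9*t^7 +
      (3396/125 : k)*x*y^9*t^6 + (864/25 : k)*x*y^9*t^5 + (-1716/125 : k)*x*y^9*t^4 +
      (-654/25 : k)*x*y^9*t^3 + (-402/25 : k)*x*y^9*t^2 + (-2052/125 : k)*x*y^9*t +
      (396/625 : k)*y^10*t^10 + (51/25 : k)*y^10*t^9 + (159/125 : k)*y^10*t^8 +
      (96/125 : k)*y^10*t^7 + (63/125 : k)*y^10*t^6 + (4521/625 : k)*y^10*t^5 +
      (204/25 : k)*y^10*t^4 + (597/125 : k)*y^10*t^3 + (423/125 : k)*y^10*t^2 +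
      (174/125 : k)*y^10*t + (849/625 : k)*y^10) * h.ht

theorem p1_S_y : y1F t c (c*(-x + t*y)) (c*(t*x + y)) = y2F x y := by
  rw [show y1F t c (c*(-x + t*y)) (c*(t*x + y)) = c^16 * y0F t (-x + t*y) (t*x + y) by
    simp only [y1F, y0F]; ring, c_pow_sixteen h]
  simp only [y0F, y2F]
  linear_combination ((9072/3125 : k)*x^15*t^15 + (-1188/3125 : k)*x^15*t^14 +
      (-756/3125 : k)*x^15*t^13 + (-432/3125 : k)*x^15*t^12 + (-324/3125 : k)*x^15*t^11 +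
      (18576/625 : k)*x^15*t^10 + (-26568/3125 : k)*x^15*t^9 + (-16416/3125 : k)*x^15*t^8 +
      (-10152/3125 : k)*x^15*t^7 + (-6264/3125 : k)*x^15*t^6 + (-87804/3125 : k)*x^15*t^5 +
      (-147312/3125 : k)*x^15*t^4 + (-91044/3125 : k)*x^15*t^3 + (-56268/3125 : k)*x^15*t^2 +
      (-34776/3125 : k)*x^15*t + (-14688/3125 : k)*x^15 + (27216/625 : k)*x^14*y*t^14 +
      (-3564/625 : k)*x^14*y*t^13 + (-2268/625 : k)*x^14*y*t^12 + (-94284/625 : k)*x^14*y*t^11 +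
      (5076/125 : k)*x^14*y*t^10 + (202176/625 : k)*x^14*y*t^9 + (-43524/625 : k)*x^14*y*t^8 +
      (-26028/625 : k)*x^14*y*t^7 + (150336/625 : k)*x^14*y*t^6 + (56268/125 : k)*x^14*y*t^5 +
      (86184/625 : k)*x^14*y*t^4 + (-33696/625 : k)*x^14*y*t^3 + (-30672/625 : k)*x^14*y*t^2 +
      (-23436/625 : k)*x^14*y*t + (-108)*x^14*y + (190512/625 : k)*x^13*y^2*t^13 +
      (161028/625 : k)*x^13*y^2*t^12 + (-13716/125 : k)*x^13*y^2*t^11 +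
      (-7776/5 : k)*x^13*y^2*t^10 + (47412/125 : k)*x^13*y^2*t^9 + (986472/625 : k)*x^13*y^2*t^8 +
      (-904932/625 : k)*x^13*y^2*t^7 + (-278208/125 : k)*x^13*y^2*t^6 +
      (-1188/25 : k)*x^13*y^2*t^5 + (185436/125 : k)*x^13*y^2*t^4 + (380808/625 : k)*x^13*y^2*t^3 +
      (231552/625 : k)*x^13*y^2*t^2 + (432)*x^13*y^2*t + (432)*x^13*y^2 +
      (-185976/625 : k)*x^12*y^3*t^13 + (878256/625 : k)*x^12*y^3*t^12 +
      (71388/25 : k)*x^12*y^3*t^11 + (-115236/125 : k)*x^12*y^3*t^10 +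
      (-908172/125 : k)*x^12*y^3*t^9 + (2980044/625 : k)*x^12*y^3*t^8 +
      (6317136/625 : k)*x^12*y^3*t^7 + (-76032/25 : k)*x^12*y^3*t^6 +
      (-1068228/125 : k)*x^12*y^3*t^5 + (-331236/125 : k)*x^12*y^3*t^4 +
      (272916/625 : k)*x^12*y^3*t^3 + (-913896/625 : k)*x^12*y^3*t^2 + (-972)*x^12*y^3*t +
      (-972)*x^12*y^3 + (92988/625 : k)*x^11*y^4*t^14 + (-26352/625 : k)*x^11*y^4*t^13 +
      (-1876284/625 : k)*x^11*y^4*t^12 + (2993868/625 : k)*x^11*y^4*t^11 +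
      (1673676/125 : k)*x^11*y^4*t^10 + (-5909112/625 : k)*x^11*y^4*t^9 +
      (-18720612/625 : k)*x^11*y^4*t^8 + (8561916/625 : k)*x^11*y^4*t^7 +
      (20388888/625 : k)*x^11*y^4*t^6 + (297108/125 : k)*x^11*y^4*t^5 +
      (-5542128/625 : k)*x^11*y^4*t^4 + (640332/625 : k)*x^11*y^4*t^3 +
      (2404404/625 : k)*x^11*y^4*t^2 + (1163052/625 : k)*x^11*y^4*t + (1620)*x^11*y^4 +
      (-92988/3125 : k)*x^10*y^5*t^15 + (26352/3125 : k)*x^10*y^5*t^14 +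
      (4665924/3125 : k)*x^10*y^5*t^13 + (-1307772/3125 : k)*x^10*y^5*t^12 +
      (-42664104/3125 : k)*x^10*y^5*t^11 + (11952036/625 : k)*x^10*y^5*t^10 +
      (151646472/3125 : k)*x^10*y^5*t^9 + (-95176836/3125 : k)*x^10*y^5*t^8 +
      (-254145492/3125 : k)*x^10*y^5*t^7 + (31620456/3125 : k)*x^10*y^5*t^6 +
      (134514216/3125 : k)*x^10*y^5*t^5 + (-3525552/3125 : k)*x^10*y^5*t^4 +
      (-43289424/3125 : k)*x^10*y^5*t^3 + (-23788728/3125 : k)*x^10*y^5*t^2 +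
      (-8058096/3125 : k)*x^10*y^5*t + (-8286948/3125 : k)*x^10*y^5 +
      (-185976/625 : k)*x^9*y^6*t^14 + (52704/625 : k)*x^9*y^6*t^13 +
      (4217508/625 : k)*x^9*y^6*t^12 + (-4690656/625 : k)*x^9*y^6*t^11 +
      (-5826924/125 : k)*x^9*y^6*t^10 + (32356044/625 : k)*x^9*y^6*t^9 +
      (75734244/625 : k)*x^9*y^6*t^8 + (-23723712/625 : k)*x^9*y^6*t^7 +
      (-70344936/625 : k)*x^9*y^6*t^6 + (1369008/125 : k)*x^9*y^6*t^5 +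
      (30580416/625 : k)*x^9*y^6*t^4 + (11419596/625 : k)*x^9*y^6*t^3 +
      (3156192/625 : k)*x^9*y^6*t^2 + (1656396/625 : k)*x^9*y^6*t + (3132)*x^9*y^6 +
      (-836892/625 : k)*x^8*y^7*t^13 + (2251152/625 : k)*x^8*y^7*t^12 +
      (2957148/125 : k)*x^8*y^7*t^11 + (-3709476/125 : k)*x^8*y^7*t^10 +
      (-14016888/125 : k)*x^8*y^7*t^9 + (45903348/625 : k)*x^8*y^7*t^8 +
      (104672412/625 : k)*x^8*y^7*t^7 + (-4916376/125 : k)*x^8*y^7*t^6 +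
      (-14753988/125 : k)*x^8*y^7*t^5 + (-3593484/125 : k)*x^8*y^7*t^4 +
      (2422872/625 : k)*x^8*y^7*t^3 + (-1480032/625 : k)*x^8*y^7*t^2 + (-2268)*x^8*y^7*t +
      (-2268)*x^8*y^7 + (-755244/625 : k)*x^7*y^8*t^13 + (-3536136/625 : k)*x^7*y^8*t^12 +
      (1979316/125 : k)*x^7*y^8*t^11 + (7363548/125 : k)*x^7*y^8*t^10 +
      (-6021216/125 : k)*x^7*y^8*t^9 + (-95834664/625 : k)*x^7*y^8*t^8 +
      (48734784/625 : k)*x^7*y^8*t^7 + (21470508/125 : k)*x^7*y^8*t^6 +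
      (2689524/125 : k)*x^7*y^8*t^5 + (-4475088/125 : k)*x^7*y^8*t^4 +
      (-1775196/625 : k)*x^7*y^8*t^3 + (2032776/625 : k)*x^7*y^8*t^2 + (648)*x^7*y^8*t +
      (648)*x^7*y^8 + (167832/625 : k)*x^6*y^9*t^14 + (289872/625 : k)*x^6*y^9*t^13 +
      (-3597156/625 : k)*x^6*y^9*t^12 + (-10316808/625 : k)*x^6*y^9*t^11 +
      (3457188/125 : k)*x^6*y^9*t^10 + (49650192/625 : k)*x^6*y^9*t^9 +
      (-34792308/625 : k)*x^6*y^9*t^8 + (-99670716/625 : k)*x^6*y^9*t^7 +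
      (3887352/625 : k)*x^6*y^9*t^6 + (8276904/125 : k)*x^6*y^9*t^5 +
      (1883088/625 : k)*x^6*y^9*t^4 + (-6902172/625 : k)*x^6*y^9*t^3 +
      (-536544/625 : k)*x^6*y^9*t^2 + (-65772/625 : k)*x^6*y^9*t + (-540)*x^6*y^9 +
      (-83916/3125 : k)*x^5*y^10*t^15 + (-144936/3125 : k)*x^5*y^10*t^14 +
      (4106268/3125 : k)*x^5*y^10*t^13 + (7191396/3125 : k)*x^5*y^10*t^12 +
      (-33319728/3125 : k)*x^5*y^10*t^11 + (-13094568/625 : k)*x^5*y^10*t^10 +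
      (108635904/3125 : k)*x^5*y^10*t^9 + (276496848/3125 : k)*x^5*y^10*t^8 +
      (-5342544/3125 : k)*x^5*y^10*t^7 + (-212698008/3125 : k)*x^5*y^10*t^6 +
      (17702712/3125 : k)*x^5*y^10*t^5 + (55827036/3125 : k)*x^5*y^10*t^4 +
      (-3280068/3125 : k)*x^5*y^10*t^3 + (-6681096/3125 : k)*x^5*y^10*t^2 +
      (69228/3125 : k)*x^5*y^10*t + (135864/3125 : k)*x^5*y^10 + (-83916/625 : k)*x^4*y^11*t^14 +
      (-144936/625 : k)*x^4*y^11*t^13 + (1588788/625 : k)*x^4*y^11*t^12 +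
      (985824/625 : k)*x^4*y^11*t^11 + (-1884492/125 : k)*x^4*y^11*t^10 +
      (-18103716/625 : k)*x^4*y^11*t^9 + (2402784/625 : k)*x^4*y^11*t^8 +
      (23820588/625 : k)*x^4*y^11*t^7 + (1120284/625 : k)*x^4*y^11*t^6 +
      (-2316816/125 : k)*x^4*y^11*t^5 + (2860596/625 : k)*x^4*y^11*t^4 +
      (1795176/625 : k)*x^4*y^11*t^3 + (-609228/625 : k)*x^4*y^11*t^2 +
      (-405864/625 : k)*x^4*y^11*t + (-432)*x^4*y^11 + (-167832/625 : k)*x^3*y^12*t^13 +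
      (329292/625 : k)*x^3*y^12*t^12 + (108324/25 : k)*x^3*y^12*t^11 +
      (706968/125 : k)*x^3*y^12*t^10 + (-318384/125 : k)*x^3*y^12*t^9 +
      (-7403292/625 : k)*x^3*y^12*t^8 + (-548748/625 : k)*x^3*y^12*t^7 +
      (243324/25 : k)*x^3*y^12*t^6 + (-3996/125 : k)*x^3*y^12*t^5 + (-374112/125 : k)*x^3*y^12*t^4 +
      (1343412/625 : k)*x^3*y^12*t^3 + (406728/625 : k)*x^3*y^12*t^2 + (108)*x^3*y^12*t +
      (108)*x^3*y^12 + (-142884/625 : k)*x^2*y^13*t^13 + (-446796/625 : k)*x^2*y^13*t^12 +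
      (-92448/125 : k)*x^2*y^13*t^11 + (4428/5 : k)*x^2*y^13*t^10 + (254556/125 : k)*x^2*y^13*t^9 +
      (30996/625 : k)*x^2*y^13*t^8 + (-1654776/625 : k)*x^2*y^13*t^7 +
      (-53784/125 : k)*x^2*y^13*t^6 + (30672/25 : k)*x^2*y^13*t^5 + (-73872/125 : k)*x^2*y^13*t^4 +
      (-408456/625 : k)*x^2*y^13*t^3 + (96336/625 : k)*x^2*y^13*t^2 + (-108)*x^2*y^13*t +
      (-108)*x^2*y^13 + (20412/625 : k)*x*y^14*t^14 + (39852/625 : k)*x*y^14*t^13 +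
      (24624/625 : k)*x*y^14*t^12 + (-68688/625 : k)*x*y^14*t^11 + (-27108/125 : k)*x*y^14*t^10 +
      (84132/625 : k)*x*y^14*t^9 + (238032/625 : k)*x*y^14*t^8 + (147204/625 : k)*x*y^14*t^7 +
      (-95148/625 : k)*x*y^14*t^6 + (21816/125 : k)*x*y^14*t^5 + (160488/625 : k)*x*y^14*t^4 +
      (15228/625 : k)*x*y^14*t^3 + (9396/625 : k)*x*y^14*t^2 + (33048/625 : k)*x*y^14*t +
      (-6804/3125 : k)*y^15*t^15 + (-13284/3125 : k)*y^15*t^14 + (-8208/3125 : k)*y^15*t^13 +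
      (-5076/3125 : k)*y^15*t^12 + (-3132/3125 : k)*y^15*t^11 + (-17172/625 : k)*y^15*t^10 +
      (-146124/3125 : k)*y^15*t^9 + (-90288/3125 : k)*y^15*t^8 + (-55836/3125 : k)*y^15*t^7 +
      (-34452/3125 : k)*y^15*t^6 + (-114372/3125 : k)*y^15*t^5 + (13284/3125 : k)*y^15*t^4 +
      (8208/3125 : k)*y^15*t^3 + (5076/3125 : k)*y^15*t^2 + (3132/3125 : k)*y^15*t +
      (11016/3125 : k)*y^15) * h.ht

theorem cov1_S :
    cov1 (c*(-x + t*y)) (c*(t*x + y)) = c*(-cov1 x y + t*cov2 x y) := by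
  rw [show cov1 (c*(-x + t*y)) (c*(t*x + y)) = c * (c^10 * cov1 (-x + t*y) (t*x + y)) by
    simp only [cov1]; ring, c_pow_ten h]
  congr 1
  simp only [cov1, cov2]
  linear_combination ((121/125 : k)*x^11*t^9 + (77/125 : k)*x^11*t^8 + (44/125 : k)*x^11*t^7 +
      (33/125 : k)*x^11*t^6 + (11/125 : k)*x^11*t^5 + (748/125 : k)*x^11*t^4 +
      (451/125 : k)*x^11*t^3 + (297/125 : k)*x^11*t^2 + (154/125 : k)*x^11*t + (143/125 : k)*x^11 +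
      (-121/125 : k)*x^10*y*t^10 + (-77/125 : k)*x^10*y*t^9 + (1166/125 : k)*x^10*y*t^8 +
      (737/125 : k)*x^10*y*t^7 + (429/125 : k)*x^10*y*t^6 + (-4048/125 : k)*x^10*y*t^5 +
      (-2651/125 : k)*x^10*y*t^4 + (2233/125 : k)*x^10*y*t^3 + (1056/125 : k)*x^10*y*t^2 +
      (1177/125 : k)*x^10*y*t + (-242/25 : k)*x^9*y^2*t^9 + (-154/25 : k)*x^9*y^2*t^8 +
      (1001/25 : k)*x^9*y^2*t^7 + (561/5 : k)*x^9*y^2*t^6 + (352/5 : k)*x^9*y^2*t^5 +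
      (-3311/25 : k)*x^9*y^2*t^4 + (-2057/25 : k)*x^9*y^2*t^3 + (198/25 : k)*x^9*y^2*t^2 +
      (-1089/25 : k)*x^8*y^3*t^8 + (-3597/25 : k)*x^8*y^3*t^7 + (132/5 : k)*x^8*y^3*t^6 +
      (2277/5 : k)*x^8*y^3*t^5 + (1419/5 : k)*x^8*y^3*t^4 + (-4422/25 : k)*x^8*y^3*t^3 +
      (-2376/25 : k)*x^8*y^3*t^2 + (2178/25 : k)*x^7*y^4*t^8 + (-1518/25 : k)*x^7*y^4*t^7 +
      (-15576/25 : k)*x^7*y^4*t^6 + (-924/5 : k)*x^7*y^4*t^5 + (3828/5 : k)*x^7*y^4*t^4 +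
      (11154/25 : k)*x^7*y^4*t^3 + (-1914/25 : k)*x^7*y^4*t^2 + (-1188/25 : k)*x^7*y^4*t +
      (-4356/125 : k)*x^6*y^5*t^9 + (-2772/125 : k)*x^6*y^5*t^8 + (52866/125 : k)*x^6*y^5*t^7 +
      (8052/125 : k)*x^6*y^5*t^6 + (-141966/125 : k)*x^6*y^5*t^5 + (-52008/125 : k)*x^6*y^5*t^4 +
      (77154/125 : k)*x^6*y^5*t^3 + (49038/125 : k)*x^6*y^5*t^2 + (6336/125 : k)*x^6*y^5*t +
      (7062/125 : k)*x^6*y^5 + (726/125 : k)*x^5*y^6*t^10 + (462/125 : k)*x^5*y^6*t^9 +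
      (-21516/125 : k)*x^5*y^6*t^8 + (-13662/125 : k)*x^5*y^6*t^7 + (101046/125 : k)*x^5*y^6*t^6 +
      (27918/125 : k)*x^5*y^6*t^5 + (-130284/125 : k)*x^5*y^6*t^4 + (-53988/125 : k)*x^5*y^6*t^3 +
      (19734/125 : k)*x^5*y^6*t^2 + (15378/125 : k)*x^5*y^6*t + (726/25 : k)*x^4*y^7*t^9 +
      (462/25 : k)*x^4*y^7*t^8 + (-8448/25 : k)*x^4*y^7*t^7 + (-924/5 : k)*x^4*y^7*t^6 +
      (3828/5 : k)*x^4*y^7*t^5 + (6798/25 : k)*x^4*y^7*t^4 + (-10494/25 : k)*x^4*y^7*t^3 +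
      (-3564/25 : k)*x^4*y^7*t^2 + (1452/25 : k)*x^3*y^8*t^8 + (561/25 : k)*x^3*y^8*t^7 +
      (-1683/5 : k)*x^3*y^8*t^6 + (-1056/5 : k)*x^3*y^8*t^5 + (1551/5 : k)*x^3*y^8*t^4 +
      (1881/25 : k)*x^3*y^8*t^3 + (-1782/25 : k)*x^3*y^8*t^2 + (121/25 : k)*x^2*y^9*t^8 +
      (1529/25 : k)*x^2*y^9*t^7 + (968/25 : k)*x^2*y^9*t^6 + (-759/5 : k)*x^2*y^9*t^5 +
      (-473/5 : k)*x^2*y^9*t^4 + (748/25 : k)*x^2*y^9*t^3 + (-638/25 : k)*x^2*y^9*t^2 +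
      (-396/25 : k)*x^2*y^9*t + (-121/125 : k)*x*y^10*t^9 + (-77/125 : k)*x*y^10*t^8 +
      (-44/125 : k)*x*y^10*t^7 + (3597/125 : k)*x*y^10*t^6 + (2299/125 : k)*x*y^10*t^5 +
      (-3058/125 : k)*x*y^10*t^4 + (-1771/125 : k)*x*y^10*t^3 + (-1287/125 : k)*x*y^10*t^2 +
      (-1694/125 : k)*x*y^10*t + (-1573/125 : k)*x*y^10 + (11/125 : k)*y^11*t^10 +
      (7/125 : k)*y^11*t^9 + (4/125 : k)*y^11*t^8 + (3/125 : k)*y^11*t^7 + (1/125 : k)*y^11*t^6 +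
      (728/125 : k)*y^11*t^5 + (461/125 : k)*y^11*t^4 + (267/125 : k)*y^11*t^3 +
      (194/125 : k)*y^11*t^2 + (73/125 : k)*y^11*t) * h.ht

theorem cov2_S :
    cov2 (c*(-x + t*y)) (c*(t*x + y)) = c*(t*cov1 x y + cov2 x y) := by
  rw [show cov2 (c*(-x + t*y)) (c*(t*x + y)) = c * (c^10 * cov2 (-x + t*y) (t*x + y)) by
    simp only [cov2]; ring, c_pow_ten h]
  congr 1
  simp only [cov1, cov2]
  linear_combination ((11/125 : k)*x^11*t^10 + (7/125 : k)*x^11*t^9 + (4/125 : k)*x^11*t^8 +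
      (3/125 : k)*x^11*t^7 + (1/125 : k)*x^11*t^6 + (728/125 : k)*x^11*t^5 +
      (461/125 : k)*x^11*t^4 + (267/125 : k)*x^11*t^3 + (194/125 : k)*x^11*t^2 +
      (73/125 : k)*x^11*t + (121/125 : k)*x^10*y*t^9 + (77/125 : k)*x^10*y*t^8 +
      (44/125 : k)*x^10*y*t^7 + (-3597/125 : k)*x^10*y*t^6 + (-2299/125 : k)*x^10*y*t^5 +
      (3058/125 : k)*x^10*y*t^4 + (1771/125 : k)*x^10*y*t^3 + (1287/125 : k)*x^10*y*t^2 +
      (1694/125 : k)*x^10*y*t + (1573/125 : k)*x^10*y + (121/25 : k)*x^9*y^2*t^8 +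
      (1529/25 : k)*x^9*y^2*t^7 + (968/25 : k)*x^9*y^2*t^6 + (-759/5 : k)*x^9*y^2*t^5 +
      (-473/5 : k)*x^9*y^2*t^4 + (748/25 : k)*x^9*y^2*t^3 + (-638/25 : k)*x^9*y^2*t^2 +
      (-396/25 : k)*x^9*y^2*t + (-1452/25 : k)*x^8*y^3*t^8 + (-561/25 : k)*x^8*y^3*t^7 +
      (1683/5 : k)*x^8*y^3*t^6 + (1056/5 : k)*x^8*y^3*t^5 + (-1551/5 : k)*x^8*y^3*t^4 +
      (-1881/25 : k)*x^8*y^3*t^3 + (1782/25 : k)*x^8*y^3*t^2 + (726/25 : k)*x^7*y^4*t^9 +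
      (462/25 : k)*x^7*y^4*t^8 + (-8448/25 : k)*x^7*y^4*t^7 + (-924/5 : k)*x^7*y^4*t^6 +
      (3828/5 : k)*x^7*y^4*t^5 + (6798/25 : k)*x^7*y^4*t^4 + (-10494/25 : k)*x^7*y^4*t^3 +
      (-3564/25 : k)*x^7*y^4*t^2 + (-726/125 : k)*x^6*y^5*t^10 + (-462/125 : k)*x^6*y^5*t^9 +
      (21516/125 : k)*x^6*y^5*t^8 + (13662/125 : k)*x^6*y^5*t^7 + (-101046/125 : k)*x^6*y^5*t^6 +
      (-27918/125 : k)*x^6*y^5*t^5 + (130284/125 : k)*x^6*y^5*t^4 + (53988/125 : k)*x^6*y^5*t^3 +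
      (-19734/125 : k)*x^6*y^5*t^2 + (-15378/125 : k)*x^6*y^5*t + (-4356/125 : k)*x^5*y^6*t^9 +
      (-2772/125 : k)*x^5*y^6*t^8 + (52866/125 : k)*x^5*y^6*t^7 + (8052/125 : k)*x^5*y^6*t^6 +
      (-141966/125 : k)*x^5*y^6*t^5 + (-52008/125 : k)*x^5*y^6*t^4 + (77154/125 : k)*x^5*y^6*t^3 +
      (49038/125 : k)*x^5*y^6*t^2 + (6336/125 : k)*x^5*y^6*t + (7062/125 : k)*x^5*y^6 +
      (-2178/25 : k)*x^4*y^7*t^8 + (1518/25 : k)*x^4*y^7*t^7 + (15576/25 : k)*x^4*y^7*t^6 +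
      (924/5 : k)*x^4*y^7*t^5 + (-3828/5 : k)*x^4*y^7*t^4 + (-11154/25 : k)*x^4*y^7*t^3 +
      (1914/25 : k)*x^4*y^7*t^2 + (1188/25 : k)*x^4*y^7*t + (-1089/25 : k)*x^3*y^8*t^8 +
      (-3597/25 : k)*x^3*y^8*t^7 + (132/5 : k)*x^3*y^8*t^6 + (2277/5 : k)*x^3*y^8*t^5 +
      (1419/5 : k)*x^3*y^8*t^4 + (-4422/25 : k)*x^3*y^8*t^3 + (-2376/25 : k)*x^3*y^8*t^2 +
      (242/25 : k)*x^2*y^9*t^9 + (154/25 : k)*x^2*y^9*t^8 + (-1001/25 : k)*x^2*y^9*t^7 +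
      (-561/5 : k)*x^2*y^9*t^6 + (-352/5 : k)*x^2*y^9*t^5 + (3311/25 : k)*x^2*y^9*t^4 +
      (2057/25 : k)*x^2*y^9*t^3 + (-198/25 : k)*x^2*y^9*t^2 + (-121/125 : k)*x*y^10*t^10 +
      (-77/125 : k)*x*y^10*t^9 + (1166/125 : k)*x*y^10*t^8 + (737/125 : k)*x*y^10*t^7 +
      (429/125 : k)*x*y^10*t^6 + (-4048/125 : k)*x*y^10*t^5 + (-2651/125 : k)*x*y^10*t^4 +
      (2233/125 : k)*x*y^10*t^3 + (1056/125 : k)*x*y^10*t^2 + (1177/125 : k)*x*y^10*t +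
      (-121/125 : k)*y^11*t^9 + (-77/125 : k)*y^11*t^8 + (-44/125 : k)*y^11*t^7 +
      (-33/125 : k)*y^11*t^6 + (-11/125 : k)*y^11*t^5 + (-748/125 : k)*y^11*t^4 +
      (-451/125 : k)*y^11*t^3 + (-297/125 : k)*y^11*t^2 + (-154/125 : k)*y^11*t +
      (-143/125 : k)*y^11) * h.ht

theorem chord_slope :
    y2F x y - y1F t c x y = slopeC t c x y * (x2F x y - x1F t x y) := by
  simp only [x1F, x2F, y1F, y0F, y2F, slopeC]
  linear_combination ((-108/5 : k)*x^15*c + (-216/5 : k)*x^14*y*c + (-108/5 : k)*x^14*y +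
      (-108/5 : k)*x^13*y^2*c + (-108/5 : k)*x^13*y^2 + (-108/5 : k)*x^12*y^3*c +
      (108/5 : k)*x^12*y^3 + (-216)*x^10*y^5*c + (-2376/5 : k)*x^9*y^6*c + (-1188/5 : k)*x^9*y^6 +
      (-1188/5 : k)*x^8*y^7*c + (-1188/5 : k)*x^8*y^7 + (-1188/5 : k)*x^7*y^8*c +
      (1188/5 : k)*x^7*y^8 + (1296/5 : k)*x^5*y^10*c + (216/5 : k)*x^4*y^11*c +
      (108/5 : k)*x^4*y^11 + (108/5 : k)*x^3*y^12*c + (108/5 : k)*x^3*y^12 +
      (108/5 : k)*x^2*y^13*c + (-108/5 : k)*x^2*y^13 + (-108/5 : k)*y^15*c) * h.ht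

theorem dF_sq :
    dF x y ^ 2 = y^2 * (x2F x y - x1F t x y) *
      ((-1/36 : k)*x^12*t + (1/18 : k)*x^12 + (-5/36 : k)*x^11*y*t + (5/36 : k)*x^11*y +
      (-5/18 : k)*x^10*y^2*t + (5/36 : k)*x^10*y^2 + (-5/18 : k)*x^9*y^3*t + (5/36 : k)*x^9*y^3 +
      (7/18 : k)*x^7*y^5*t + (7/36 : k)*x^7*y^5 + (5/18 : k)*x^6*y^6*t + (5/12 : k)*x^6*y^6 +
      (-5/36 : k)*x^5*y^7*t + (-5/18 : k)*x^5*y^7 + (-5/36 : k)*x^4*y^8*t + (-5/18 : k)*x^4*y^8 +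
      (1/36 : k)*x^2*y^10*t + (1/12 : k)*x^2*y^10) := by
  simp only [dF, x1F, x2F]
  linear_combination ((1/5 : k)*x^22*y^2 + (1)*x^21*y^3 + (2)*x^20*y^4 + (2)*x^19*y^5 +
      (-3/5 : k)*x^17*y^7 + (9)*x^16*y^8 + (23)*x^15*y^9 + (23)*x^14*y^10 + (-156/5 : k)*x^12*y^12 +
      (-23)*x^11*y^13 + (9)*x^10*y^14 + (9)*x^9*y^15 + (3/5 : k)*x^7*y^17 + (2)*x^6*y^18 +
      (-1)*x^5*y^19 + (-1)*x^4*y^20 + (1/5 : k)*x^2*y^22) * h.ht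

theorem zInv_pow_two : zInv t c ^ 2 = (1/2 : k)*t*c + (-1/2 : k)*t + (-1)*c + (-1/2 : k) := by
  simp only [zInv]
  linear_combination ((-1/5 : k)*t + (-1)*c + (-7/20 : k)) * h.ht +
      ((1/5 : k)*t^2 + (1/5 : k)*t + (1/20 : k)) * h.hc

theorem zInv_pow_three : zInv t c ^ 3 = (-1/2 : k)*t*c + (-1/2 : k)*t + (1)*c + (-1/2 : k) := by
  rw [pow_succ, zInv_pow_two h]
  simp only [zInv]
  linear_combination ((1/10 : k)*t + (3/4 : k)*c + (-1/5 : k)) * h.ht +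
      ((-1/10 : k)*t^2 + (3/20 : k)*t + (1/10 : k)) * h.hc

theorem zInv_pow_four : zInv t c ^ 4 = (1)*t*c + (1/2 : k)*t + (1/2 : k)*c := by
  rw [pow_succ, zInv_pow_three h]
  simp only [zInv]
  linear_combination ((-1/10 : k)*t + (1/4 : k)*c + (-3/10 : k)) * h.ht +
      ((1/10 : k)*t^2 + (-3/20 : k)*t + (-1/10 : k)) * h.hc

theorem zInv_pow_five : zInv t c ^ 5 = 1 := by
  rw [pow_succ, zInv_pow_four h]
  simp only [zInv]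
  linear_combination ((1/5 : k)*t + (17/20 : k)) * h.ht +
      ((-1/5 : k)*t^2 + (-1/5 : k)*t + (-1/20 : k)) * h.hc

theorem zInv_pow_mod (n : ℕ) : zInv t c ^ n = zInv t c ^ (n % 5) :=
  pow_eq_pow_mod n (zInv_pow_five h)

theorem chord_x :
    x2F (zInv t c * x) y = slopeC t c x y ^ 2 - x1F t x y - x2F x y := by
  simp only [x2F, mul_pow]
  rw [zInv_pow_mod h 10, zInv_pow_mod h 9, zInv_pow_mod h 8, zInv_pow_mod h 7, zInv_pow_mod h 6,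
    zInv_pow_five h]
  norm_num only [pow_zero, pow_one]
  rw [zInv_pow_two h, zInv_pow_three h, zInv_pow_four h]
  simp only [zInv, x1F, slopeC]
  linear_combination ((9/5 : k)*x^10*t + (36/5 : k)*x^10 + (36/5 : k)*x^9*y*t + (-18)*x^9*y*c +
      (126/5 : k)*x^9*y + (54/5 : k)*x^8*y^2*t + (-54)*x^8*y^2*c + (81/5 : k)*x^8*y^2 +
      (54/5 : k)*x^7*y^3*t + (-36)*x^7*y^3*c + (-54/5 : k)*x^7*y^3 + (9)*x^6*y^4*t + (9)*x^6*y^4 +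
      (18/5 : k)*x^5*y^5 + (-27/5 : k)*x^4*y^6*t + (36)*x^4*y^6*c + (-117/5 : k)*x^4*y^6 +
      (-18/5 : k)*x^3*y^7*t + (18)*x^3*y^7*c + (18/5 : k)*x^3*y^7 + (-18/5 : k)*x^2*y^8*t +
      (-18)*x^2*y^8*c + (18/5 : k)*x^2*y^8 + (9/5 : k)*y^10*t) * h.ht + ((-9/5 : k)*x^10*t^2 +
      (-18/5 : k)*x^10*t + (-9/5 : k)*x^10 + (-36/5 : k)*x^9*y*t^2 + (-54/5 : k)*x^9*y*t +
      (-18/5 : k)*x^9*y + (-54/5 : k)*x^8*y^2*t^2 + (-18/5 : k)*x^8*y^2*t + (27/5 : k)*x^8*y^2 +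
      (-54/5 : k)*x^7*y^3*t^2 + (72/5 : k)*x^7*y^3*t + (72/5 : k)*x^7*y^3 + (-9)*x^6*y^4*t^2 +
      (18)*x^6*y^4*t + (72/5 : k)*x^5*y^5*t + (-18)*x^5*y^5 + (27/5 : k)*x^4*y^6*t^2 +
      (18/5 : k)*x^4*y^6*t + (-54/5 : k)*x^4*y^6 + (18/5 : k)*x^3*y^7*t^2 + (-54/5 : k)*x^3*y^7*t +
      (36/5 : k)*x^3*y^7 + (18/5 : k)*x^2*y^8*t^2 + (-54/5 : k)*x^2*y^8*t + (36/5 : k)*x^2*y^8 +
      (-9/5 : k)*y^10*t^2 + (18/5 : k)*y^10*t + (-9/5 : k)*y^10) * h.hc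

theorem chord_y :
    y2F (zInv t c * x) y
      = -(y1F t c x y + slopeC t c x y * (x2F (zInv t c * x) y - x1F t x y)) := by
  simp only [x2F, y2F, mul_pow]
  rw [zInv_pow_mod h 14, zInv_pow_mod h 13, zInv_pow_mod h 12, zInv_pow_mod h 11,
    zInv_pow_mod h 10, zInv_pow_mod h 9, zInv_pow_mod h 8, zInv_pow_mod h 7, zInv_pow_mod h 6,
    zInv_pow_five h]
  norm_num only [pow_zero, pow_one]
  rw [zInv_pow_two h, zInv_pow_three h, zInv_pow_four h]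
  simp only [zInv, x1F, y1F, y0F, slopeC]
  linear_combination ((108/5 : k)*x^15*c + (108/5 : k)*x^14*y*t + (-54/5 : k)*x^14*y*c +
      (486/5 : k)*x^14*y + (324/5 : k)*x^13*y^2*t + (-1512/5 : k)*x^13*y^2*c +
      (594/5 : k)*x^13*y^2 + (486/5 : k)*x^12*y^3*t + (-1512/5 : k)*x^12*y^3*c +
      (-594/5 : k)*x^12*y^3 + (216)*x^11*y^4*t + (270)*x^11*y^4*c + (486)*x^11*y^4 +
      (270)*x^10*y^5*t + (216)*x^10*y^5*c + (1080)*x^10*y^5 + (378/5 : k)*x^9*y^6*t +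
      (3456/5 : k)*x^9*y^6*c + (756/5 : k)*x^9*y^6 + (54/5 : k)*x^8*y^7*t + (7668/5 : k)*x^8*y^7*c +
      (-486/5 : k)*x^8*y^7 + (-324/5 : k)*x^7*y^8*t + (918/5 : k)*x^7*y^8*c + (-864/5 : k)*x^7*y^8 +
      (-162)*x^6*y^9*t + (-540)*x^6*y^9*c + (-432)*x^6*y^9 + (-1296/5 : k)*x^5*y^10*c +
      (162/5 : k)*x^4*y^11*t + (-1296/5 : k)*x^4*y^11*c + (594/5 : k)*x^4*y^11 +
      (-54/5 : k)*x^3*y^12*t + (162/5 : k)*x^3*y^12*c + (-54/5 : k)*x^3*y^12 +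
      (54/5 : k)*x^2*y^13*t + (162/5 : k)*x^2*y^13*c + (54/5 : k)*x^2*y^13 +
      (108/5 : k)*y^15*c) * h.ht + ((-108/5 : k)*x^14*y*t^2 + (-162/5 : k)*x^14*y*t +
      (-54/5 : k)*x^14*y + (-324/5 : k)*x^13*y^2*t^2 + (-108/5 : k)*x^13*y^2*t +
      (162/5 : k)*x^13*y^2 + (-486/5 : k)*x^12*y^3*t^2 + (648/5 : k)*x^12*y^3*t +
      (648/5 : k)*x^12*y^3 + (-216)*x^11*y^4*t^2 + (54)*x^11*y^4*t + (-54)*x^11*y^4 +
      (-270)*x^10*y^5*t^2 + (-270)*x^10*y^5 + (-378/5 : k)*x^9*y^6*t^2 + (1728/5 : k)*x^9*y^6*t +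
      (-54/5 : k)*x^9*y^6 + (-54/5 : k)*x^8*y^7*t^2 + (972/5 : k)*x^8*y^7*t + (972/5 : k)*x^8*y^7 +
      (324/5 : k)*x^7*y^8*t^2 + (-702/5 : k)*x^7*y^8*t + (108/5 : k)*x^7*y^8 + (162)*x^6*y^9*t^2 +
      (-108)*x^6*y^9*t + (-162)*x^6*y^9 + (-162/5 : k)*x^4*y^11*t^2 + (-108/5 : k)*x^4*y^11*t +
      (324/5 : k)*x^4*y^11 + (54/5 : k)*x^3*y^12*t^2 + (-162/5 : k)*x^3*y^12*t +
      (108/5 : k)*x^3*y^12 + (-54/5 : k)*x^2*y^13*t^2 + (162/5 : k)*x^2*y^13*t +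
      (-108/5 : k)*x^2*y^13) * h.hc

end Root5

end Fermat.Agent.Switch
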