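import Mathlib
import Fermat.Agent.Switch.Klein

/-!
# The 5-torsion of the universal curve and its symmetries

For `(a, b) = (hF u, tF u)` the curve `Y² = X³ - 27aX - 54b` has the 5-torsion point
`(x1F u, y1F u)`; every nonzero 5-torsion point is of this form after applying a symmetry of
the binary icosahedral forms.
-/

set_option autoImplicit false

namespace Fermat.Agent.Switch

variable {k : Type*} [Field k]

/-- The short Weierstrass curve with invariants `(c₄, c₆) = (a, b)` up to scaling. -/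
def sW (a b : k) : WeierstrassCurve.Affine k := ⟨0, 0, 0, -27 * a, -54 * b⟩

theorem sW_Δ (a b : k) : (sW a b).Δ = 1259712 * (a ^ 3 - b ^ 2) := by
  simp only [sW, WeierstrassCurve.Δ, WeierstrassCurve.b₂, WeierstrassCurve.b₄,
    WeierstrassCurve.b₆, WeierstrassCurve.b₈]
  ring

theorem sW_negY (a b x y : k) : (sW a b).negY x y = -y := by
  simp [sW, WeierstrassCurve.Affine.negY]

theorem sW_equation (a b x y : k) :
    (sW a b).Equation x y ↔ y ^ 2 = x ^ 3 - 27 * a * x - 54 * b := by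
  rw [WeierstrassCurve.Affine.equation_iff]
  simp only [sW]
  ring_nf

/-- Klein's forms on pairs. -/
def hP (u : k × k) : k := hF u.1 u.2

/-- Klein's form of degree 30 on pairs. -/
def tP (u : k × k) : k := tF u.1 u.2

/-- Klein's form of degree 12 on pairs. -/
def dP (u : k × k) : k := dF u.1 u.2

/-- The covariant on pairs. -/
def covP (u : k × k) : k × k := (cov1 u.1 u.2, cov2 u.1 u.2)

/-- The pencil through `u` in the direction `cov u + κ u`. -/
def pencil (μ κ : k) (u : k × k) : k × k := u + μ • (covP u + κ • u)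

/-- `u` lies in the fibre over `(a, b)`. -/
def InFibre (a b : k) (u : k × k) : Prop := hP u = a ∧ tP u = b

theorem cube_sub_sq (u : k × k) : hP u ^ 3 - tP u ^ 2 = -1728 * dP u ^ 5 :=
  hF_cube_sub_tF_sq u.1 u.2

variable [CharZero k]

theorem dP_ne_zero_iff (u : k × k) : dP u ≠ 0 ↔ hP u ^ 3 ≠ tP u ^ 2 := by
  rw [← sub_ne_zero (a := hP u ^ 3), cube_sub_sq]
  simp

theorem InFibre.dP_ne_zero {a b : k} {u : k × k} (hu : InFibre a b u) (hab : a ^ 3 ≠ b ^ 2) :
    dP u ≠ 0 := by
  rw [dP_ne_zero_iff, hu.1, hu.2]; exact hab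

theorem sW_nonsingular {a b x y : k} (hab : a ^ 3 ≠ b ^ 2)
    (h : y ^ 2 = x ^ 3 - 27 * a * x - 54 * b) : (sW a b).Nonsingular x y := by
  refine (WeierstrassCurve.Affine.equation_iff_nonsingular_of_Δ_ne_zero ?_).mp
    ((sW_equation a b x y).2 h)
  rw [sW_Δ]
  exact mul_ne_zero (by norm_num) (sub_ne_zero.2 hab)

open scoped Classical in
/-- The point with the given coordinates, or `0` if they are not on the curve. -/
noncomputable def mkPt (a b x y : k) : (sW a b).Point :=
  if h : (sW a b).Nonsingular x y then WeierstrassCurve.Affine.Point.some x y h else 0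

omit [CharZero k] in
theorem mkPt_eq {a b x y : k} (h : (sW a b).Nonsingular x y) :
    mkPt a b x y = WeierstrassCurve.Affine.Point.some x y h := dif_pos h

/-- A symmetry of the forms `hP`, `tP` commuting with the covariant. -/
structure IsSym (g : k × k →ₗ[k] k × k) : Prop where
  hP_eq : ∀ u, dP u ≠ 0 → hP (g u) = hP u
  tP_eq : ∀ u, dP u ≠ 0 → tP (g u) = tP u
  covP_eq : ∀ u, covP (g u) = g (covP u)

namespace IsSym

variable {g g' : k × k →ₗ[k] k × k}

theorem fibre (hg : IsSym g) {a b : k} (hab : a ^ 3 ≠ b ^ 2) {u : k × k} (hu : InFibre a b u) :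
    InFibre a b (g u) :=
  ⟨(hg.hP_eq u (hu.dP_ne_zero hab)).trans hu.1, (hg.tP_eq u (hu.dP_ne_zero hab)).trans hu.2⟩

theorem dP_ne (hg : IsSym g) {u : k × k} (hu : dP u ≠ 0) : dP (g u) ≠ 0 := by
  rw [dP_ne_zero_iff, hg.hP_eq u hu, hg.tP_eq u hu, ← dP_ne_zero_iff]; exact hu

theorem comp (hg : IsSym g) (hg' : IsSym g') : IsSym (g ∘ₗ g') where
  hP_eq u hu := (hg.hP_eq _ (hg'.dP_ne hu)).trans (hg'.hP_eq u hu)
  tP_eq u hu := (hg.tP_eq _ (hg'.dP_ne hu)).trans (hg'.tP_eq u hu)
  covP_eq u := by simp [hg.covP_eq, hg'.covP_eq]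

omit [CharZero k] in
theorem id : IsSym (LinearMap.id : k × k →ₗ[k] k × k) where
  hP_eq _ _ := rfl
  tP_eq _ _ := rfl
  covP_eq _ := rfl

theorem pow (hg : IsSym g) : ∀ n : ℕ, IsSym (g ^ n)
  | 0 => by rw [pow_zero]; exact IsSym.id
  | n + 1 => by rw [pow_succ']; exact hg.comp (pow hg n)

omit [CharZero k] in
theorem pencil_eq (hg : IsSym g) (μ κ : k) (u : k × k) :
    g (pencil μ κ u) = pencil μ κ (g u) := by
  simp [pencil, hg.covP_eq]

end IsSym

/-- Quarter turn. -/
def rotMap : k × k →ₗ[k] k × k :=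
  LinearMap.prod (-LinearMap.snd k k k) (LinearMap.fst k k k)

omit [CharZero k] in
@[simp] theorem rotMap_apply (u : k × k) : rotMap u = (-u.2, u.1) := rfl

/-- Diagonal map. -/
def diagMap (α β : k) : k × k →ₗ[k] k × k :=
  LinearMap.prod (α • LinearMap.fst k k k) (β • LinearMap.snd k k k)

omit [CharZero k] in
@[simp] theorem diagMap_apply (α β : k) (u : k × k) : diagMap α β u = (α * u.1, β * u.2) := rfl

/-- The exceptional involution of the icosahedral group. -/
def sMap (t c : k) : k × k →ₗ[k] k × k :=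
  LinearMap.prod (c • (-LinearMap.fst k k k + t • LinearMap.snd k k k))
    (c • (t • LinearMap.fst k k k + LinearMap.snd k k k))

omit [CharZero k] in
@[simp] theorem sMap_apply (t c : k) (u : k × k) :
    sMap t c u = (c * (-u.1 + t * u.2), c * (t * u.1 + u.2)) := rfl

omit [CharZero k] in
theorem isSym_rot : IsSym (rotMap (k := k)) where
  hP_eq u _ := hF_rot u.1 u.2
  tP_eq u _ := tF_rot u.1 u.2
  covP_eq u := by simp [covP, cov1_rot, cov2_rot]

omit [CharZero k] in
theorem isSym_neg : IsSym (-LinearMap.id : k × k →ₗ[k] k × k) where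
  hP_eq u _ := by simp only [hP, LinearMap.neg_apply, LinearMap.id_apply, Prod.fst_neg,
    Prod.snd_neg, hF]; ring
  tP_eq u _ := by simp only [tP, LinearMap.neg_apply, LinearMap.id_apply, Prod.fst_neg,
    Prod.snd_neg, tF]; ring
  covP_eq u := by
    simp only [covP, LinearMap.neg_apply, LinearMap.id_apply, Prod.fst_neg, Prod.snd_neg,
      Prod.neg_mk, cov1, cov2, Prod.mk.injEq]
    constructor <;> ring

omit [CharZero k] in
theorem isSym_diag {α β : k} (hα : α ^ 5 = 1) (hβ : β ^ 5 = 1) : IsSym (diagMap α β) := by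
  have e : ∀ (γ : k), γ ^ 5 = 1 → ∀ (z : k) (n : ℕ), (γ * z) ^ n = γ ^ (n % 5) * z ^ n :=
    fun γ hγ z n => by rw [mul_pow, pow_eq_pow_mod n hγ]
  refine ⟨fun u _ => ?_, fun u _ => ?_, fun u => ?_⟩
  · simp only [hP, diagMap_apply, hF, e α hα, e β hβ]; norm_num
  · simp only [tP, diagMap_apply, tF, e α hα, e β hβ]; norm_num
  · simp only [covP, diagMap_apply, cov1, cov2, e α hα, e β hβ, Prod.mk.injEq]
    norm_num
    constructor <;> ring

section Root5

variable {t c : k} (h : R5 t c)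
include h

theorem sMap_sMap (u : k × k) : sMap t c (sMap t c u) = -u := by
  obtain ⟨x, y⟩ := u
  have e : c ^ 2 * (1 + t ^ 2) = -1 := by
    linear_combination (c ^ 2 + 1/5) * h.ht + ((2 - t)/5) * h.hc
  simp only [sMap_apply, Prod.neg_mk, Prod.mk.injEq]
  constructor
  · linear_combination x * e
  · linear_combination y * e

theorem y1F_ne {a b : k} (hab : a ^ 3 ≠ b ^ 2) {u : k × k} (hu : InFibre a b u) :
    y1F t c u.1 u.2 ≠ 0 := by
  intro hy
  have hc := p1_curve h u.1 u.2
  have ht := p1_tangent h u.1 u.2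
  rw [show hF u.1 u.2 = a from hu.1] at ht hc
  rw [show tF u.1 u.2 = b from hu.2] at hc
  rw [hy] at hc ht
  have hns := sW_nonsingular hab hc
  rw [WeierstrassCurve.Affine.nonsingular_iff] at hns
  rcases hns.2 with h1 | h1
  · apply h1
    simp only [sW]
    linear_combination -ht
  · apply h1
    simp [sW]

theorem x2F_ne_x1F {u : k × k} (hu : dP u ≠ 0) : x2F u.1 u.2 ≠ x1F t u.1 u.2 := by
  intro he
  refine hu (pow_eq_zero_iff (n := 2) two_ne_zero |>.mp ?_)
  rw [dP, dF_sq h u.1 u.2, he]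
  ring

theorem tP_hP_sMap {u : k × k} (hu : dP u ≠ 0) :
    hP (sMap t c u) = hP u ∧ tP (sMap t c u) = tP u := by
  have hxne := x2F_ne_x1F h hu
  set v := sMap t c u with hv
  -- `P₂(u)` and `P₁(u)` lie on both curves
  have h1 := p1_curve h v.1 v.2
  rw [hv, sMap_apply] at h1
  simp only [p1_S_x h, p1_S_y h] at h1
  rw [p2_curve] at h1
  have h2 := p2_curve v.1 v.2
  have hx : x2F v.1 v.2 = x1F t u.1 u.2 := by
    rw [← p1_S_x h v.1 v.2]
    have := sMap_sMap h u
    rw [← hv, sMap_apply, Prod.ext_iff] at this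
    rw [show c * (-v.1 + t * v.2) = -u.1 from this.1, show c * (t * v.1 + v.2) = -u.2 from this.2]
    exact x1F_neg t u.1 u.2
  have hy : y2F v.1 v.2 = -y1F t c u.1 u.2 := by
    rw [← p1_S_y h v.1 v.2]
    have := sMap_sMap h u
    rw [← hv, sMap_apply, Prod.ext_iff] at this
    rw [show c * (-v.1 + t * v.2) = -u.1 from this.1, show c * (t * v.1 + v.2) = -u.2 from this.2]
    exact y1F_neg t c u.1 u.2
  rw [hx, hy, neg_sq, p1_curve h] at h2
  have hh : hP v = hP u := by
    have : (x2F u.1 u.2 - x1F t u.1 u.2) * (27 * (hP v - hP u)) = 0 := by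
      simp only [hP] at *
      rw [hv, sMap_apply] at *
      linear_combination h1 - h2
    rcases mul_eq_zero.mp this with h3 | h3
    · exact absurd (sub_eq_zero.mp h3) hxne
    · exact sub_eq_zero.mp (by simpa using h3)
  refine ⟨hh, ?_⟩
  simp only [hP] at hh
  rw [hh] at h2
  simp only [tP]
  linear_combination (1/54 : k) * h2

theorem isSym_sMap : IsSym (sMap t c) where
  hP_eq _ hu := (tP_hP_sMap h hu).1
  tP_eq _ hu := (tP_hP_sMap h hu).2
  covP_eq u := by simp [covP, cov1_S h, cov2_S h]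

omit h in
/-- The basic torsion point attached to `u`. -/
noncomputable def bPt (t c a b : k) (u : k × k) : (sW a b).Point :=
  mkPt a b (x1F t u.1 u.2) (y1F t c u.1 u.2)

variable {a b : k} (hab : a ^ 3 ≠ b ^ 2) {u : k × k} (hu : InFibre a b u)
include hab hu

theorem bPt_nonsingular : (sW a b).Nonsingular (x1F t u.1 u.2) (y1F t c u.1 u.2) := by
  apply sW_nonsingular hab
  rw [p1_curve h, show hF u.1 u.2 = a from hu.1, show tF u.1 u.2 = b from hu.2]

theorem bPt_ne_zero : bPt t c a b u ≠ 0 := by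
  rw [bPt, mkPt_eq (bPt_nonsingular h hab hu)]
  exact WeierstrassCurve.Affine.Point.some_ne_zero _

theorem bPt_neg : bPt t c a b (-u) = -bPt t c a b u := by
  have hn : InFibre a b (-u) := isSym_neg.fibre hab hu
  rw [bPt, bPt, mkPt_eq (bPt_nonsingular h hab hn),
    mkPt_eq (bPt_nonsingular h hab hu), WeierstrassCurve.Affine.Point.neg_some]
  congr 1
  · exact x1F_neg t u.1 u.2
  · rw [sW_negY]; exact y1F_neg t c u.1 u.2

variable [DecidableEq k]

theorem bPt_rot : bPt t c a b (rotMap u) = 2 • bPt t c a b u := by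
  have hy := y1F_ne h hab hu
  have hy' : y1F t c u.1 u.2 ≠ (sW a b).negY (x1F t u.1 u.2) (y1F t c u.1 u.2) := by
    rw [sW_negY]
    intro he
    exact hy (by linear_combination (1/2 : k) * he)
  have hs : (sW a b).slope (x1F t u.1 u.2) (x1F t u.1 u.2) (y1F t c u.1 u.2) (y1F t c u.1 u.2)
      = slopeT t c u.1 u.2 := by
    rw [WeierstrassCurve.Affine.slope_of_Y_ne rfl hy', sW_negY]
    rw [div_eq_iff (by simpa [sub_neg_eq_add, ← two_mul] using hy)]
    have ht := p1_tangent h u.1 u.2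
    rw [show hF u.1 u.2 = a from hu.1] at ht
    simp only [sW]
    linear_combination ht
  rw [two_nsmul]
  conv_rhs => rw [bPt, mkPt_eq (bPt_nonsingular h hab hu)]
  rw [WeierstrassCurve.Affine.Point.add_self_of_Y_ne hy', bPt,
    mkPt_eq (bPt_nonsingular h hab (isSym_rot.fibre hab hu))]
  congr 1
  · rw [rotMap_apply, p1_dbl_x h, hs]
    simp only [WeierstrassCurve.Affine.addX, sW]
    ring
  · rw [rotMap_apply, p1_dbl_y h, hs, p1_dbl_x h]
    simp only [WeierstrassCurve.Affine.addY, WeierstrassCurve.Affine.negY,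
      WeierstrassCurve.Affine.negAddY, WeierstrassCurve.Affine.addX, sW]
    ring

theorem bPt_sMap_diag :
    bPt t c a b (sMap t c (diagMap (zInv t c) 1 u)) = bPt t c a b u + bPt t c a b (sMap t c u) := by
  have hz : zInv t c ^ 5 = 1 := zInv_pow_five h
  have hd := isSym_diag hz (one_pow 5)
  have hne := x2F_ne_x1F h (hu.dP_ne_zero hab)
  have hS := isSym_sMap h
  have hxne : x1F t u.1 u.2 ≠ x1F t (sMap t c u).1 (sMap t c u).2 := by
    rw [sMap_apply, p1_S_x h]; exact hne.symm
  have hs : (sW a b).slope (x1F t u.1 u.2) (x1F t (sMap t c u).1 (sMap t c u).2)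
      (y1F t c u.1 u.2) (y1F t c (sMap t c u).1 (sMap t c u).2) = slopeC t c u.1 u.2 := by
    rw [WeierstrassCurve.Affine.slope_of_X_ne hxne, div_eq_iff (sub_ne_zero.2 hxne)]
    simp only [sMap_apply, p1_S_x h, p1_S_y h]
    linear_combination -(chord_slope h u.1 u.2)
  conv_rhs => rw [bPt, bPt, mkPt_eq (bPt_nonsingular h hab hu),
    mkPt_eq (bPt_nonsingular h hab (hS.fibre hab hu))]
  rw [WeierstrassCurve.Affine.Point.add_of_X_ne hxne, bPt,
    mkPt_eq (bPt_nonsingular h hab (hS.fibre hab (hd.fibre hab hu)))]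
  congr 1
  · rw [hs]
    simp only [sMap_apply, diagMap_apply, one_mul, p1_S_x h, chord_x h,
      WeierstrassCurve.Affine.addX, sW]
    ring
  · rw [hs]
    simp only [sMap_apply, diagMap_apply, one_mul, p1_S_x h, p1_S_y h, chord_y h, chord_x h,
      WeierstrassCurve.Affine.addY, WeierstrassCurve.Affine.negY,
      WeierstrassCurve.Affine.negAddY, WeierstrassCurve.Affine.addX, sW]
    ring

omit hab hu h [DecidableEq k] in
theorem bPt_diag {α β : k} (hα : α ^ 5 = 1) (hβ : β ^ 5 = 1) :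
    bPt t c a b (diagMap α β u) = bPt t c a b u := by
  have e : ∀ (γ : k), γ ^ 5 = 1 → ∀ (z : k) (n : ℕ), (γ * z) ^ n = γ ^ (n % 5) * z ^ n :=
    fun γ hγ z n => by rw [mul_pow, pow_eq_pow_mod n hγ]
  simp only [bPt, diagMap_apply, x1F, y1F, y0F, e α hα, e β hβ]
  norm_num

theorem bPt_eq_iff {u' : k × k} (hu' : InFibre a b u')
    (he : bPt t c a b u' = bPt t c a b u) :
    u'.1 ^ 5 = u.1 ^ 5 ∧ u'.2 ^ 5 = u.2 ^ 5 := by
  have key : ∀ {w w' : k × k}, InFibre a b w → InFibre a b w' →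
      bPt t c a b w' = bPt t c a b w → slopeT t c w'.1 w'.2 = slopeT t c w.1 w.2 := by
    intro w w' hw hw' hh
    rw [bPt, bPt, mkPt_eq (bPt_nonsingular h hab hw), mkPt_eq (bPt_nonsingular h hab hw'),
      WeierstrassCurve.Affine.Point.some.injEq] at hh
    have e1 := p1_tangent h w.1 w.2
    have e2 := p1_tangent h w'.1 w'.2
    rw [show hF w.1 w.2 = a from hw.1] at e1
    rw [show hF w'.1 w'.2 = a from hw'.1, hh.1, hh.2] at e2
    exact mul_left_cancel₀ (mul_ne_zero two_ne_zero (y1F_ne h hab hw)) (e2.symm.trans e1)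
  have k1 := key hu hu' he
  have k2 := key (isSym_rot.fibre hab hu) (isSym_rot.fibre hab hu')
    (by rw [bPt_rot h hab hu, bPt_rot h hab hu', he])
  simp only [rotMap_apply] at k2
  have hc : c ≠ 0 := by
    intro hc
    exact y1F_ne h hab hu (by simp [y1F, hc])
  simp only [slopeT] at k1 k2
  have a1 := mul_left_cancel₀ hc (a := c) (by linear_combination k1 :
    c * ((3 + 9*t) * u'.1^5 + (9 - 3*t) * u'.2^5)
      = c * ((3 + 9*t) * u.1^5 + (9 - 3*t) * u.2^5))
  have a2 := mul_left_cancel₀ hc (a := c) (by linear_combination k2 :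
    c * (-(3 + 9*t) * u'.2^5 + (9 - 3*t) * u'.1^5)
      = c * (-(3 + 9*t) * u.2^5 + (9 - 3*t) * u.1^5))
  have hdet : (3 + 9*t)^2 + (9 - 3*t)^2 = 90 * (2 - t) := by linear_combination 90 * h.ht
  have hne : (90 : k) * (2 - t) ≠ 0 := by
    intro h0
    have h2 : t = 2 := by linear_combination (-1/90 : k) * h0
    have := h.ht
    rw [h2] at this
    norm_num at this
  constructor
  · exact mul_left_cancel₀ hne (by
      linear_combination (3 + 9*t) * a1 + (9 - 3*t) * a2 + (u.1^5 - u'.1^5) * hdet)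
  · exact mul_left_cancel₀ hne (by
      linear_combination (9 - 3*t) * a1 - (3 + 9*t) * a2 + (u.2^5 - u'.2^5) * hdet)

theorem five_nsmul_bPt : 5 • bPt t c a b u = 0 := by
  have h1 := bPt_rot h hab (isSym_rot.fibre hab hu)
  rw [bPt_rot h hab hu, show rotMap (rotMap u) = -u by simp [Prod.ext_iff], bPt_neg h hab hu] at h1
  rw [show (5 : ℕ) = 2 * 2 + 1 from rfl, add_nsmul, mul_nsmul, ← h1, one_nsmul, neg_add_cancel]

theorem bPt_rot_pow (m : ℕ) :
    bPt t c a b ((rotMap ^ m : k × k →ₗ[k] k × k) u) = 2 ^ m • bPt t c a b u := by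
  induction m with
  | zero => simp
  | succ m ih =>
    rw [pow_succ', Module.End.mul_apply, bPt_rot h hab ((isSym_rot.pow m).fibre hab hu), ih,
      pow_succ, mul_nsmul]

theorem bPt_sMap_diag_pow (n : ℕ) :
    bPt t c a b (sMap t c ((diagMap (zInv t c) 1 ^ n : k × k →ₗ[k] k × k) u))
      = n • bPt t c a b u + bPt t c a b (sMap t c u) := by
  have hz := zInv_pow_five h
  have hd := isSym_diag hz (one_pow 5)
  have hfix : ∀ n : ℕ, bPt t c a b ((diagMap (zInv t c) 1 ^ n : k × k →ₗ[k] k × k) u)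
      = bPt t c a b u := fun n => by
    induction n with
    | zero => simp
    | succ n ih => rw [pow_succ', Module.End.mul_apply, bPt_diag hz (one_pow 5), ih]
  induction n with
  | zero => simp
  | succ n ih =>
    rw [pow_succ', Module.End.mul_apply, bPt_sMap_diag h hab ((hd.pow n).fibre hab hu), ih,
      hfix n, succ_nsmul]
    abel

end Root5

theorem nsmul_mod_five {A : Type*} [AddMonoid A] {x : A} (hx : 5 • x = 0) (n : ℕ) :
    n • x = (n % 5) • x := by
  conv_lhs => rw [← Nat.mod_add_div n 5]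
  rw [add_nsmul, mul_nsmul, hx, nsmul_zero, add_zero]

variable [DecidableEq k]

/-- Every nonzero combination of the two basic points is a symmetric translate of the first,
uniformly in the fibre. -/
theorem exists_sym_combination {t c : k} (h : R5 t c) {i j : ℕ}
    (hij : ¬ (i % 5 = 0 ∧ j % 5 = 0)) :
    ∃ g : k × k →ₗ[k] k × k, IsSym g ∧ ∀ (a b : k) (u : k × k), a ^ 3 ≠ b ^ 2 →
      InFibre a b u →
      bPt t c a b (g u) = i • bPt t c a b u + j • bPt t c a b (sMap t c u) := by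
  by_cases hj : j % 5 = 0
  · have hi : i % 5 ≠ 0 := fun hi => hij ⟨hi, hj⟩
    obtain ⟨m, hm⟩ := (show ∀ r : Fin 5, r.1 ≠ 0 → ∃ m : Fin 4, 2 ^ m.1 % 5 = r.1 by decide)
      ⟨i % 5, Nat.mod_lt _ (by norm_num)⟩ hi
    refine ⟨rotMap ^ m.1, isSym_rot.pow _, fun a b u hab hu => ?_⟩
    rw [bPt_rot_pow h hab hu, nsmul_mod_five (five_nsmul_bPt h hab hu), hm,
      ← nsmul_mod_five (five_nsmul_bPt h hab hu),
      nsmul_mod_five (five_nsmul_bPt h hab ((isSym_sMap h).fibre hab hu)) j, hj, zero_nsmul,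
      add_zero]
  · obtain ⟨m, n, hm, hn⟩ := (show ∀ r s : Fin 5, s.1 ≠ 0 →
        ∃ (m : Fin 4) (n : Fin 5), 2 ^ m.1 % 5 = s.1 ∧ 2 ^ m.1 * n.1 % 5 = r.1 by decide)
      ⟨i % 5, Nat.mod_lt _ (by norm_num)⟩ ⟨j % 5, Nat.mod_lt _ (by norm_num)⟩ hj
    have hz := isSym_diag (zInv_pow_five h) (one_pow 5)
    refine ⟨(rotMap ^ m.1) ∘ₗ (sMap t c ∘ₗ diagMap (zInv t c) 1 ^ n.1),
      (isSym_rot.pow _).comp ((isSym_sMap h).comp (hz.pow _)), fun a b u hab hu => ?_⟩
    have h5 := five_nsmul_bPt h hab hu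
    have h5' := five_nsmul_bPt h hab ((isSym_sMap h).fibre hab hu)
    rw [LinearMap.comp_apply, LinearMap.comp_apply,
      bPt_rot_pow h hab ((isSym_sMap h).fibre hab ((hz.pow _).fibre hab hu)),
      bPt_sMap_diag_pow h hab hu, nsmul_add, ← mul_nsmul',
      nsmul_mod_five h5, hn, ← nsmul_mod_five h5, nsmul_mod_five h5', hm, ← nsmul_mod_five h5']

end Fermat.Agent.Switch
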