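import Mathlib
import Fermat.Agent.Switch.Torsion

/-!
# Klein's forms along a line

Coprimality of the forms, existence of fibres over a nonsingular pair of invariants, and the
polynomials obtained by restricting the forms to an affine line.
-/

set_option autoImplicit false

open Polynomial

namespace Fermat.Agent.Switch

section AnyField

variable {F : Type*} [Field F]

/-- `hF` and `dF` have no common zero besides the origin when `5` is invertible. -/
theorem eq_zero_of_hF_dF (h5 : (5 : F) ≠ 0) {x y : F} (hh : hF x y = 0) (hd : dF x y = 0) :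
    x = 0 ∧ y = 0 := by
  have hxy : x * y = 0 := by
    have hd' : x * y * (x^10 + 11*x^5*y^5 - y^10) = 0 := by
      rw [← hd]; simp only [dF]; ring
    rcases mul_eq_zero.1 hd' with h | h
    · exact h
    · rw [hF_eq_mul_add, h, zero_mul, add_zero, mul_assoc, ← mul_pow] at hh
      have h3125 : (3125 : F) ≠ 0 := by
        rw [show (3125 : F) = 5 ^ 5 by norm_num]; exact pow_ne_zero 5 h5
      exact (pow_eq_zero_iff (n := 10) (by norm_num)).1 ((mul_eq_zero.1 hh).resolve_left h3125)
  rcases mul_eq_zero.1 hxy with rfl | rfl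
  · exact ⟨rfl, by simpa [hF] using hh⟩
  · exact ⟨by simpa [hF] using hh, rfl⟩

end AnyField

variable {k : Type*} [Field k] [CharZero k]

/-- The gradient of `dF` does not vanish away from the origin. -/
theorem eq_zero_of_cov {x y : k} (h1 : cov1 x y = 0) (h2 : cov2 x y = 0) : x = 0 ∧ y = 0 := by
  have hd : dF x y = 0 := by
    have h := det_cov x y
    rw [h1, h2, mul_zero, mul_zero, sub_zero] at h
    exact (mul_eq_zero.1 h.symm).resolve_left (by norm_num)
  by_cases hy : y = 0
  · subst hy
    exact ⟨by simpa [cov1] using h1, rfl⟩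
  by_cases hx : x = 0
  · subst hx
    exact absurd (by simpa [cov2] using h2) hy
  exfalso
  have hQ : x^10 + 11*x^5*y^5 - y^10 = 0 := by
    have hd' : x * y * (x^10 + 11*x^5*y^5 - y^10) = 0 := by
      rw [← hd]; simp only [dF]; ring
    exact (mul_eq_zero.1 hd').resolve_left (mul_ne_zero hx hy)
  have h5 : y * (y^5 * (10*y^5 - 55*x^5)) = 0 := by
    simp only [cov2] at h2
    linear_combination h2 - 11 * y * hQ
  have h6 : 10*y^5 - 55*x^5 = 0 :=
    ((mul_eq_zero.1 ((mul_eq_zero.1 h5).resolve_left hy)).resolve_left (pow_ne_zero 5 hy))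
  have h7 : y ^ 10 = 0 := by
    linear_combination (121/125 : k) * hQ - ((11 : k)/125) * (-(1 : k)/5) * (x^5) * h6
      - (1/125 : k) * (-123/5) * y^5 * h6
  exact hy ((pow_eq_zero_iff (n := 10) (by norm_num)).1 h7)

theorem exists_R5 [IsAlgClosed k] : ∃ t c : k, R5 t c := by
  obtain ⟨t, ht⟩ := IsAlgClosed.exists_root (X ^ 2 + X - 1 : k[X])
    (by
      have : (X ^ 2 + X - 1 : k[X]).degree = 2 := by compute_degree!
      rw [this]; norm_num)
  obtain ⟨c, hc⟩ := IsAlgClosed.exists_pow_nat_eq (-(t + 3) / 5) (show 0 < 2 by norm_num)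
  refine ⟨t, c, ⟨by simpa using ht, ?_⟩⟩
  linear_combination (5 : k) * hc

/-- Every nonsingular pair of invariants is hit by `(hP, tP)`. -/
theorem exists_inFibre [IsAlgClosed k] {a b : k} (hab : a ^ 3 ≠ b ^ 2) :
    ∃ u : k × k, InFibre a b u := by
  obtain ⟨x, hx⟩ : ∃ x : k, hF x 1 ^ 3 * b ^ 2 = tF x 1 ^ 2 * a ^ 3 := by
    set P : k[X] := C (b ^ 2 - a ^ 3) * hF X 1 ^ 3 + C (-1728 * a ^ 3) * dF X 1 ^ 5 with hP
    have hne : b ^ 2 - a ^ 3 ≠ 0 := sub_ne_zero.2 (Ne.symm hab)
    have hdeg : P.natDegree = 60 := by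
      have h1 : (hF (X : k[X]) 1).natDegree = 20 := by
        simp only [hF, one_pow, mul_one]; compute_degree!
      have h2 : (dF (X : k[X]) 1).natDegree ≤ 11 := by
        simp only [dF, one_pow, mul_one]; compute_degree
      rw [hP, natDegree_add_eq_left_of_natDegree_lt]
      · rw [natDegree_C_mul hne, natDegree_pow, h1]
      · rw [natDegree_C_mul hne, natDegree_pow, h1]
        refine lt_of_le_of_lt (natDegree_C_mul_le _ _) ?_
        rw [natDegree_pow]; omega
    obtain ⟨x, hx⟩ := IsAlgClosed.exists_root P (by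
      intro h0
      rw [natDegree_eq_of_degree_eq_some (n := 0) (by exact_mod_cast h0)] at hdeg
      omega)
    refine ⟨x, ?_⟩
    have hx' : (b ^ 2 - a ^ 3) * hF x 1 ^ 3 + (-1728 * a ^ 3) * dF x 1 ^ 5 = 0 := by
      have e1 := map_hF (evalRingHom x) (X : k[X]) 1
      have e2 := map_dF (evalRingHom x) (X : k[X]) 1
      simp only [coe_evalRingHom, eval_X, eval_one] at e1 e2
      simpa [hP, IsRoot, e1, e2] using hx
    linear_combination hx' + a ^ 3 * hF_cube_sub_tF_sq x 1
  have hd : dF x 1 ≠ 0 := by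
    intro hd
    have h1 : hF x 1 ^ 3 = tF x 1 ^ 2 := by
      have := hF_cube_sub_tF_sq x 1
      rw [hd] at this
      simpa [sub_eq_zero] using this
    rw [← h1] at hx
    have h2 : hF x 1 ^ 3 * (b ^ 2 - a ^ 3) = 0 := by linear_combination hx
    have h3 := pow_eq_zero_iff (n := 3) (by norm_num) |>.1
      ((mul_eq_zero.1 h2).resolve_right (sub_ne_zero.2 (Ne.symm hab)))
    exact one_ne_zero (eq_zero_of_hF_dF (by norm_num) h3 hd).2
  have hne : hF x 1 ^ 3 ≠ tF x 1 ^ 2 := (dP_ne_zero_iff (x, 1)).1 hd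
  obtain ⟨z, hz1, hz2⟩ : ∃ z : k, z ^ 20 * hF x 1 = a ∧ z ^ 30 * tF x 1 = b := by
    set H := hF x 1
    set T := tF x 1
    by_cases hH : H = 0
    · have hT : T ≠ 0 := fun h => hne (by rw [hH, h]; ring)
      have ha : a = 0 := by
        rw [hH] at hx
        simpa [hT] using hx.symm
      obtain ⟨z, hz⟩ := IsAlgClosed.exists_pow_nat_eq (b / T) (show 0 < 30 by norm_num)
      exact ⟨z, by rw [hH, mul_zero, ha], by rw [hz, div_mul_cancel₀ _ hT]⟩
    by_cases hT : T = 0
    · have hb : b = 0 := by
        rw [hT] at hx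
        simpa [hH] using hx
      obtain ⟨z, hz⟩ := IsAlgClosed.exists_pow_nat_eq (a / H) (show 0 < 20 by norm_num)
      exact ⟨z, by rw [hz, div_mul_cancel₀ _ hH], by rw [hT, mul_zero, hb]⟩
    have ha : a ≠ 0 := by
      intro ha
      apply hab
      rw [ha] at hx
      have hb : b = 0 := by simpa [hH] using hx
      rw [ha, hb]; ring
    obtain ⟨z, hz⟩ := IsAlgClosed.exists_pow_nat_eq (b * H / (T * a)) (show 0 < 10 by norm_num)
    refine ⟨z, ?_, ?_⟩
    · rw [show z ^ 20 = (z ^ 10) ^ 2 by ring, hz]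
      field_simp
      linear_combination hx
    · rw [show z ^ 30 = (z ^ 10) ^ 3 by ring, hz]
      field_simp
      linear_combination b * hx
  refine ⟨(z * x, z * 1), ?_, ?_⟩
  · simp only [hP, hF_smul]; exact hz1
  · simp only [tP, tF_smul]; exact hz2

omit [CharZero k] in
/-- The leading coefficient of a binary form restricted to a line. -/
theorem coeff_top [Infinite k] {P Q : k[X]} {N : ℕ} (hP : P.natDegree ≤ N)
    (h : ∀ μ : k, μ ≠ 0 → P.eval μ = μ ^ N * Q.eval μ⁻¹) : P.coeff N = Q.eval 0 := by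
  have hr : reflect N P = Q := by
    refine eq_of_infinite_eval_eq _ _ (Set.Infinite.mono (fun x hx => ?_)
      (Set.finite_singleton (0 : k)).infinite_compl)
    have hx : x ≠ 0 := hx
    have : Invertible (x⁻¹) := invertibleOfNonzero (inv_ne_zero hx)
    have he := eval₂_reflect_mul_pow (RingHom.id k) x⁻¹ N P hP
    rw [invOf_eq_inv, inv_inv] at he
    change (reflect N P).eval x = Q.eval x
    have h2 := h x⁻¹ (inv_ne_zero hx)
    rw [inv_inv] at h2
    change (reflect N P).eval x * x⁻¹ ^ N = P.eval x⁻¹ at he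
    rw [h2, mul_comm (x⁻¹ ^ N)] at he
    exact mul_right_cancel₀ (pow_ne_zero N (inv_ne_zero hx)) he
  rw [← hr, ← coeff_zero_eq_eval_zero, coeff_reflect, revAt_le (Nat.zero_le N), Nat.sub_zero]

omit [CharZero k] in
/-- The affine line through `v` with direction `d`, as a pair of polynomials. -/
noncomputable def linePair (v d : k × k) : k[X] × k[X] := (C v.1 + X * C d.1, C v.2 + X * C d.2)

/-- `hP` on the line. -/
noncomputable def hLine (v d : k × k) : k[X] := hF (linePair v d).1 (linePair v d).2

/-- `tP` on the line. -/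
noncomputable def tLine (v d : k × k) : k[X] := tF (linePair v d).1 (linePair v d).2

/-- `dP` on the line. -/
noncomputable def dLine (v d : k × k) : k[X] := dF (linePair v d).1 (linePair v d).2

omit [CharZero k] in
theorem eval_hLine (v d : k × k) (μ : k) : (hLine v d).eval μ = hP (v + μ • d) := by
  rw [hLine, ← coe_evalRingHom, map_hF]
  simp [linePair, hP, mul_comm μ]

omit [CharZero k] in
theorem eval_tLine (v d : k × k) (μ : k) : (tLine v d).eval μ = tP (v + μ • d) := by
  rw [tLine, ← coe_evalRingHom, map_tF]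
  simp [linePair, tP, mul_comm μ]

omit [CharZero k] in
theorem eval_dLine (v d : k × k) (μ : k) : (dLine v d).eval μ = dP (v + μ • d) := by
  rw [dLine, ← coe_evalRingHom, map_dF]
  simp [linePair, dP, mul_comm μ]

omit [CharZero k] in
theorem line_cube_sub_sq (v d : k × k) :
    hLine v d ^ 3 - tLine v d ^ 2 = -1728 * dLine v d ^ 5 :=
  hF_cube_sub_tF_sq' _ _

omit [CharZero k] in
theorem natDegree_hLine (v d : k × k) : (hLine v d).natDegree ≤ 20 := by
  simp only [hLine, hF, linePair]; compute_degree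

omit [CharZero k] in
theorem natDegree_tLine (v d : k × k) : (tLine v d).natDegree ≤ 30 := by
  simp only [tLine, tF, linePair]; compute_degree

omit [CharZero k] in
theorem natDegree_dLine_le (v d : k × k) : (dLine v d).natDegree ≤ 12 := by
  simp only [dLine, dF, linePair]; compute_degree

theorem coeff_hLine (v d : k × k) : (hLine v d).coeff 20 = hP d := by
  have h := coeff_top (Q := hLine d v) (natDegree_hLine v d) fun μ hμ => by
    rw [eval_hLine, eval_hLine]
    simp only [hP]
    rw [← hF_smul]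
    congr 1 <;> simp [mul_add, mul_inv_cancel_left₀ hμ, add_comm]
  rw [h, eval_hLine, zero_smul, add_zero]

theorem coeff_tLine (v d : k × k) : (tLine v d).coeff 30 = tP d := by
  have h := coeff_top (Q := tLine d v) (natDegree_tLine v d) fun μ hμ => by
    rw [eval_tLine, eval_tLine]
    simp only [tP]
    rw [← tF_smul]
    congr 1 <;> simp [mul_add, mul_inv_cancel_left₀ hμ, add_comm]
  rw [h, eval_tLine, zero_smul, add_zero]

theorem natDegree_dLine (v : k × k) {d : k × k} (hd : dP d ≠ 0) : (dLine v d).natDegree = 12 := by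
  refine le_antisymm (natDegree_dLine_le v d) (le_natDegree_of_ne_zero ?_)
  have h := coeff_top (Q := dLine d v) (natDegree_dLine_le v d) fun μ hμ => by
    rw [eval_dLine, eval_dLine]
    simp only [dP]
    rw [← dF_smul]
    congr 1 <;> simp [mul_add, mul_inv_cancel_left₀ hμ, add_comm]
  rw [h, eval_dLine, zero_smul, add_zero]
  exact hd

omit [CharZero k] in
/-- A point on a line not through the origin is nonzero. -/
theorem line_ne_zero {v d : k × k} (hdet : v.1 * d.2 - v.2 * d.1 ≠ 0) (μ : k) :
    v + μ • d ≠ 0 := by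
  intro h
  apply hdet
  simp only [Prod.ext_iff, Prod.fst_add, Prod.snd_add, Prod.smul_fst, Prod.smul_snd, smul_eq_mul,
    Prod.fst_zero, Prod.snd_zero] at h
  linear_combination d.2 * h.1 - d.1 * h.2

theorem hLine_ne_zero_of_root {v d : k × k} (hdet : v.1 * d.2 - v.2 * d.1 ≠ 0) {μ : k}
    (hμ : (dLine v d).eval μ = 0) : (hLine v d).eval μ ≠ 0 := by
  rw [eval_dLine] at hμ
  rw [eval_hLine]
  intro h
  obtain ⟨h1, h2⟩ := eq_zero_of_hF_dF (by norm_num) h hμ
  exact line_ne_zero hdet μ (Prod.ext h1 h2)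

omit [CharZero k] in
theorem derivative_dLine (v d : k × k) : derivative (dLine v d)
    = cov2 (linePair v d).1 (linePair v d).2 * C d.1
      - cov1 (linePair v d).1 (linePair v d).2 * C d.2 := by
  simp only [dLine, dF, cov1, cov2, linePair, derivative_add, derivative_sub, derivative_mul,
    derivative_pow, derivative_C, derivative_X, derivative_ofNat]
  simp only [Nat.cast_ofNat, map_ofNat]
  ring

/-- Klein's form of degree 12 restricted to a line not through the origin is separable. -/
theorem separable_dLine [IsAlgClosed k] {v d : k × k} (hdet : v.1 * d.2 - v.2 * d.1 ≠ 0) :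
    (dLine v d).Separable := by
  rw [separable_def, isCoprime_iff_aeval_ne_zero_of_isAlgClosed k k]
  intro μ
  by_contra hc
  push Not at hc
  obtain ⟨h0, h1⟩ := hc
  rw [coe_aeval_eq_eval] at h0 h1
  rw [eval_dLine] at h0
  rw [derivative_dLine] at h1
  set w := v + μ • d with hw
  have hc1 : (cov1 (linePair v d).1 (linePair v d).2).eval μ = cov1 w.1 w.2 := by
    simp [cov1, linePair, hw, mul_comm μ]
  have hc2 : (cov2 (linePair v d).1 (linePair v d).2).eval μ = cov2 w.1 w.2 := by
    simp [cov2, linePair, hw, mul_comm μ]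
  rw [eval_sub, eval_mul, eval_mul, eval_C, eval_C, hc1, hc2] at h1
  have h2 := det_cov w.1 w.2
  rw [show dF w.1 w.2 = 0 from h0, mul_zero] at h2
  have hwd : w.1 * d.2 - w.2 * d.1 = v.1 * d.2 - v.2 * d.1 := by
    simp only [hw, Prod.fst_add, Prod.snd_add, Prod.smul_fst, Prod.smul_snd, smul_eq_mul]; ring
  rw [← hwd] at hdet
  have e1 : cov1 w.1 w.2 = 0 := mul_left_cancel₀ hdet (by linear_combination d.1 * h2 - w.1 * h1)
  have e2 : cov2 w.1 w.2 = 0 := mul_left_cancel₀ hdet (by linear_combination d.2 * h2 - w.2 * h1)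
  obtain ⟨a1, a2⟩ := eq_zero_of_cov e1 e2
  apply hdet
  rw [a1, a2]; ring

/-- Some integral translate of the covariant direction is nondegenerate. -/
theorem exists_kappa (u : k × k) (hu : dP u ≠ 0) :
    ∃ κ : ℤ, dP (covP u + (κ : k) • u) ≠ 0 := by
  have hne : dLine (covP u) u ≠ 0 := fun h => by
    have := natDegree_dLine (covP u) hu
    rw [h, natDegree_zero] at this
    omega
  obtain ⟨x, ⟨κ, rfl⟩, hx⟩ := ((Set.infinite_range_of_injective
    (Int.cast_injective (α := k))).sdiff (finite_setOfPred_isRoot hne)).nonempty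
  exact ⟨κ, fun h => hx (by rw [Set.mem_ofPred_eq, IsRoot, eval_dLine, h])⟩

omit [CharZero k] in
theorem det_pencil (u : k × k) (κ : k) :
    u.1 * (covP u + κ • u).2 - u.2 * (covP u + κ • u).1 = 12 * dP u := by
  simp only [covP, Prod.fst_add, Prod.snd_add, Prod.smul_fst, Prod.smul_snd, smul_eq_mul]
  have := det_cov u.1 u.2
  simp only [dP]
  linear_combination this

end Fermat.Agent.Switch
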