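import Mathlib
import Fermat.Agent.Switch.Torsion

/-!
# Transport of 5-torsion along the pencil

If `v` lies over `(a, b)`, then for fixed `μ, κ` the point `w = pencil μ κ v` gives a curve with
invariants `(hP w, tP w)` fixed by every field automorphism fixing `a, b, μ, κ`, and whose
5-torsion is equivariantly isomorphic to that of the curve over `(a, b)`.
-/

set_option autoImplicit false

namespace Fermat.Agent.Switch

variable {k : Type*} [Field k] [CharZero k]

/-- The map on points induced by a ring automorphism (fixing the coefficients). -/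
noncomputable def ptMap (σ : k ≃+* k) {a b : k} : (sW a b).Point → (sW a b).Point
  | .zero => 0
  | .some x y _ => mkPt a b (σ x) (σ y)

omit [CharZero k] in
theorem ptMap_zero (σ : k ≃+* k) (a b : k) : ptMap σ (0 : (sW a b).Point) = 0 := rfl

omit [CharZero k] in
theorem ptMap_some (σ : k ≃+* k) {a b x y : k} (h : (sW a b).Nonsingular x y) :
    ptMap σ (.some x y h : (sW a b).Point) = mkPt a b (σ x) (σ y) := rfl

/-- The semilinear map on the plane attached to `σ`. -/
def twistMap (t c : k) (σ : k ≃+* k) (u : k × k) : k × k :=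
  sMap t c (σ (-(sMap t c u)).1, σ (-(sMap t c u)).2)

omit [CharZero k] in
theorem covP_map (σ : k ≃+* k) (u : k × k) :
    covP (σ u.1, σ u.2) = (σ (covP u).1, σ (covP u).2) := by
  simp [covP, cov1, cov2, map_ofNat]

omit [CharZero k] in
theorem hP_map (σ : k ≃+* k) (u : k × k) : hP (σ u.1, σ u.2) = σ (hP u) := by
  simp [hP, hF, map_ofNat]

omit [CharZero k] in
theorem tP_map (σ : k ≃+* k) (u : k × k) : tP (σ u.1, σ u.2) = σ (tP u) := by
  simp [tP, tF, map_ofNat]

omit [CharZero k] in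
theorem pencil_map (σ : k ≃+* k) (μ κ : k) (u : k × k) :
    pencil (σ μ) (σ κ) (σ u.1, σ u.2) = (σ (pencil μ κ u).1, σ (pencil μ κ u).2) := by
  simp [pencil, covP_map, mul_add]

section Root5

variable {t c : k} (h : R5 t c) (σ : k ≃+* k)
include h

theorem twistMap_pencil {μ κ : k} (hμ : σ μ = μ) (hκ : σ κ = κ) (u : k × k) :
    twistMap t c σ (pencil μ κ u) = pencil μ κ (twistMap t c σ u) := by
  have hS := isSym_sMap h
  have hN := (isSym_neg (k := k)).comp hS
  have h1 : -(sMap t c (pencil μ κ u)) = pencil μ κ (-(sMap t c u)) := by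
    have := hN.pencil_eq μ κ u
    simpa using this
  rw [twistMap, twistMap, h1, ← pencil_map, hμ, hκ, hS.pencil_eq]

theorem hP_twistMap {u : k × k} (hu : dP u ≠ 0) :
    hP (twistMap t c σ u) = σ (hP u) ∧ tP (twistMap t c σ u) = σ (tP u) := by
  have hS := isSym_sMap h
  have hN := (isSym_neg (k := k)).comp hS
  have h1 := hN.hP_eq u hu
  have h2 := hN.tP_eq u hu
  simp only [LinearMap.comp_apply, LinearMap.neg_apply, LinearMap.id_apply] at h1 h2
  have hne : dP (σ (-(sMap t c u)).1, σ (-(sMap t c u)).2) ≠ 0 := by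
    rw [dP_ne_zero_iff, hP_map, tP_map, ← map_pow, ← map_pow, σ.injective.ne_iff, h1, h2,
      ← dP_ne_zero_iff]
    exact hu
  rw [twistMap, hS.hP_eq _ hne, hS.tP_eq _ hne, hP_map, tP_map, h1, h2]
  exact ⟨rfl, rfl⟩

variable {a b : k} (hab : a ^ 3 ≠ b ^ 2) {u : k × k} (hu : InFibre a b u)
include hab hu

theorem twistMap_fibre (ha : σ a = a) (hb : σ b = b) : InFibre a b (twistMap t c σ u) := by
  obtain ⟨h1, h2⟩ := hP_twistMap h σ (hu.dP_ne_zero hab)
  exact ⟨h1.trans (by rw [hu.1, ha]), h2.trans (by rw [hu.2, hb])⟩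

theorem ptMap_bPt : ptMap σ (bPt t c a b u) = bPt t c a b (twistMap t c σ u) := by
  rw [bPt, mkPt_eq (bPt_nonsingular h hab hu), ptMap_some, bPt]
  have hss := sMap_sMap h u
  simp only [sMap_apply, Prod.ext_iff, Prod.fst_neg, Prod.snd_neg] at hss
  congr 1
  · simp only [twistMap, sMap_apply, p1_S_x h]
    calc σ (x1F t u.1 u.2) = σ (x2F (-(c * (-u.1 + t * u.2))) (-(c * (t * u.1 + u.2)))) := by
          rw [← p1_S_x h (-(c * (-u.1 + t * u.2))) (-(c * (t * u.1 + u.2)))]
          congr 2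
          · linear_combination hss.1
          · linear_combination hss.2
      _ = _ := by simp [x2F, map_ofNat]
  · simp only [twistMap, sMap_apply, p1_S_y h]
    calc σ (y1F t c u.1 u.2) = σ (y2F (-(c * (-u.1 + t * u.2))) (-(c * (t * u.1 + u.2)))) := by
          rw [← p1_S_y h (-(c * (-u.1 + t * u.2))) (-(c * (t * u.1 + u.2)))]
          congr 2
          · linear_combination hss.1
          · linear_combination hss.2
      _ = _ := by simp [y2F, map_ofNat]

end Root5

/-- The 5-torsion subgroup of `sW a b`. -/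
noncomputable abbrev torsion5 [DecidableEq k] (a b : k) : Submodule ℤ (sW a b).Point :=
  Submodule.torsionBy ℤ (sW a b).Point ((5 : ℕ) : ℤ)

variable [DecidableEq k] {t c : k} (h : R5 t c) {a b : k} (hab : a ^ 3 ≠ b ^ 2)
  {v : k × k} (hv : InFibre a b v)

omit [CharZero k] in
theorem mem_torsion5 {P : (sW a b).Point} : P ∈ torsion5 a b ↔ 5 • P = 0 := by
  rw [Submodule.mem_torsionBy_iff, natCast_zsmul]

include h hab hv in
/-- The homomorphism `(ℤ/5)² → E[5]` given by the two basic points. -/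
theorem exists_basisHom :
    ∃ ψ : ZMod 5 × ZMod 5 →+ torsion5 a b, Function.Injective ψ ∧
      ∀ x : ZMod 5 × ZMod 5,
        (ψ x : (sW a b).Point)
          = x.1.val • bPt t c a b v + x.2.val • bPt t c a b (sMap t c v) := by
  have hS := (isSym_sMap h).fibre hab hv
  have m1 := mem_torsion5.2 (five_nsmul_bPt h hab hv)
  have m2 := mem_torsion5.2 (five_nsmul_bPt h hab hS)
  let ψ : ZMod 5 × ZMod 5 →+ torsion5 a b :=
    { toFun := fun x => x.1.val • ⟨_, m1⟩ + x.2.val • ⟨_, m2⟩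
      map_zero' := by simp
      map_add' := fun x y => by
        apply Subtype.ext
        simp only [Prod.fst_add, Prod.snd_add, Submodule.coe_add, AddSubmonoidClass.coe_nsmul,
          ZMod.val_add]
        rw [← nsmul_mod_five (five_nsmul_bPt h hab hv),
          ← nsmul_mod_five (five_nsmul_bPt h hab hS), add_nsmul, add_nsmul]
        abel }
  refine ⟨ψ, (injective_iff_map_eq_zero ψ).2 fun x hx => ?_, fun x => rfl⟩
  by_contra hne
  have hij : ¬ (x.1.val % 5 = 0 ∧ x.2.val % 5 = 0) := fun hh => hne (Prod.ext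
    ((ZMod.val_eq_zero _).1 (by rw [Nat.mod_eq_of_lt (ZMod.val_lt _)] at hh; exact hh.1))
    ((ZMod.val_eq_zero _).1 (by
      rw [Nat.mod_eq_of_lt (ZMod.val_lt x.2)] at hh; exact hh.2)))
  obtain ⟨g, hg, hge⟩ := exists_sym_combination h hij
  refine bPt_ne_zero h hab (hg.fibre hab hv) ?_
  rw [hge a b v hab hv]
  exact congrArg Subtype.val hx

variable {μ κ : k} (h25 : Nat.card (torsion5 a b) = 25)

include h hab hv h25 in
/-- Any two points of the fibre over `(a, b)` differ by a symmetry, uniformly along the pencil. -/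
theorem exists_sym_eq_bPt {u : k × k} (hu : InFibre a b u) :
    ∃ g : k × k →ₗ[k] k × k, IsSym g ∧ ∀ μ κ : k, pencil μ κ u = g (pencil μ κ v) := by
  obtain ⟨ψ, hinj, hψ⟩ := exists_basisHom h hab hv
  have : Finite (torsion5 a b) := Nat.finite_of_card_ne_zero (by omega)
  have hbij := (Nat.bijective_iff_injective_and_card ψ).2 ⟨hinj, by rw [h25]; simp⟩
  obtain ⟨x, hx⟩ := hbij.2 ⟨bPt t c a b u, mem_torsion5.2 (five_nsmul_bPt h hab hu)⟩
  have hij : ¬ (x.1.val % 5 = 0 ∧ x.2.val % 5 = 0) := fun hh => by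
    have := congrArg Subtype.val hx
    rw [hψ, Nat.mod_eq_of_lt (ZMod.val_lt _), Nat.mod_eq_of_lt (ZMod.val_lt _)] at *
    simp only [hh.1, hh.2, zero_nsmul, add_zero] at this
    exact bPt_ne_zero h hab hu this.symm
  obtain ⟨g, hg, hge⟩ := exists_sym_combination h hij
  have he : bPt t c a b u = bPt t c a b (g v) := by
    rw [hge a b v hab hv, ← hψ, hx]
  have hgv := hg.fibre hab hv
  obtain ⟨e1, e2⟩ := bPt_eq_iff h hab hgv hu he
  -- the fifth roots of unity relating `u` and `g v`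
  have root : ∀ x y : k, x ^ 5 = y ^ 5 → ∃ α : k, α ^ 5 = 1 ∧ x = α * y := fun x y hxy => by
    by_cases hy : y = 0
    · subst hy
      exact ⟨1, one_pow 5, by simpa using hxy⟩
    · exact ⟨x / y, by rw [div_pow, hxy, div_self (pow_ne_zero 5 hy)],
        (div_mul_cancel₀ x hy).symm⟩
  obtain ⟨α, hα, hα'⟩ := root _ _ e1
  obtain ⟨β, hβ, hβ'⟩ := root _ _ e2
  have hd := isSym_diag hα hβ
  refine ⟨diagMap α β ∘ₗ g, hd.comp hg, fun μ κ => ?_⟩
  rw [(hd.comp hg).pencil_eq]
  congr 1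
  rw [LinearMap.comp_apply, diagMap_apply]
  exact Prod.ext hα' hβ'

include h hab hv h25 in
/-- The invariants of a member of the pencil are fixed by automorphisms fixing the parameters. -/
theorem pencil_invariants_fixed (hw : dP (pencil μ κ v) ≠ 0) {σ : k ≃+* k} (ha : σ a = a)
    (hb : σ b = b) (hμ : σ μ = μ) (hκ : σ κ = κ) :
    σ (hP (pencil μ κ v)) = hP (pencil μ κ v) ∧ σ (tP (pencil μ κ v)) = tP (pencil μ κ v) := by
  obtain ⟨g, hg, hge⟩ := exists_sym_eq_bPt h hab hv h25 (twistMap_fibre h σ hab hv ha hb)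
  obtain ⟨h1, h2⟩ := hP_twistMap h σ hw
  rw [twistMap_pencil h σ hμ hκ, hge] at h1 h2
  exact ⟨h1.symm.trans (hg.hP_eq _ hw), h2.symm.trans (hg.tP_eq _ hw)⟩

include h hab hv h25 in
/-- The 5-torsion of a member of the pencil is equivariantly that of the base curve. -/
theorem exists_transport (hw : dP (pencil μ κ v) ≠ 0)
    (h25' : Nat.card (torsion5 (hP (pencil μ κ v)) (tP (pencil μ κ v))) = 25) :
    ∃ Φ : torsion5 a b ≃+ torsion5 (hP (pencil μ κ v)) (tP (pencil μ κ v)),
      ∀ σ : k ≃+* k, σ a = a → σ b = b → σ μ = μ → σ κ = κ →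
        ∀ P Q : torsion5 a b, ptMap σ (P : (sW a b).Point) = Q →
          ptMap σ (Φ P : (sW (hP (pencil μ κ v)) (tP (pencil μ κ v))).Point) = Φ Q := by
  set w := pencil μ κ v with hwdef
  have hab' : hP w ^ 3 ≠ tP w ^ 2 := (dP_ne_zero_iff w).1 hw
  have hwf : InFibre (hP w) (tP w) w := ⟨rfl, rfl⟩
  obtain ⟨ψ, hinj, hψ⟩ := exists_basisHom h hab hv
  obtain ⟨ψ', hinj', hψ'⟩ := exists_basisHom h hab' hwf
  have : Finite (torsion5 a b) := Nat.finite_of_card_ne_zero (by omega)
  have : Finite (torsion5 (hP w) (tP w)) := Nat.finite_of_card_ne_zero (by omega)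
  have hb1 := (Nat.bijective_iff_injective_and_card ψ).2 ⟨hinj, by rw [h25]; simp⟩
  have hb2 := (Nat.bijective_iff_injective_and_card ψ').2 ⟨hinj', by rw [h25']; simp⟩
  refine ⟨(AddEquiv.ofBijective ψ hb1).symm.trans (AddEquiv.ofBijective ψ' hb2),
    fun σ ha hb hμ hκ P Q hPQ => ?_⟩
  obtain ⟨x, rfl⟩ := hb1.2 P
  obtain ⟨y, rfl⟩ := hb1.2 Q
  have e : ∀ z, (AddEquiv.ofBijective ψ hb1).symm (ψ z) = z := fun z =>
    (AddEquiv.ofBijective ψ hb1).symm_apply_apply z
  simp only [AddEquiv.trans_apply, e, AddEquiv.ofBijective_apply]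
  by_cases hx : x = 0
  · subst hx
    simp only [map_zero, Submodule.coe_zero, ptMap_zero] at hPQ ⊢
    have : y = 0 := hinj (Subtype.ext (by rw [map_zero]; exact hPQ.symm))
    rw [this, map_zero, Submodule.coe_zero]
  have nz : ∀ x : ZMod 5 × ZMod 5, x ≠ 0 → ¬ (x.1.val % 5 = 0 ∧ x.2.val % 5 = 0) := by
    intro x hne hh
    rw [Nat.mod_eq_of_lt (ZMod.val_lt _), Nat.mod_eq_of_lt (ZMod.val_lt _)] at hh
    exact hne (Prod.ext ((ZMod.val_eq_zero _).1 hh.1) ((ZMod.val_eq_zero _).1 hh.2))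
  obtain ⟨g, hg, hge⟩ := exists_sym_combination h (nz x hx)
  have hgv := hg.fibre hab hv
  have hgw := hg.fibre hab' hwf
  rw [hψ, ← hge a b v hab hv, ptMap_bPt h σ hab hgv] at hPQ
  have hfib := twistMap_fibre h σ hab hgv ha hb
  have hy : y ≠ 0 := by
    rintro rfl
    rw [map_zero] at hPQ
    exact bPt_ne_zero h hab hfib hPQ
  obtain ⟨g', hg', hge'⟩ := exists_sym_combination h (nz y hy)
  rw [hψ, ← hge' a b v hab hv] at hPQ
  rw [hψ', hψ', ← hge (hP w) (tP w) w hab' hwf, ← hge' (hP w) (tP w) w hab' hwf,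
    ptMap_bPt h σ hab' hgw]
  obtain ⟨e1, e2⟩ := bPt_eq_iff h hab (hg'.fibre hab hv) hfib hPQ
  have root : ∀ x y : k, x ^ 5 = y ^ 5 → ∃ α : k, α ^ 5 = 1 ∧ x = α * y := fun x y hxy => by
    by_cases hy : y = 0
    · subst hy
      exact ⟨1, one_pow 5, by simpa using hxy⟩
    · exact ⟨x / y, by rw [div_pow, hxy, div_self (pow_ne_zero 5 hy)],
        (div_mul_cancel₀ x hy).symm⟩
  obtain ⟨α, hα, hα'⟩ := root _ _ e1
  obtain ⟨β, hβ, hβ'⟩ := root _ _ e2
  have hd := isSym_diag hα hβ
  have hkey : twistMap t c σ (g v) = diagMap α β (g' v) := by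
    rw [diagMap_apply]; exact Prod.ext hα' hβ'
  have : twistMap t c σ (g w) = diagMap α β (g' w) := by
    rw [hwdef, hg.pencil_eq, twistMap_pencil h σ hμ hκ, hkey, hg'.pencil_eq, hd.pencil_eq]
  rw [this, bPt_diag hα hβ]

end Fermat.Agent.Switch
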