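import Mathlib
import Fermat.Agent.Switch.Transport
import Fermat.Agent.Switch.Pencil
import Fermat.Agent.EC.Isogeny.TorsionCard
import Fermat.Agent.Gal.Places

/-!
# Rationality of the pencil, and integrality at good places

The pencil over a rational pair of invariants has rational coefficients (`exists_rat_lines`),
and on it the invariants do not both vanish at a good place (`pencil_not_both_nonunits`).
-/

set_option autoImplicit false

open Polynomial

namespace Fermat.Agent.Switch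

local notation "Qbar" => AlgebraicClosure ℚ

theorem card_torsion5 {a b : Qbar} (hab : a ^ 3 ≠ b ^ 2) : Nat.card (torsion5 a b) = 25 := by
  have : (sW a b).IsElliptic := ⟨isUnit_iff_ne_zero.2 (by
    rw [sW_Δ]; exact mul_ne_zero (by norm_num) (sub_ne_zero.2 hab))⟩
  exact Fermat.Agent.Isogeny.card_torsionBy_eq_sq (sW a b) (n := 5) (by norm_num)

/-- A polynomial over `Qbar` with fixed values at almost all rationals is rational. -/
theorem exists_rat_poly_of_fixed {P : Qbar[X]} {S : Set Qbar} (hS : S.Finite)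
    (h : ∀ (μ : ℚ), (μ : Qbar) ∉ S →
      ∀ σ : Qbar ≃ₐ[ℚ] Qbar, σ (P.eval (μ : Qbar)) = P.eval (μ : Qbar)) :
    ∃ R : ℚ[X], R.map (algebraMap ℚ Qbar) = P := by
  have hmem : P ∈ Polynomial.lifts (algebraMap ℚ Qbar) := by
    rw [lifts_iff_coeff_lifts]
    intro n
    refine (InfiniteGalois.mem_range_algebraMap_iff_fixed (P.coeff n)).2 fun σ => ?_
    have hP : P.map (σ : Qbar →+* Qbar) = P := by
      refine eq_of_infinite_eval_eq _ _ (Set.Infinite.mono ?_
        ((Set.infinite_range_of_injective (Rat.cast_injective (α := Qbar))).sdiff hS))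
      rintro _ ⟨⟨μ, rfl⟩, hμ⟩
      have e : (P.map (σ : Qbar →+* Qbar)).eval ((σ : Qbar →+* Qbar) (μ : Qbar))
          = (σ : Qbar →+* Qbar) (P.eval (μ : Qbar)) := by
        rw [eval_map]
        exact eval₂_at_apply _ _
      rw [map_ratCast] at e
      exact e.trans (h μ hμ σ)
    have := congrArg (fun Q => Q.coeff n) hP
    simpa only [coeff_map, RingHom.coe_coe] using this
  rw [lifts_iff_set_range] at hmem
  exact hmem

/-- The pencil over a rational pair of invariants has rational coefficients. -/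
theorem exists_rat_lines {t c : Qbar} (h : R5 t c) {a b : ℚ} (hab : (a : Qbar) ^ 3 ≠ (b : Qbar) ^ 2)
    {v : Qbar × Qbar} (hv : InFibre (a : Qbar) (b : Qbar) v) (κ : ℤ) :
    (∃ R : ℚ[X], R.map (algebraMap ℚ Qbar) = hLine v (covP v + (κ : Qbar) • v)) ∧
      ∃ R : ℚ[X], R.map (algebraMap ℚ Qbar) = tLine v (covP v + (κ : Qbar) • v) := by
  set d := covP v + (κ : Qbar) • v
  have hne : dLine v d ≠ 0 := fun h0 => hv.dP_ne_zero hab (by
    have := eval_dLine v d 0
    rw [h0, eval_zero, zero_smul, add_zero] at this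
    exact this.symm)
  have key : ∀ μ : ℚ, (μ : Qbar) ∉ {x | (dLine v d).IsRoot x} → ∀ σ : Qbar ≃ₐ[ℚ] Qbar,
      σ (hP (v + (μ : Qbar) • d)) = hP (v + (μ : Qbar) • d)
        ∧ σ (tP (v + (μ : Qbar) • d)) = tP (v + (μ : Qbar) • d) := by
    intro μ hμ σ
    have hw : dP (pencil (μ : Qbar) (κ : Qbar) v) ≠ 0 := fun h0 => hμ (by
      rw [Set.mem_ofPred_eq, IsRoot, eval_dLine]; exact h0)
    exact pencil_invariants_fixed h hab hv (card_torsion5 hab) hw (σ := σ.toRingEquiv)
      (map_ratCast _ _) (map_ratCast _ _) (map_ratCast _ _) (map_intCast _ _)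
  exact ⟨exists_rat_poly_of_fixed (finite_setOfPred_isRoot hne) fun μ hμ σ => by
      rw [eval_hLine]; exact (key μ hμ σ).1,
    exists_rat_poly_of_fixed (finite_setOfPred_isRoot hne) fun μ hμ σ => by
      rw [eval_tLine]; exact (key μ hμ σ).2⟩

section Place

variable {L : Type*} [Field L] (A : ValuationSubring L)

local notation "res" => IsLocalRing.residue A

theorem mem_nonunits_iff_residue {x : A} : (x : L) ∈ A.nonunits ↔ res x = 0 := by
  rw [IsLocalRing.residue_eq_zero_iff]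
  exact ValuationSubring.coe_mem_nonunits_iff

theorem coe_hF (x y : A) : ((hF x y : A) : L) = hF (x : L) (y : L) := map_hF A.subtype x y

theorem coe_tF (x y : A) : ((tF x y : A) : L) = tF (x : L) (y : L) := map_tF A.subtype x y

theorem coe_dF (x y : A) : ((dF x y : A) : L) = dF (x : L) (y : L) := map_dF A.subtype x y

/-- Reduction of the coprimality of the forms at a place of residue characteristic `> 5`. -/
theorem mem_nonunits_of_forms (h6 : (6 : L) ∉ A.nonunits) (h5 : (5 : L) ∉ A.nonunits)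
    {x y : L} (hx : x ∈ A) (hy : y ∈ A) (hh : hF x y ∈ A.nonunits) (ht : tF x y ∈ A.nonunits) :
    x ∈ A.nonunits ∧ y ∈ A.nonunits := by
  lift x to A using hx
  lift y to A using hy
  rw [← coe_hF, mem_nonunits_iff_residue, map_hF] at hh
  rw [← coe_tF, mem_nonunits_iff_residue, map_tF] at ht
  have r5 : (5 : IsLocalRing.ResidueField A) ≠ 0 := fun h0 => h5 (by
    have h : ((5 : A) : L) ∈ A.nonunits := by rw [mem_nonunits_iff_residue, map_ofNat]; exact h0
    rwa [show ((5 : A) : L) = 5 from map_ofNat A.subtype 5] at h)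
  have r6 : (6 : IsLocalRing.ResidueField A) ≠ 0 := fun h0 => h6 (by
    have h : ((6 : A) : L) ∈ A.nonunits := by rw [mem_nonunits_iff_residue, map_ofNat]; exact h0
    rwa [show ((6 : A) : L) = 6 from map_ofNat A.subtype 6] at h)
  have hd : dF (res x) (res y) = 0 := by
    have := hF_cube_sub_tF_sq' (res x) (res y)
    rw [hh, ht, zero_pow (by norm_num), zero_pow (by norm_num), sub_zero] at this
    have e : (-1728 : IsLocalRing.ResidueField A) ≠ 0 := by
      rw [show (-1728 : IsLocalRing.ResidueField A) = -(2 ^ 3 * 6 ^ 3) by norm_num]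
      refine neg_ne_zero.2 (mul_ne_zero (pow_ne_zero _ fun h2 => r6 ?_) (pow_ne_zero _ r6))
      rw [show (6 : IsLocalRing.ResidueField A) = 2 * 3 by norm_num, h2, zero_mul]
    exact (pow_eq_zero_iff (n := 5) (by norm_num)).1 ((mul_eq_zero.1 this.symm).resolve_left e)
  obtain ⟨e1, e2⟩ := eq_zero_of_hF_dF r5 hh hd
  exact ⟨(mem_nonunits_iff_residue A).2 e1, (mem_nonunits_iff_residue A).2 e2⟩

/-- Coordinates of a point over integral invariants are integral. -/
theorem coord_mem (h6 : (6 : L) ∉ A.nonunits) (h5 : (5 : L) ∉ A.nonunits) {x y : L}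
    (hh : hF x y ∈ A) (ht : tF x y ∈ A) : x ∈ A ∧ y ∈ A := by
  have one : (1 : L) ∉ A.nonunits := Fermat.Agent.Gal.one_notMem_nonunits A
  have main : ∀ z x' y' : L, z ∉ A → x' ∈ A → y' ∈ A → x = z * x' → y = z * y' →
      x' ∈ A.nonunits ∧ y' ∈ A.nonunits := by
    intro z x' y' hz hx' hy' ex ey
    have hzn : z⁻¹ ∈ A.nonunits := by
      rw [ValuationSubring.mem_nonunits_iff_or, inv_inv]; exact Or.inr hz
    have hz0 : z ≠ 0 := fun h0 => hz (h0 ▸ zero_mem A)
    apply mem_nonunits_of_forms A h6 h5 hx' hy'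
    · rw [show x' = z⁻¹ * x by rw [ex, inv_mul_cancel_left₀ hz0],
        show y' = z⁻¹ * y by rw [ey, inv_mul_cancel_left₀ hz0], hF_smul]
      exact Fermat.Agent.Gal.mul_mem_nonunits_left A
        (Fermat.Agent.Gal.pow_mem_nonunits A (by norm_num) hzn) hh
    · rw [show x' = z⁻¹ * x by rw [ex, inv_mul_cancel_left₀ hz0],
        show y' = z⁻¹ * y by rw [ey, inv_mul_cancel_left₀ hz0], tF_smul]
      exact Fermat.Agent.Gal.mul_mem_nonunits_left A
        (Fermat.Agent.Gal.pow_mem_nonunits A (by norm_num) hzn) ht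
  by_contra hc
  have hx0 : ∀ {u : L}, u ∉ A → u ≠ 0 := fun hu h0 => hu (h0 ▸ zero_mem A)
  by_cases hxA : x ∈ A
  · have hyA : y ∉ A := fun h => hc ⟨hxA, h⟩
    have hinv : y⁻¹ ∈ A := (A.mem_or_inv_mem y).resolve_left hyA
    exact one (main y (y⁻¹ * x) 1 hyA (mul_mem hinv hxA) A.one_mem
      (mul_inv_cancel_left₀ (hx0 hyA) x).symm (mul_one y).symm).2
  by_cases hyx : x⁻¹ * y ∈ A
  · exact one (main x 1 (x⁻¹ * y) hxA A.one_mem hyx (mul_one x).symm
      (mul_inv_cancel_left₀ (hx0 hxA) y).symm).1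
  have h' : y⁻¹ * x ∈ A := by
    have := (A.mem_or_inv_mem (x⁻¹ * y)).resolve_left hyx
    rwa [mul_inv, inv_inv, mul_comm] at this
  have hyA : y ∉ A := by
    intro hyA
    by_cases hy0 : y = 0
    · exact hyx (by rw [hy0, mul_zero]; exact zero_mem A)
    · exact hxA (by rw [← mul_inv_cancel_left₀ hy0 x]; exact mul_mem hyA h')
  exact one (main y (y⁻¹ * x) 1 hyA h' A.one_mem
    (mul_inv_cancel_left₀ (hx0 hyA) x).symm (mul_one y).symm).2

/-- On the pencil the invariants do not both vanish at a good place. -/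
theorem pencil_not_both_nonunits (h6 : (6 : L) ∉ A.nonunits) (h5 : (5 : L) ∉ A.nonunits)
    {v : L × L} (hh : hP v ∈ A) (ht : tP v ∈ A) (hΔ : hP v ^ 3 - tP v ^ 2 ∉ A.nonunits)
    {μ κ : L} (hμ : μ ∈ A) (hκ : κ ∈ A) :
    ¬ (hP (pencil μ κ v) ∈ A.nonunits ∧ tP (pencil μ κ v) ∈ A.nonunits) := by
  rintro ⟨h1, h2⟩
  obtain ⟨hx, hy⟩ := coord_mem A h6 h5 hh ht
  have hcov : (covP v).1 ∈ A ∧ (covP v).2 ∈ A := by
    obtain ⟨a, ha⟩ : ∃ a : A, (a : L) = v.1 := ⟨⟨_, hx⟩, rfl⟩
    obtain ⟨b, hb⟩ : ∃ b : A, (b : L) = v.2 := ⟨⟨_, hy⟩, rfl⟩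
    constructor
    · rw [show (covP v).1 = ((cov1 a b : A) : L) by
        simp only [covP, cov1, ← ha, ← hb]; push_cast; rfl]
      exact SetLike.coe_mem _
    · rw [show (covP v).2 = ((cov2 a b : A) : L) by
        simp only [covP, cov2, ← ha, ← hb]; push_cast; rfl]
      exact SetLike.coe_mem _
  set d := covP v + κ • v with hd
  have hd1 : d.1 ∈ A := by simpa [hd] using add_mem hcov.1 (mul_mem hκ hx)
  have hd2 : d.2 ∈ A := by simpa [hd] using add_mem hcov.2 (mul_mem hκ hy)
  set w := pencil μ κ v with hw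
  have hw1 : w.1 ∈ A := by
    have := add_mem hx (mul_mem hμ hd1)
    simpa [hw, pencil, hd, mul_add] using this
  have hw2 : w.2 ∈ A := by
    have := add_mem hy (mul_mem hμ hd2)
    simpa [hw, pencil, hd, mul_add] using this
  obtain ⟨e1, e2⟩ := mem_nonunits_of_forms A h6 h5 hw1 hw2 h1 h2
  have h12 : 12 * dP v ∈ A.nonunits := by
    have hid : 12 * dP v = w.1 * d.2 - w.2 * d.1 := by
      simp only [hw, hd, pencil, covP, dP, Prod.fst_add, Prod.snd_add, Prod.smul_fst,
        Prod.smul_snd, smul_eq_mul]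
      linear_combination -det_cov v.1 v.2
    rw [hid]
    exact sub_mem (Fermat.Agent.Gal.mul_mem_nonunits_left A e1 hd2)
      (Fermat.Agent.Gal.mul_mem_nonunits_left A e2 hd1)
  apply hΔ
  rw [show hP v ^ 3 - tP v ^ 2 = (-144 * dP v ^ 4) * (12 * dP v) by
    rw [cube_sub_sq]; ring]
  refine Fermat.Agent.Gal.mul_mem_nonunits_right A (mul_mem (neg_mem ?_) (pow_mem ?_ 4)) h12
  · exact natCast_mem A 144
  · obtain ⟨a, ha⟩ : ∃ a : A, (a : L) = v.1 := ⟨⟨_, hx⟩, rfl⟩
    obtain ⟨b, hb⟩ : ∃ b : A, (b : L) = v.2 := ⟨⟨_, hy⟩, rfl⟩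
    rw [dP, ← ha, ← hb, ← coe_dF]
    exact SetLike.coe_mem _

end Place

end Fermat.Agent.Switch
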