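import Mathlib
import Fermat.Agent.Switch.Transport
import Fermat.Agent.Switch.Descent
import Fermat.Agent.EC.Reduction.VariableChange
import Fermat.Agent.EC.Frobenius.Trace
import Fermat.Agent.Gal.Frobenius

/-!
# Equivariant 5-torsion along the pencil gives congruent traces of Frobenius

Main result: `dvd_apOfModel_sub`, the traces of a curve and of a member of its pencil agree
modulo 5.
-/

set_option autoImplicit false

open WeierstrassCurve WeierstrassCurve.Affine.Point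
open scoped WeierstrassCurve.Affine

namespace Fermat.Agent.Switch

local notation "Qbar" => AlgebraicClosure ℚ

/-- The change of variables to `Y² = X³ - 27c₄X - 54c₆`. -/
def toShort (W : WeierstrassCurve ℤ) : VariableChange ℚ :=
  ⟨Units.mk0 (1/6) (by norm_num), -(W.b₂ : ℚ) / 12, -(W.a₁ : ℚ) / 2,
    (W.a₁ : ℚ) * W.b₂ / 24 - (W.a₃ : ℚ) / 2⟩

theorem toShort_smul (W : WeierstrassCurve ℤ) :
    toShort W • W.map (Int.castRingHom ℚ) = (sW (W.c₄ : ℚ) (W.c₆ : ℚ) : WeierstrassCurve ℚ) := by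
  ext <;>
    simp only [toShort, sW, variableChange_a₁, variableChange_a₂, variableChange_a₃,
      variableChange_a₄, variableChange_a₆, map_a₁, map_a₂, map_a₃, map_a₄, map_a₆,
      Units.val_inv_eq_inv_val, Units.val_mk0, eq_intCast, WeierstrassCurve.b₂,
      WeierstrassCurve.b₄, WeierstrassCurve.b₆, WeierstrassCurve.c₄, WeierstrassCurve.c₆] <;>
    push_cast <;> ring

theorem sW_baseChange (W : WeierstrassCurve ℤ) :
    ((sW (W.c₄ : ℚ) (W.c₆ : ℚ) : WeierstrassCurve ℚ)⁄Qbar)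
      = (sW (W.c₄ : Qbar) (W.c₆ : Qbar) : WeierstrassCurve Qbar) := by
  ext <;> simp [sW, WeierstrassCurve.baseChange]

/-- Points of an integral curve over `Qbar`, in short form, compatibly with Galois. -/
theorem exists_short_equiv (W : WeierstrassCurve ℤ) :
    ∃ f : ((W.map (Int.castRingHom ℚ))⁄Qbar).Point ≃+ (sW (W.c₄ : Qbar) (W.c₆ : Qbar)).Point,
      ∀ (σ : Qbar ≃ₐ[ℚ] Qbar) (P : ((W.map (Int.castRingHom ℚ))⁄Qbar).Point),
        f (σ • P) = ptMap σ.toRingEquiv (f P) := by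
  obtain ⟨e, he⟩ :=
    EC.Reduction.exists_equivariant_addEquiv (K := Qbar) (toShort W) (toShort_smul W)
  refine ⟨e.symm.trans (EC.Reduction.pointCongr (sW_baseChange W)), fun σ P => ?_⟩
  obtain ⟨Q, rfl⟩ := e.surjective P
  rw [← he, AddEquiv.trans_apply, AddEquiv.trans_apply, AddEquiv.symm_apply_apply,
    AddEquiv.symm_apply_apply]
  rcases Q with _ | ⟨x, y, hQ⟩
  · rw [← Affine.Point.zero_def, smul_zero, _root_.map_zero]
    exact (ptMap_zero _ _ _).symm
  · rw [algEquiv_smul_def, Affine.Point.map_some, EC.Reduction.pointCongr_some,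
      EC.Reduction.pointCongr_some, ptMap_some, mkPt_eq]
    · rfl

/-- Restricting an additive equivalence to torsion. -/
noncomputable def torsionCongr {G H : Type*} [AddCommGroup G] [AddCommGroup H] (e : G ≃+ H)
    (n : ℤ) : Submodule.torsionBy ℤ G n ≃+ Submodule.torsionBy ℤ H n where
  toFun x := ⟨e x, by rw [Submodule.mem_torsionBy_iff, ← map_zsmul,
    (Submodule.mem_torsionBy_iff _ _).1 x.2, _root_.map_zero]⟩
  invFun x := ⟨e.symm x, by rw [Submodule.mem_torsionBy_iff, ← map_zsmul,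
    (Submodule.mem_torsionBy_iff _ _).1 x.2, _root_.map_zero]⟩
  left_inv x := Subtype.ext (e.symm_apply_apply x)
  right_inv x := Subtype.ext (e.apply_symm_apply x)
  map_add' x y := Subtype.ext (e.map_add x y)

/-- If `W'` is on the pencil of `W` then their traces agree modulo 5. -/
theorem dvd_apOfModel_sub {W W' : WeierstrassCurve ℤ} (hΔ : W.Δ ≠ 0) (hΔ' : W'.Δ ≠ 0)
    {t c : Qbar} (h : R5 t c) {v : Qbar × Qbar}
    (hv : InFibre (W.c₄ : Qbar) (W.c₆ : Qbar) v) {μ : ℚ} {κ : ℤ}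
    (h4 : (W'.c₄ : Qbar) = hP (pencil (μ : Qbar) (κ : Qbar) v))
    (h6 : (W'.c₆ : Qbar) = tP (pencil (μ : Qbar) (κ : Qbar) v))
    {ℓ : ℕ} (hℓ : ℓ.Prime) (hg : W.IsGoodPrimeFor ℓ) (hg' : W'.IsGoodPrimeFor ℓ) (h5 : ℓ ≠ 5) :
    (5 : ℤ) ∣ (W'.apOfModel ℓ - W.apOfModel ℓ) := by
  have : Fact (Nat.Prime 5) := ⟨by norm_num⟩
  have hne : ∀ (V : WeierstrassCurve ℤ), V.Δ ≠ 0 → (V.c₄ : Qbar) ^ 3 ≠ (V.c₆ : Qbar) ^ 2 := by
    intro V hV he
    apply hV
    have := V.c_relation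
    have h0 : (1728 : ℤ) * V.Δ = 0 := by
      rw [this, sub_eq_zero]; exact_mod_cast he
    simpa using h0
  set w := pencil (μ : Qbar) (κ : Qbar) v with hwdef
  have hab' : hP w ^ 3 ≠ tP w ^ 2 := by rw [← h4, ← h6]; exact hne W' hΔ'
  have hab := hne W hΔ
  obtain ⟨Φ, hΦ⟩ := exists_transport h hab hv (card_torsion5 hab) ((dP_ne_zero_iff w).2 hab')
    (card_torsion5 hab')
  obtain ⟨f, hf⟩ := exists_short_equiv W
  obtain ⟨f', hf'⟩ := exists_short_equiv W'
  have hcurve : (sW (hP w) (tP w) : WeierstrassCurve Qbar)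
      = (sW (W'.c₄ : Qbar) (W'.c₆ : Qbar) : WeierstrassCurve Qbar) := by rw [h4, h6]
  set g := EC.Reduction.pointCongr hcurve
  have hgσ : ∀ (σ : Qbar ≃ₐ[ℚ] Qbar) (P : (sW (hP w) (tP w)).Point),
      g (ptMap σ.toRingEquiv P) = ptMap σ.toRingEquiv (g P) := by
    simp only [g]
    clear_value w
    clear g hΦ Φ hab'
    revert hcurve
    rw [← h4, ← h6]
    intro _ σ P
    rfl
  have : Module.Finite (ZMod 5)
      (Submodule.torsionBy ℤ ((W.map (Int.castRingHom ℚ))⁄Qbar).Point (5 : ℕ)) :=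
    haveI := EC.Frobenius.isElliptic_map_rat hΔ
    EC.Frobenius.moduleFinite_torsion _ 5
  have : Module.Finite (ZMod 5)
      (Submodule.torsionBy ℤ ((W'.map (Int.castRingHom ℚ))⁄Qbar).Point (5 : ℕ)) :=
    haveI := EC.Frobenius.isElliptic_map_rat hΔ'
    EC.Frobenius.moduleFinite_torsion _ 5
  set φ := ((torsionCongr f _).trans Φ).trans ((torsionCongr g _).trans (torsionCongr f' _).symm)
    with hφ
  have hφσ : ∀ (σ : Qbar ≃ₐ[ℚ] Qbar) x, φ (σ • x) = σ • φ x := by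
    intro σ x
    apply Subtype.ext
    apply f'.injective
    have hfix : ∀ q : ℚ, σ.toRingEquiv (q : Qbar) = (q : Qbar) := fun q => map_ratCast _ _
    have hfixz : ∀ z : ℤ, σ.toRingEquiv (z : Qbar) = (z : Qbar) := fun z => map_intCast _ _
    have e1 : ∀ z, f' ((φ z : ((W'.map (Int.castRingHom ℚ))⁄Qbar).Point))
        = g (Φ (torsionCongr f _ z) : (sW (hP w) (tP w)).Point) := by
      intro z
      simp only [hφ, AddEquiv.trans_apply]
      exact f'.apply_symm_apply _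
    change f' ((φ (σ • x) : ((W'.map (Int.castRingHom ℚ))⁄Qbar).Point))
      = f' (σ • (φ x : ((W'.map (Int.castRingHom ℚ))⁄Qbar).Point))
    rw [hf', e1, e1, ← hgσ]
    congr 1
    exact (hΦ σ.toRingEquiv (hfixz _) (hfixz _) (hfix μ) (hfixz κ) _ _
      (hf σ (x : ((W.map (Int.castRingHom ℚ))⁄Qbar).Point)).symm).symm
  obtain ⟨A, hA⟩ := Fermat.Agent.Gal.exists_liesOverPrime (L := Qbar) hℓ
  obtain ⟨σ, hσ⟩ := Fermat.Agent.Gal.exists_isFrobeniusAt hℓ hA
  have t1 := (EC.Frobenius.trace_det_charpoly (ℓ := 5) hℓ hg (Ne.symm h5) hA hσ).1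
  have t2 := (EC.Frobenius.trace_det_charpoly (ℓ := 5) hℓ hg' (Ne.symm h5) hA hσ).1
  rw [galoisTrace_def] at t1 t2
  let L : Submodule.torsionBy ℤ ((W.map (Int.castRingHom ℚ))⁄Qbar).Point (5 : ℕ) ≃ₗ[ZMod 5]
      Submodule.torsionBy ℤ ((W'.map (Int.castRingHom ℚ))⁄Qbar).Point (5 : ℕ) :=
    { φ with map_smul' := fun r x => ZMod.map_smul φ.toAddMonoidHom r x }
  have hconj : L.conj (galoisRepModuleEnd (K := Qbar) ℚ (W.map (Int.castRingHom ℚ)).toAffine 5 σ)
      = galoisRepModuleEnd (K := Qbar) ℚ (W'.map (Int.castRingHom ℚ)).toAffine 5 σ := by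
    apply LinearMap.ext
    intro x
    obtain ⟨z, rfl⟩ := L.surjective x
    rw [LinearEquiv.conj_apply_apply, LinearEquiv.symm_apply_apply]
    exact hφσ σ z
  rw [← hconj, LinearMap.trace_conj', t1] at t2
  refine (ZMod.intCast_zmod_eq_zero_iff_dvd _ 5).1 ?_
  rw [Int.cast_sub, ← t2, sub_self]

end Fermat.Agent.Switch
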