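import Mathlib

/-!
# Perturbing `a₄` and `a₆`
-/

set_option autoImplicit false

namespace Fermat.Agent.Switch

/-- The curve with `a₄, a₆` replaced by `a₄ + i, a₆ + j`. -/
def shiftCurve (W : WeierstrassCurve ℤ) (i j : ℤ) : WeierstrassCurve ℤ :=
  ⟨W.a₁, W.a₂, W.a₃, W.a₄ + i, W.a₆ + j⟩

theorem shiftCurve_c₄ (W : WeierstrassCurve ℤ) (i j : ℤ) :
    (shiftCurve W i j).c₄ = W.c₄ - 48 * i := by
  simp only [shiftCurve, WeierstrassCurve.c₄, WeierstrassCurve.b₂, WeierstrassCurve.b₄]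
  ring

theorem shiftCurve_c₆ (W : WeierstrassCurve ℤ) (i j : ℤ) :
    (shiftCurve W i j).c₆ = W.c₆ + 72 * W.b₂ * i - 864 * j := by
  simp only [shiftCurve, WeierstrassCurve.c₆, WeierstrassCurve.b₂, WeierstrassCurve.b₄,
    WeierstrassCurve.b₆]
  ring

theorem map_shiftCurve (W : WeierstrassCurve ℤ) {i j : ℤ} {ℓ : ℕ} (hi : (ℓ : ℤ) ∣ i)
    (hj : (ℓ : ℤ) ∣ j) :
    (shiftCurve W i j).map (Int.castRingHom (ZMod ℓ)) = W.map (Int.castRingHom (ZMod ℓ)) := by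
  rw [← ZMod.intCast_zmod_eq_zero_iff_dvd] at hi hj
  ext <;> simp [shiftCurve, hi, hj]

/-- Congruent shifts keep semistability at the primes dividing the shift. -/
theorem shiftCurve_semistableAt (W : WeierstrassCurve ℤ) {i j : ℤ} {ℓ : ℕ} (hi : (ℓ : ℤ) ∣ i)
    (hj : (ℓ : ℤ) ∣ j) (hW : (ℓ : ℤ) ∣ W.Δ → ¬ (ℓ : ℤ) ∣ W.c₄)
    (hΔ : (ℓ : ℤ) ∣ (shiftCurve W i j).Δ) : ¬ (ℓ : ℤ) ∣ (shiftCurve W i j).c₄ := by
  have e := map_shiftCurve W hi hj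
  have e4 := congrArg WeierstrassCurve.c₄ e
  have eΔ := congrArg WeierstrassCurve.Δ e
  simp only [WeierstrassCurve.map_c₄, WeierstrassCurve.map_Δ, eq_intCast] at e4 eΔ
  intro h4
  rw [← ZMod.intCast_zmod_eq_zero_iff_dvd] at hΔ h4
  rw [eΔ, ZMod.intCast_zmod_eq_zero_iff_dvd] at hΔ
  rw [e4, ZMod.intCast_zmod_eq_zero_iff_dvd] at h4
  exact hW hΔ h4

end Fermat.Agent.Switch
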