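import Mathlib
import Fermat.Prelude.Def_FLTPrelim_Modularity
import Fermat.Agent.Switch.Descent
import Fermat.Agent.Switch.Shift

/-!
# The family of semistable curves through a semistable curve

Main result: `exists_family`, semistable curves over all integral points `s` of a pencil.
-/

set_option autoImplicit false

open Polynomial

namespace Fermat.Agent.Switch

local notation "Qbar" => AlgebraicClosure ℚ

/-- A rational polynomial takes values in `e⁻¹ℤ` on integers. -/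
theorem exists_integer_values (R : ℚ[X]) :
    ∃ e : ℤ, e ≠ 0 ∧ ∀ x : ℤ, ∃ n : ℤ, (e : ℚ) * R.eval (x : ℚ) = n := by
  obtain ⟨e, he, h⟩ := IsLocalization.integerNormalization_spec (nonZeroDivisors ℤ) R
  refine ⟨e, nonZeroDivisors.ne_zero he,
    fun x => ⟨(IsLocalization.integerNormalization (nonZeroDivisors ℤ) R).eval x, ?_⟩⟩
  have h1 := congrArg (Polynomial.eval (x : ℚ)) h
  rw [eval_map, eval_smul, zsmul_eq_mul] at h1
  rw [← h1, show ((x : ℤ) : ℚ) = algebraMap ℤ ℚ x from rfl, eval₂_at_apply]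
  rfl

/-- `6` and `5` are units at a place over a prime not dividing `30`. -/
theorem units_at_place {A : ValuationSubring Qbar} {ℓ : ℕ} (hℓ : ℓ.Prime) (hA : A.LiesOverPrime ℓ)
    (h30 : ¬ (ℓ : ℤ) ∣ 30) : (6 : Qbar) ∉ A.nonunits ∧ (5 : Qbar) ∉ A.nonunits := by
  constructor <;> intro h <;> apply h30
  · have := (Fermat.Agent.Gal.intCast_mem_nonunits_iff A hℓ hA 6).1 (by exact_mod_cast h)
    exact this.trans (by norm_num)
  · have := (Fermat.Agent.Gal.intCast_mem_nonunits_iff A hℓ hA 5).1 (by exact_mod_cast h)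
    exact this.trans (by norm_num)

/-- Away from `30 Δ` a member of the pencil with integral parameter is semistable. -/
theorem semistableAt_of_pencil {W W' : WeierstrassCurve ℤ} {v : Qbar × Qbar}
    (hv : InFibre (W.c₄ : Qbar) (W.c₆ : Qbar) v) {μ κ : ℤ}
    (h4 : (W'.c₄ : Qbar) = hP (pencil (μ : Qbar) (κ : Qbar) v))
    (h6 : (W'.c₆ : Qbar) = tP (pencil (μ : Qbar) (κ : Qbar) v))
    {ℓ : ℕ} (hℓ : ℓ.Prime) (h30 : ¬ (ℓ : ℤ) ∣ 30) (hΔ : ¬ (ℓ : ℤ) ∣ W.Δ)
    (hd : (ℓ : ℤ) ∣ W'.Δ) : ¬ (ℓ : ℤ) ∣ W'.c₄ := by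
  intro hc
  have hp : Prime (ℓ : ℤ) := Nat.prime_iff_prime_int.1 hℓ
  have hc6 : (ℓ : ℤ) ∣ W'.c₆ := by
    refine hp.dvd_of_dvd_pow (n := 2) ?_
    rw [show W'.c₆ ^ 2 = W'.c₄ ^ 3 - 1728 * W'.Δ by rw [W'.c_relation]; ring]
    exact dvd_sub (dvd_pow hc (by norm_num)) (hd.mul_left _)
  obtain ⟨A, hA⟩ := Fermat.Agent.Gal.exists_liesOverPrime (L := Qbar) hℓ
  obtain ⟨u6, u5⟩ := units_at_place hℓ hA h30
  refine pencil_not_both_nonunits A u6 u5 (v := v) ?_ ?_ ?_ (intCast_mem A μ) (intCast_mem A κ)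
    ⟨?_, ?_⟩
  · rw [hv.1]; exact intCast_mem A _
  · rw [hv.2]; exact intCast_mem A _
  · rw [hv.1, hv.2, show (W.c₄ : Qbar) ^ 3 - (W.c₆ : Qbar) ^ 2 = ((1728 * W.Δ : ℤ) : Qbar) by
      rw [W.c_relation]; push_cast; rfl, Fermat.Agent.Gal.intCast_mem_nonunits_iff A hℓ hA]
    intro h
    rcases hp.dvd_or_dvd h with h | h
    · apply h30
      have h' : (ℓ : ℤ) ∣ 2 ^ 6 * 3 ^ 3 := by norm_num; exact h
      rcases hp.dvd_or_dvd h' with h | h <;>
        exact (hp.dvd_of_dvd_pow h).trans (by norm_num)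
    · exact hΔ h
  · rw [← h4, Fermat.Agent.Gal.intCast_mem_nonunits_iff A hℓ hA]; exact hc
  · rw [← h6, Fermat.Agent.Gal.intCast_mem_nonunits_iff A hℓ hA]; exact hc6

/-- The family: for every `s` a semistable curve over the point `M s` of the pencil of `W`. -/
theorem exists_family (W : WeierstrassCurve ℤ) (hΔ : W.Δ ≠ 0) (hW : W.IsSemistableModel) :
    ∃ (t c : Qbar) (_ : R5 t c) (v : Qbar × Qbar) (κ M : ℤ) (W' : ℕ → WeierstrassCurve ℤ),
      InFibre (W.c₄ : Qbar) (W.c₆ : Qbar) v ∧ dP (covP v + (κ : Qbar) • v) ≠ 0 ∧ M ≠ 0 ∧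
      (∃ CP : ℚ[X], CP.map (algebraMap ℚ Qbar)
          = hLine v ((M : Qbar) • (covP v + (κ : Qbar) • v))
        ∧ ∀ s : ℕ, ((W' s).c₄ : ℚ) = CP.eval (s : ℚ)) ∧
      (∃ TP : ℚ[X], TP.map (algebraMap ℚ Qbar)
          = tLine v ((M : Qbar) • (covP v + (κ : Qbar) • v))
        ∧ ∀ s : ℕ, ((W' s).c₆ : ℚ) = TP.eval (s : ℚ)) ∧
      ∀ s : ℕ, (W' s).IsSemistableModel ∧
        ((W' s).c₄ : Qbar) = hP (pencil (((M * s : ℤ) : ℚ) : Qbar) (κ : Qbar) v) ∧
        ((W' s).c₆ : Qbar) = tP (pencil (((M * s : ℤ) : ℚ) : Qbar) (κ : Qbar) v) ∧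
        (5 : ℤ) ∣ (W' s).Δ - W.Δ := by
  obtain ⟨t, c, h⟩ := exists_R5 (k := Qbar)
  have hab : (W.c₄ : Qbar) ^ 3 ≠ (W.c₆ : Qbar) ^ 2 := by
    intro he
    apply hΔ
    have h0 : (1728 : ℤ) * W.Δ = 0 := by
      rw [W.c_relation, sub_eq_zero]; exact_mod_cast he
    simpa using h0
  obtain ⟨v, hv⟩ := exists_inFibre hab
  obtain ⟨κ, hκ⟩ := exists_kappa v (hv.dP_ne_zero hab)
  set d := covP v + (κ : Qbar) • v with hd
  obtain ⟨⟨R4, hR4⟩, ⟨R6, hR6⟩⟩ := exists_rat_lines (a := (W.c₄ : ℚ)) (b := (W.c₆ : ℚ)) h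
    (by simpa using hab) (v := v) (by simpa using hv) κ
  have z4 : R4.coeff 0 = (W.c₄ : ℚ) := by
    apply (algebraMap ℚ Qbar).injective
    rw [← coeff_map, hR4, coeff_zero_eq_eval_zero, eval_hLine, zero_smul, add_zero, hv.1,
      map_intCast]
  have z6 : R6.coeff 0 = (W.c₆ : ℚ) := by
    apply (algebraMap ℚ Qbar).injective
    rw [← coeff_map, hR6, coeff_zero_eq_eval_zero, eval_tLine, zero_smul, add_zero, hv.2,
      map_intCast]
  obtain ⟨e4, he4, hv4⟩ := exists_integer_values R4.divX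
  obtain ⟨e6, he6, hv6⟩ := exists_integer_values R6.divX
  set L : ℤ := 30 * W.Δ * (e4 * e6) with hL
  set M : ℤ := e4 * e6 * (41472 * L) with hM
  choose n4 hn4 using fun s : ℕ => hv4 (M * s)
  choose n6 hn6 using fun s : ℕ => hv6 (M * s)
  set i : ℕ → ℤ := fun s => -864 * L * s * e6 * n4 s
  set j : ℕ → ℤ := fun s => -72 * L * W.b₂ * s * e6 * n4 s - 48 * L * s * e4 * n6 s
  set W' : ℕ → WeierstrassCurve ℤ := fun s => shiftCurve W (i s) (j s) with hW'
  have c4eq : ∀ s : ℕ, ((W' s).c₄ : ℚ) = R4.eval (((M * s : ℤ)) : ℚ) := by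
    intro s
    conv_rhs => rw [← X_mul_divX_add R4]
    simp only [hW', shiftCurve_c₄, eval_add, eval_mul, eval_X, eval_C, z4, i]
    have := hn4 s
    simp only [hM] at this ⊢
    push_cast at this ⊢
    linear_combination -(41472 * (L : ℚ) * e6 * s) * this
  have c6eq : ∀ s : ℕ, ((W' s).c₆ : ℚ) = R6.eval (((M * s : ℤ)) : ℚ) := by
    intro s
    conv_rhs => rw [← X_mul_divX_add R6]
    simp only [hW', shiftCurve_c₆, eval_add, eval_mul, eval_X, eval_C, z6, i, j]
    have := hn6 s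
    simp only [hM] at this ⊢
    push_cast at this ⊢
    linear_combination -(41472 * (L : ℚ) * e4 * s) * this
  have hpen : ∀ s : ℕ, ((W' s).c₄ : Qbar) = hP (pencil (((M * s : ℤ)) : Qbar) (κ : Qbar) v) ∧
      ((W' s).c₆ : Qbar) = tP (pencil (((M * s : ℤ)) : Qbar) (κ : Qbar) v) := by
    intro s
    constructor
    · rw [← map_intCast (algebraMap ℚ Qbar), c4eq, ← eval_map_apply, hR4, map_intCast, eval_hLine]
      rfl
    · rw [← map_intCast (algebraMap ℚ Qbar), c6eq, ← eval_map_apply, hR6, map_intCast, eval_tLine]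
      rfl
  refine ⟨t, c, h, v, κ, M, W', hv, hκ,
    mul_ne_zero (mul_ne_zero he4 he6) (mul_ne_zero (by norm_num)
      (mul_ne_zero (mul_ne_zero (by norm_num) hΔ) (mul_ne_zero he4 he6))),
    ⟨R4.comp (C (M : ℚ) * X), ?_, fun s => ?_⟩, ⟨R6.comp (C (M : ℚ) * X), ?_, fun s => ?_⟩,
    fun s => ⟨?_, by rw [Rat.cast_intCast]; exact (hpen s).1,
      by rw [Rat.cast_intCast]; exact (hpen s).2, ?_⟩⟩
  · refine Polynomial.funext fun x => ?_
    rw [map_comp, hR4, eval_comp, eval_hLine, eval_hLine]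
    simp [smul_smul, mul_comm, mul_left_comm]
  · rw [c4eq, eval_comp]
    simp
  · refine Polynomial.funext fun x => ?_
    rw [map_comp, hR6, eval_comp, eval_tLine, eval_tLine]
    simp [smul_smul, mul_comm, mul_left_comm]
  · rw [c6eq, eval_comp]
    simp
  · intro ℓ hℓ hd'
    by_cases hdiv : (ℓ : ℤ) ∣ L
    · refine shiftCurve_semistableAt W ?_ ?_ (hW ℓ hℓ) hd'
      · simp only [i]
        exact ((((hdiv.mul_left _).mul_right _).mul_right _).mul_right _)
      · simp only [j]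
        exact dvd_sub ((((((hdiv.mul_left _).mul_right _).mul_right _).mul_right _).mul_right _))
          ((((hdiv.mul_left _).mul_right _).mul_right _).mul_right _)
    · exact semistableAt_of_pencil hv (hpen s).1 (hpen s).2 hℓ
        (fun h30 => hdiv ((h30.mul_right _).mul_right _))
        (fun hD => hdiv ((hD.mul_left 30).mul_right _)) hd'
  · have h5 : ((5 : ℕ) : ℤ) ∣ L := ((show (5 : ℤ) ∣ 30 by norm_num).mul_right _).mul_right _
    have e := congrArg WeierstrassCurve.Δ (map_shiftCurve W (ℓ := 5) (i := i s) (j := j s)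
      (by simp only [i]; exact (((h5.mul_left _).mul_right _).mul_right _).mul_right _)
      (by
        simp only [j]
        exact dvd_sub (((((h5.mul_left _).mul_right _).mul_right _).mul_right _).mul_right _)
          ((((h5.mul_left _).mul_right _).mul_right _).mul_right _)))
    simp only [WeierstrassCurve.map_Δ, eq_intCast] at e
    exact (ZMod.intCast_eq_intCast_iff_dvd_sub _ _ 5).1 e.symm

end Fermat.Agent.Switch
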