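import Mathlib

/-!
# Roots at infinity of a quartic with polynomial coefficients

Tools for an elementary special case of Hilbert irreducibility: Newton lifting of a simple root
at infinity (`exists_lift`), separation and bounds for the roots of a depressed quartic
`Z⁴ + p Z² + q Z + r`, and difference asymptotics of negative powers.
-/

set_option autoImplicit false

open Polynomial Filter Topology

namespace Fermat.Agent.Switch

/-- A depressed quartic. -/
def quartic {R : Type*} [CommRing R] (a b c y : R) : R := y ^ 4 + a * y ^ 2 + b * y + c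

/-- Derivative of `quartic` in the variable. -/
def quartic' {R : Type*} [CommRing R] (a b y : R) : R := 4 * y ^ 3 + 2 * a * y + b

/-- Newton lifting of a simple root modulo powers of the variable. -/
theorem exists_lift {K : Type*} [Field K] (a b c : K[X]) (α : K)
    (h0 : quartic (a.eval 0) (b.eval 0) (c.eval 0) α = 0)
    (h1 : quartic' (a.eval 0) (b.eval 0) α ≠ 0) (n : ℕ) :
    ∃ T : K[X], T.eval 0 = α ∧ X ^ (n + 1) ∣ quartic a b c T := by
  induction n with
  | zero =>
    refine ⟨C α, eval_C, ?_⟩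
    rw [zero_add, pow_one, X_dvd_iff, coeff_zero_eq_eval_zero]
    simpa [quartic] using h0
  | succ n ih =>
    obtain ⟨T, hT, R, hR⟩ := ih
    set γ : K := -(R.eval 0) / quartic' (a.eval 0) (b.eval 0) α
    refine ⟨T + C γ * X ^ (n + 1), by simp [hT], ?_⟩
    have hexp : quartic a b c (T + C γ * X ^ (n + 1))
        = X ^ (n + 1) * (R + C γ * quartic' a b T
          + X ^ (n + 1) * (C γ ^ 2 * (6 * T ^ 2 + a + 4 * T * (C γ * X ^ (n + 1))
            + (C γ * X ^ (n + 1)) ^ 2))) := by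
      simp only [quartic, quartic'] at hR ⊢
      linear_combination hR
    rw [hexp, pow_succ (X : K[X]) (n + 1)]
    refine mul_dvd_mul_left _ ?_
    rw [X_dvd_iff, coeff_zero_eq_eval_zero]
    have h1' : 4 * α ^ 3 + 2 * a.eval 0 * α + b.eval 0 ≠ 0 := h1
    simp only [eval_add, eval_mul, eval_pow, eval_X, eval_C, zero_pow (Nat.succ_ne_zero n),
      zero_mul, add_zero, quartic', hT, eval_ofNat, γ]
    rw [div_mul_cancel₀ _ h1', add_neg_cancel]

/-- A root of a quartic near four separated approximate roots is near one of them. -/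
theorem exists_close_root {a b c : ℂ} {t : Fin 4 → ℂ} {δ η B : ℝ} (hδ : 0 < δ)
    (hsep : ∀ i j, i ≠ j → δ ≤ ‖t i - t j‖) (hB : ∀ i, ‖t i‖ ≤ B)
    (hη : ∀ i, ‖quartic a b c (t i)‖ ≤ η) {y : ℂ} (hy : ‖y‖ ≤ B)
    (h0 : quartic a b c y = 0) :
    ∃ i, ‖y - t i‖ ≤ (∑ _i : Fin 4, η * ((2 * B) ^ 3 / δ ^ 3)) / (δ / 2) ^ 3 := by
  classical
  set P : ℂ[X] := X ^ 4 + C a * X ^ 2 + C b * X + C c - ∏ i, (X - C (t i)) with hP
  have ht : Set.InjOn t (Finset.univ : Finset (Fin 4)) := fun i _ j _ hij => by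
    by_contra hne
    have := hsep i j hne
    rw [hij, sub_self, norm_zero] at this
    linarith
  have hdeg : P.degree < (Finset.univ : Finset (Fin 4)).card := by
    have m1 : (X ^ 4 + C a * X ^ 2 + C b * X + C c : ℂ[X]).degree = 4 := by compute_degree!
    have m2 : (∏ i, (X - C (t i)) : ℂ[X]).degree = 4 := by
      rw [degree_prod]; simp [degree_X_sub_C]
    have := degree_sub_lt_left (m1.trans m2.symm)
      (fun h => by rw [h, degree_zero] at m1; simp at m1)
      (by
        rw [(monic_prod_of_monic _ _ fun i _ => monic_X_sub_C _).leadingCoeff]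
        have : (X ^ 4 + C a * X ^ 2 + C b * X + C c : ℂ[X]).Monic := by monicity!
        exact this.leadingCoeff)
    rw [m1] at this
    simpa [hP] using this
  have hev : ∀ i, P.eval (t i) = quartic a b c (t i) := fun i => by
    simp only [hP, eval_sub, eval_prod, eval_add, eval_mul, eval_pow, eval_X, eval_C, quartic]
    rw [Finset.prod_eq_zero (Finset.mem_univ i) (sub_self _), sub_zero]
  have hi : P.eval y = -∏ i, (y - t i) := by
    simp only [hP, eval_sub, eval_prod, eval_add, eval_mul, eval_pow, eval_X, eval_C]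
    rw [show y ^ 4 + a * y ^ 2 + b * y + c = 0 from h0, zero_sub]
  rw [Lagrange.eq_interpolate ht hdeg, Lagrange.interpolate_apply, eval_finsetSum] at hi
  have hbound : ‖∏ i, (y - t i)‖ ≤ ∑ _i : Fin 4, η * ((2 * B) ^ 3 / δ ^ 3) := by
    rw [← norm_neg, ← hi]
    refine (norm_sum_le _ _).trans (Finset.sum_le_sum fun i _ => ?_)
    rw [eval_mul, eval_C, norm_mul, hev]
    refine mul_le_mul (hη i) ?_ (norm_nonneg _) (le_trans (norm_nonneg _) (hη i))
    rw [Lagrange.basis, eval_prod, norm_prod]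
    have hcard : (Finset.univ.erase i).card = 3 := by simp
    calc ∏ j ∈ Finset.univ.erase i, ‖(Lagrange.basisDivisor (t i) (t j)).eval y‖
        ≤ ∏ _j ∈ Finset.univ.erase i, (2 * B) / δ := by
          refine Finset.prod_le_prod (fun _ _ => norm_nonneg _) fun j hj => ?_
          simp only [Lagrange.basisDivisor, eval_mul, eval_C, eval_sub, eval_X, norm_mul,
            norm_inv]
          have h2 := hsep i j (Finset.mem_erase.1 hj).1.symm
          rw [inv_mul_eq_div]
          exact div_le_div₀ (by linarith [norm_nonneg y]) ((norm_sub_le _ _).trans (by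
            linarith [hB j])) hδ h2
      _ = (2 * B) ^ 3 / δ ^ 3 := by rw [Finset.prod_const, hcard, div_pow]
  obtain ⟨i₀, -, hmin⟩ := Finset.exists_min_image Finset.univ (fun i => ‖y - t i‖)
    Finset.univ_nonempty
  refine ⟨i₀, (le_div_iff₀ (by positivity)).2 (le_trans ?_ hbound)⟩
  rw [norm_prod, ← Finset.mul_prod_erase Finset.univ _ (Finset.mem_univ i₀)]
  refine mul_le_mul_of_nonneg_left ?_ (norm_nonneg _)
  calc (δ / 2) ^ 3 = ∏ _j ∈ Finset.univ.erase i₀, δ / 2 := by
        rw [Finset.prod_const]; simp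
    _ ≤ _ := by
      refine Finset.prod_le_prod (fun _ _ => by positivity) fun j hj => ?_
      have h1 := hsep i₀ j (Finset.mem_erase.1 hj).1.symm
      have h2 := hmin j (Finset.mem_univ _)
      have h3 : ‖t i₀ - t j‖ ≤ ‖y - t j‖ + ‖y - t i₀‖ := by
        have := norm_sub_le (y - t j) (y - t i₀)
        simpa using this
      linarith

/-- A bound on the roots of a depressed quartic. -/
theorem norm_root_le {a b c y : ℂ} (h : quartic a b c y = 0) :
    ‖y‖ ≤ 1 + ‖a‖ + ‖b‖ + ‖c‖ := by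
  by_contra hlt
  rw [not_le] at hlt
  have h1 : 1 < ‖y‖ := by linarith [norm_nonneg a, norm_nonneg b, norm_nonneg c]
  have he : y ^ 4 = -(a * y ^ 2 + b * y + c) := by
    simp only [quartic] at h; linear_combination h
  have hn : ‖y‖ ^ 4 ≤ ‖a‖ * ‖y‖ ^ 2 + ‖b‖ * ‖y‖ + ‖c‖ := by
    rw [← norm_pow, he, norm_neg]
    refine (norm_add_le _ _).trans (add_le_add ((norm_add_le _ _).trans ?_) le_rfl)
    rw [norm_mul, norm_mul, norm_pow]
  have h2 : ‖y‖ ≤ ‖y‖ ^ 2 := le_self_pow₀ h1.le two_ne_zero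
  nlinarith [norm_nonneg a, norm_nonneg b, norm_nonneg c]

/-- Difference asymptotics of a negative power. -/
theorem tendsto_diff_negPow {m k : ℕ} (hk : 0 < k) (O : Finset ℕ) (w : ℕ → ℂ)
    (hw : ∀ j < m, ∑ o ∈ O, w o * (o : ℂ) ^ j = 0) :
    Tendsto (fun s : ℕ => (s : ℂ) ^ (k + m) * ∑ o ∈ O, w o * (((s + o : ℕ) : ℂ)⁻¹) ^ k) atTop
      (𝓝 ((-1) ^ m * (Nat.choose (k - 1 + m) (k - 1) : ℂ) * ∑ o ∈ O, w o * (o : ℂ) ^ m)) := by
  set U : ℂ[X] := (PowerSeries.invOneSubPow ℂ k).val.trunc (m + 1) with hU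
  have hcoef : ∀ i, U.coeff i = if i < m + 1 then (Nat.choose (k - 1 + i) (k - 1) : ℂ) else 0 := by
    intro i
    rw [hU, PowerSeries.coeff_trunc, PowerSeries.invOneSubPow_val_eq_mk_sub_one_add_choose_of_pos
      (S := ℂ) (d := k) hk, PowerSeries.coeff_mk]
  have hdvd : X ^ (m + 1) ∣ (1 - X) ^ k * U - 1 := by
    rw [X_pow_dvd_iff]
    intro i hi
    have h1 : (PowerSeries.trunc (m + 1) ((((1 : ℂ[X]) - X) ^ k * U : ℂ[X]) : PowerSeries ℂ))
        = 1 := by
      rw [Polynomial.coe_mul, Polynomial.coe_pow, Polynomial.coe_sub, Polynomial.coe_one,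
        Polynomial.coe_X, hU, PowerSeries.trunc_mul_trunc,
        ← PowerSeries.invOneSubPow_inv_eq_one_sub_pow, Units.inv_val, PowerSeries.trunc_one]
    have := congrArg (fun P => Polynomial.coeff P i) h1
    simp only [PowerSeries.coeff_trunc, if_pos hi, Polynomial.coeff_coe] at this
    rw [coeff_sub, this, sub_self]
  obtain ⟨V, hV⟩ := hdvd
  set F : ℂ → ℂ := fun ε => ∑ o ∈ O, w o *
    ((-1) ^ (m + 1) * (o : ℂ) ^ (m + 1) * ε * V.eval (-(o : ℂ) * ε) * (((1 + o * ε))⁻¹) ^ k)
  have hid : ∀ s : ℕ, 0 < s → (s : ℂ) ^ (k + m) * ∑ o ∈ O, w o * (((s + o : ℕ) : ℂ)⁻¹) ^ k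
      = (-1) ^ m * (Nat.choose (k - 1 + m) (k - 1) : ℂ) * ∑ o ∈ O, w o * (o : ℂ) ^ m
        - F ((s : ℂ)⁻¹) := by
    intro s hs
    have hsne : (s : ℂ) ≠ 0 := Nat.cast_ne_zero.2 hs.ne'
    have key : ∀ o : ℕ, (s : ℂ) ^ k * (((s + o : ℕ) : ℂ)⁻¹) ^ k
        = U.eval (-(o : ℂ) * (s : ℂ)⁻¹) - (-(o : ℂ) * (s : ℂ)⁻¹) ^ (m + 1)
          * V.eval (-(o : ℂ) * (s : ℂ)⁻¹) * (((1 + (o : ℂ) * (s : ℂ)⁻¹))⁻¹) ^ k := by
      intro o
      have h1 : ((s + o : ℕ) : ℂ) = (s : ℂ) * (1 + (o : ℂ) * (s : ℂ)⁻¹) := by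
        push_cast; field_simp
      have h2 : (1 + (o : ℂ) * (s : ℂ)⁻¹) ≠ 0 := by
        intro h
        rw [h, mul_zero] at h1
        exact (Nat.cast_ne_zero (R := ℂ)).2 (by omega : s + o ≠ 0) h1
      have h3 := congrArg (Polynomial.eval (-(o : ℂ) * (s : ℂ)⁻¹)) hV
      simp only [eval_sub, eval_mul, eval_pow, eval_one, eval_X, neg_mul, sub_neg_eq_add] at h3
      rw [h1, mul_inv, mul_pow, ← mul_assoc, ← mul_pow, mul_inv_cancel₀ hsne, one_pow, one_mul,
        inv_pow]
      simp only [neg_mul]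
      have alg : ∀ q Uu A : ℂ, q ≠ 0 → q ^ k * Uu - 1 = A → (q ^ k)⁻¹ = Uu - A * (q ^ k)⁻¹ := by
        intro q Uu A hq hA
        field_simp
        linear_combination -hA
      exact alg _ _ _ h2 h3
    have hUeval : ∀ x : ℂ, U.eval x
        = ∑ j ∈ Finset.range (m + 1), (Nat.choose (k - 1 + j) (k - 1) : ℂ) * x ^ j := by
      intro x
      rw [eval_eq_sum_range' (lt_of_le_of_lt
        (natDegree_le_iff_coeff_eq_zero.2 fun N hN => by rw [hcoef, if_neg (by omega)])
        (Nat.lt_succ_self m))]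
      exact Finset.sum_congr rfl fun j hj => by rw [hcoef, if_pos (Finset.mem_range.1 hj)]
    rw [pow_add, mul_comm ((s : ℂ) ^ k) ((s : ℂ) ^ m), mul_assoc, Finset.mul_sum]
    rw [Finset.sum_congr rfl fun o _ => (mul_left_comm ((s : ℂ) ^ k) (w o) _).trans
      (congrArg (w o * ·) (key o))]
    simp only [mul_sub, Finset.sum_sub_distrib, hUeval, Finset.mul_sum]
    congr 1
    · rw [Finset.sum_comm, Finset.sum_eq_single m]
      · refine Finset.sum_congr rfl fun o _ => ?_
        rw [mul_pow, neg_pow, inv_pow]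
        field_simp
      · intro j hj hjm
        have hjlt : j < m := by
          have := Finset.mem_range.1 hj; omega
        calc _ = (s : ℂ) ^ m * (Nat.choose (k - 1 + j) (k - 1) : ℂ) * (-(s : ℂ)⁻¹) ^ j
              * ∑ o ∈ O, w o * (o : ℂ) ^ j := by
              rw [Finset.mul_sum]
              refine Finset.sum_congr rfl fun o _ => ?_
              ring
          _ = 0 := by rw [hw j hjlt, mul_zero]
      · simp
    · simp only [F]
      refine Finset.sum_congr rfl fun o _ => ?_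
      rw [mul_pow, neg_pow, inv_pow ((s : ℂ)), pow_succ (s : ℂ) m]
      field_simp
  have hF : ContinuousAt F 0 := by
    simp only [F]
    exact tendsto_finsetSum _ fun o _ => ContinuousAt.tendsto (by
      fun_prop (disch := simp))
  have h0 : Tendsto (fun s : ℕ => F ((s : ℂ)⁻¹)) atTop (𝓝 0) := by
    have hF0 : F 0 = 0 := by simp [F]
    exact hF0 ▸ hF.tendsto.comp tendsto_inv_atTop_nhds_zero_nat
  have hlim := (tendsto_const_nhds (x := (-1) ^ m * (Nat.choose (k - 1 + m) (k - 1) : ℂ)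
    * ∑ o ∈ O, w o * (o : ℂ) ^ m)).sub h0
  rw [sub_zero] at hlim
  refine hlim.congr' ?_
  filter_upwards [eventually_gt_atTop 0] with s hs
  exact (hid s hs).symm

end Fermat.Agent.Switch
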