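import Mathlib
import Fermat.Agent.Switch.Expansion

/-!
# Integer roots for all large parameters force a polynomial root

If a quartic with polynomial coefficients and simple roots at infinity has an integer root for
all large natural parameters, it has a polynomial root (`exists_polynomial_root`).
-/

set_option autoImplicit false

open Polynomial Filter Topology

namespace Fermat.Agent.Switch

/-- Lagrange weights kill low powers and see the top one. -/
theorem exists_int_weights (O : Finset ℕ) {m : ℕ} (hO : O.card = m + 1) :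
    ∃ w : ℕ → ℤ, (∀ j < m, ∑ o ∈ O, (w o : ℂ) * (o : ℂ) ^ j = 0) ∧
      ∑ o ∈ O, (w o : ℂ) * (o : ℂ) ^ m ≠ 0 := by
  classical
  set W : ℤ := ∏ i ∈ O, ∏ j ∈ O.erase i, ((i : ℤ) - j)
  have hfac : ∀ o ∈ O, (∏ j ∈ O.erase o, ((o : ℤ) - j)) ≠ 0 := fun o _ =>
    Finset.prod_ne_zero_iff.2 fun j hj => sub_ne_zero.2 (by
      exact_mod_cast (Finset.mem_erase.1 hj).1.symm)
  refine ⟨fun o => ∏ i ∈ O.erase o, ∏ j ∈ O.erase i, ((i : ℤ) - j), ?_⟩
  have hinj : Set.InjOn (fun o : ℕ => (o : ℂ)) O := fun a _ b _ h => Nat.cast_injective h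
  have key : ∀ j, j ≤ m → ∑ o ∈ O, ((∏ i ∈ O.erase o, ∏ l ∈ O.erase i, ((i : ℤ) - l) : ℤ) : ℂ)
      * (o : ℂ) ^ j = (W : ℂ) * if j = m then 1 else 0 := by
    intro j hj
    have hs := Lagrange.coeff_eq_sum (v := fun o : ℕ => (o : ℂ)) hinj (P := (X : ℂ[X]) ^ j)
      (by rw [degree_X_pow, hO]; exact_mod_cast Nat.lt_succ_of_le hj)
    rw [hO, Nat.add_sub_cancel, coeff_X_pow] at hs
    rw [show (if j = m then (1 : ℂ) else 0) = if m = j then 1 else 0 from
      by simp only [eq_comm], hs, Finset.mul_sum]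
    refine Finset.sum_congr rfl fun o ho => ?_
    simp only [eval_pow, eval_X]
    have : (W : ℂ) = ((∏ l ∈ O.erase o, ((o : ℤ) - l) : ℤ) : ℂ)
        * ((∏ i ∈ O.erase o, ∏ l ∈ O.erase i, ((i : ℤ) - l) : ℤ) : ℂ) := by
      rw [← Int.cast_mul, Finset.mul_prod_erase O
        (fun i => ∏ l ∈ O.erase i, ((i : ℤ) - l)) ho]
    rw [this]
    have hne : ((∏ l ∈ O.erase o, ((o : ℤ) - l) : ℤ) : ℂ) ≠ 0 := Int.cast_ne_zero.2 (hfac o ho)
    push_cast at hne ⊢
    field_simp
  refine ⟨fun j hj => ?_, ?_⟩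
  · simp only [key j hj.le, if_neg hj.ne, mul_zero]
  · simp only [key m le_rfl, if_pos, mul_one]
    exact Int.cast_ne_zero.2 (Finset.prod_ne_zero_iff.2 hfac)

/-- The value at `s` of a polynomial, from its reversal at `1/s`. -/
theorem eval_eq_reflect (f : ℂ[X]) {N : ℕ} (hN : f.natDegree ≤ N) {s : ℂ} (hs : s ≠ 0) :
    f.eval s = (reflect N f).eval s⁻¹ * s ^ N := by
  have : Invertible s := invertibleOfNonzero hs
  have := eval₂_reflect_mul_pow (RingHom.id ℂ) s N f hN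
  rw [invOf_eq_inv] at this
  exact this.symm

/-- Homogeneity of the quartic. -/
theorem quartic_scale (p q r y u : ℂ) (d : ℕ) :
    quartic (p * u ^ (2 * d)) (q * u ^ (3 * d)) (r * u ^ (4 * d)) (y * u ^ d)
      = quartic p q r y * u ^ (4 * d) := by
  simp only [quartic]
  ring

/-- Truncation of a polynomial. -/
theorem exists_split (T : ℂ[X]) (n : ℕ) : ∃ R : ℂ[X],
    T = (∑ j ∈ Finset.range n, C (T.coeff j) * X ^ j) + X ^ n * R := by
  have : X ^ n ∣ T - ∑ j ∈ Finset.range n, C (T.coeff j) * X ^ j := by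
    rw [X_pow_dvd_iff]
    intro i hi
    rw [coeff_sub, finsetSum_coeff]
    simp only [coeff_C_mul_X_pow]
    rw [Finset.sum_ite_eq, if_pos (Finset.mem_range.2 hi), sub_self]
  obtain ⟨R, hR⟩ := this
  exact ⟨R, by rw [← hR]; ring⟩

theorem eventually_norm_le (f : ℂ[X]) :
    ∀ᶠ s : ℕ in atTop, ‖f.eval ((s : ℂ)⁻¹)‖ ≤ ‖f.eval 0‖ + 1 := by
  have h : Tendsto (fun s : ℕ => ‖f.eval ((s : ℂ)⁻¹)‖) atTop (𝓝 ‖f.eval 0‖) :=
    (f.continuous.norm.tendsto 0).comp tendsto_inv_atTop_nhds_zero_nat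
  exact (h.eventually (gt_mem_nhds (lt_add_one _))).mono fun _ => le_of_lt

theorem tendsto_eval_inv (f : ℂ[X]) :
    Tendsto (fun s : ℕ => f.eval ((s : ℂ)⁻¹)) atTop (𝓝 (f.eval 0)) :=
  (f.continuous.tendsto 0).comp tendsto_inv_atTop_nhds_zero_nat

section Setup

variable {d : ℕ} {p q r : ℂ[X]}

/-- Truncated expansions at infinity approximate all roots. -/
theorem exists_expansions (hp : p.natDegree ≤ 2 * d) (hq : q.natDegree ≤ 3 * d)
    (hr : r.natDegree ≤ 4 * d)
    (htop : ∀ y, quartic (p.coeff (2 * d)) (q.coeff (3 * d)) (r.coeff (4 * d)) y = 0 →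
      quartic' (p.coeff (2 * d)) (q.coeff (3 * d)) y ≠ 0) (n : ℕ) :
    ∃ (T : Fin 4 → ℂ[X]) (K : ℝ), (∀ i, X ^ (n + 1) ∣
        quartic (reflect (2 * d) p) (reflect (3 * d) q) (reflect (4 * d) r) (T i)) ∧
      ∀ᶠ s : ℕ in atTop, ∀ z : ℂ, quartic (p.eval (s : ℂ)) (q.eval (s : ℂ)) (r.eval (s : ℂ)) z = 0 →
        ∃ i, ‖z - (s : ℂ) ^ d * (T i).eval ((s : ℂ)⁻¹)‖
          ≤ K * (s : ℝ) ^ d * ((s : ℝ)⁻¹) ^ (n + 1) := by
  classical
  set a := reflect (2 * d) p with ha
  set b := reflect (3 * d) q with hb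
  set c := reflect (4 * d) r with hc
  have h0 : a.eval 0 = p.coeff (2 * d) ∧ b.eval 0 = q.coeff (3 * d) ∧
      c.eval 0 = r.coeff (4 * d) := by
    simp [ha, hb, hc, ← coeff_zero_eq_eval_zero, coeff_reflect, revAt_le]
  rw [← h0.1, ← h0.2.1, ← h0.2.2] at htop
  -- the four roots of the top form
  set G : ℂ[X] := X ^ 4 + C (a.eval 0) * X ^ 2 + C (b.eval 0) * X + C (c.eval 0) with hG
  have hGdeg : G.natDegree = 4 := by rw [hG]; compute_degree!
  have hGne : G ≠ 0 := fun h => by rw [h, natDegree_zero] at hGdeg; omega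
  have hGev : ∀ y, G.eval y = quartic (a.eval 0) (b.eval 0) (c.eval 0) y := fun y => by
    simp [hG, quartic]
  have hnd : G.roots.Nodup := by
    rw [Multiset.nodup_iff_count_le_one]
    intro y
    rw [count_roots]
    by_contra hlt
    rw [not_le] at hlt
    obtain ⟨h1, h2⟩ := (one_lt_rootMultiplicity_iff_isRoot hGne).1 hlt
    refine htop y ((hGev y).symm.trans h1) ?_
    have : G.derivative.eval y = quartic' (a.eval 0) (b.eval 0) y := by
      simp [hG, quartic', derivative_pow]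
      ring
    exact this.symm.trans h2
  have hcard : G.roots.toFinset.card = 4 := by
    rw [Multiset.toFinset_card_of_nodup hnd, IsAlgClosed.card_roots_eq_natDegree, hGdeg]
  let e : Fin 4 ≃ G.roots.toFinset := (Finset.equivFinOfCardEq hcard).symm
  have hroot : ∀ i, quartic (a.eval 0) (b.eval 0) (c.eval 0) (e i : ℂ) = 0 := fun i => by
    rw [← hGev]
    exact (mem_roots'.1 (Multiset.mem_toFinset.1 (e i).2)).2
  choose T hT0 hT using fun i => exists_lift a b c (e i : ℂ) (hroot i) (htop _ (hroot i)) n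
  choose R hR using hT
  -- separation, bounds
  obtain ⟨δ, hδ, hsep0⟩ : ∃ δ : ℝ, 0 < δ ∧ ∀ i j, i ≠ j → δ < ‖(T i).eval 0 - (T j).eval 0‖ := by
    have hpos : ∀ x : Fin 4 × Fin 4, x.1 ≠ x.2 → 0 < ‖(T x.1).eval 0 - (T x.2).eval 0‖ :=
      fun x hx => by
        rw [norm_pos_iff, sub_ne_zero, hT0, hT0]
        exact fun h => hx (e.injective (Subtype.ext h))
    set S := (Finset.univ.filter fun x : Fin 4 × Fin 4 => x.1 ≠ x.2).image
      (fun x => ‖(T x.1).eval 0 - (T x.2).eval 0‖)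
    have hS : S.Nonempty := ⟨_, Finset.mem_image.2 ⟨(0, 1), by simp, rfl⟩⟩
    refine ⟨S.min' hS / 2, ?_, fun i j hij => ?_⟩
    · obtain ⟨x, hx, hxe⟩ := Finset.mem_image.1 (S.min'_mem hS)
      rw [← hxe]
      exact half_pos (hpos x (Finset.mem_filter.1 hx).2)
    · have hle : S.min' hS ≤ ‖(T i).eval 0 - (T j).eval 0‖ :=
        Finset.min'_le _ _ (Finset.mem_image.2 ⟨(i, j), by simp [hij], rfl⟩)
      linarith [hpos (i, j) hij]
  have hsep : ∀ᶠ s : ℕ in atTop, ∀ i j, i ≠ j →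
      δ ≤ ‖(T i).eval ((s : ℂ)⁻¹) - (T j).eval ((s : ℂ)⁻¹)‖ := by
    simp only [eventually_all]
    intro i j hij
    exact (((tendsto_eval_inv (T i)).sub (tendsto_eval_inv (T j))).norm.eventually
      (lt_mem_nhds (hsep0 i j hij))).mono fun _ h => h.le
  set B : ℝ := (1 + (‖a.eval 0‖ + 1) + (‖b.eval 0‖ + 1) + (‖c.eval 0‖ + 1))
    + ∑ i, (‖(T i).eval 0‖ + 1) with hBdef
  set E : ℝ := ∑ i, (‖(R i).eval 0‖ + 1) with hEdef
  refine ⟨T, (∑ _i : Fin 4, E * ((2 * B) ^ 3 / δ ^ 3)) / (δ / 2) ^ 3,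
    fun i => ⟨R i, hR i⟩, ?_⟩
  filter_upwards [hsep, eventually_norm_le a, eventually_norm_le b, eventually_norm_le c,
    eventually_all.2 fun i => eventually_norm_le (T i),
    eventually_all.2 fun i => eventually_norm_le (R i),
    eventually_gt_atTop 0] with s h1 ha' hb' hc' hT' hR' hs z hz
  have hsne : (s : ℂ) ≠ 0 := Nat.cast_ne_zero.2 hs.ne'
  set ε : ℂ := (s : ℂ)⁻¹
  set y : ℂ := z * ε ^ d
  have hy0 : quartic (a.eval ε) (b.eval ε) (c.eval ε) y = 0 := by
    have := quartic_scale (p.eval (s : ℂ)) (q.eval (s : ℂ)) (r.eval (s : ℂ)) z ε d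
    rw [hz, zero_mul, eval_eq_reflect p hp hsne, eval_eq_reflect q hq hsne,
      eval_eq_reflect r hr hsne] at this
    simpa only [mul_assoc, ← mul_pow, ε, mul_inv_cancel₀ hsne, one_pow, mul_one, y] using this
  have hBy : ‖y‖ ≤ B := by
    have := norm_root_le hy0
    have h2 : (0 : ℝ) ≤ ∑ i, (‖(T i).eval 0‖ + 1) := Finset.sum_nonneg fun i _ => by positivity
    linarith
  have hBT : ∀ i, ‖(T i).eval ε‖ ≤ B := fun i => by
    have h2 := Finset.single_le_sum (f := fun i => ‖(T i).eval 0‖ + 1)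
      (fun j _ => by positivity) (Finset.mem_univ i)
    linarith [hT' i, norm_nonneg (a.eval 0), norm_nonneg (b.eval 0), norm_nonneg (c.eval 0)]
  have hη : ∀ i, ‖quartic (a.eval ε) (b.eval ε) (c.eval ε) ((T i).eval ε)‖
      ≤ E * ((s : ℝ)⁻¹) ^ (n + 1) := fun i => by
    have := congrArg (Polynomial.eval ε) (hR i)
    simp only [quartic, eval_add, eval_mul, eval_pow, eval_X] at this ⊢
    rw [this, norm_mul, norm_pow, mul_comm]
    refine mul_le_mul ((hR' i).trans ?_) (le_of_eq ?_) (by positivity) ?_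
    · exact Finset.single_le_sum (f := fun i => ‖(R i).eval 0‖ + 1)
        (fun j _ => by positivity) (Finset.mem_univ i)
    · simp [ε]
    · exact Finset.sum_nonneg fun i _ => by positivity
  obtain ⟨i, hi⟩ := exists_close_root hδ h1 hBT hη hBy hy0
  refine ⟨i, ?_⟩
  have he : z - (s : ℂ) ^ d * (T i).eval ε = (s : ℂ) ^ d * (y - (T i).eval ε) := by
    rw [mul_sub, show (s : ℂ) ^ d * y = z * (((s : ℂ) * ε) ^ d) by
      simp only [y, mul_pow]; ring]
    simp only [ε, mul_inv_cancel₀ hsne, one_pow, mul_one]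
  rw [he, norm_mul, norm_pow, Complex.norm_natCast]
  refine (mul_le_mul_of_nonneg_left hi (by positivity)).trans (le_of_eq ?_)
  simp only [← Finset.mul_sum, Finset.sum_const, Finset.card_univ, nsmul_eq_mul]
  ring

/-- **Main theorem**: a quartic with polynomial coefficients, simple roots at infinity and an
integer root at all large natural numbers has a polynomial root. -/
theorem exists_polynomial_root (hp : p.natDegree ≤ 2 * d) (hq : q.natDegree ≤ 3 * d)
    (hr : r.natDegree ≤ 4 * d)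
    (htop : ∀ y, quartic (p.coeff (2 * d)) (q.coeff (3 * d)) (r.coeff (4 * d)) y = 0 →
      quartic' (p.coeff (2 * d)) (q.coeff (3 * d)) y ≠ 0)
    (hint : ∀ᶠ s : ℕ in atTop,
      ∃ z : ℤ, quartic (p.eval (s : ℂ)) (q.eval (s : ℂ)) (r.eval (s : ℂ)) (z : ℂ) = 0) :
    ∃ P : ℂ[X], quartic p q r P = 0 := by
  classical
  by_contra hno
  set m := d + 1 with hm
  set n := 6 * d + 2 with hn
  obtain ⟨T, K, hT, hclose⟩ := exists_expansions hp hq hr htop n
  have htail : ∀ i, ∃ j, d < j ∧ j ≤ 4 * d ∧ (T i).coeff j ≠ 0 := by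
    intro i
    by_contra hc
    push Not at hc
    apply hno
    set Tr : ℂ[X] := ∑ j ∈ Finset.range (d + 1), C ((T i).coeff j) * X ^ j with hTr
    set P : ℂ[X] := ∑ j ∈ Finset.range (d + 1), C ((T i).coeff j) * X ^ (d - j) with hP
    refine ⟨P, ?_⟩
    have hdvd : X ^ (4 * d + 1) ∣ T i - Tr := by
      rw [X_pow_dvd_iff]
      intro l hl
      rw [hTr, coeff_sub, finsetSum_coeff]
      simp only [coeff_C_mul_X_pow]
      rw [Finset.sum_ite_eq]
      split_ifs with h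
      · exact sub_self _
      · rw [Finset.mem_range, not_lt] at h
        rw [hc l (by omega) (by omega), sub_zero]
    have hG : quartic (reflect (2 * d) p) (reflect (3 * d) q) (reflect (4 * d) r) Tr = 0 := by
      refine eq_zero_of_dvd_of_natDegree_lt (p := X ^ (4 * d + 1)) ?_ ?_
      · obtain ⟨u, hu⟩ := hdvd
        have h1 := (pow_dvd_pow (X : ℂ[X]) (show 4 * d + 1 ≤ n + 1 by omega)).trans (hT i)
        rw [show T i = Tr + X ^ (4 * d + 1) * u by linear_combination hu] at h1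
        obtain ⟨v, hv⟩ := h1
        refine ⟨v - u * ((4 * Tr ^ 3 + 2 * reflect (2 * d) p * Tr + reflect (3 * d) q)
          + (X ^ (4 * d + 1) * u) * (6 * Tr ^ 2 + reflect (2 * d) p
            + 4 * Tr * (X ^ (4 * d + 1) * u) + (X ^ (4 * d + 1) * u) ^ 2)), ?_⟩
        simp only [quartic] at hv ⊢
        linear_combination hv
      · rw [natDegree_X_pow]
        have hTd : Tr.natDegree ≤ d := natDegree_sum_le_of_forall_le _ _ fun j hj =>
          (natDegree_C_mul_X_pow_le _ _).trans (by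
            rw [Finset.mem_range] at hj; omega)
        have hap : (reflect (2 * d) p).natDegree ≤ 2 * d :=
          (natDegree_reflect_le).trans (max_le le_rfl hp)
        have hbq : (reflect (3 * d) q).natDegree ≤ 3 * d :=
          (natDegree_reflect_le).trans (max_le le_rfl hq)
        have hcr : (reflect (4 * d) r).natDegree ≤ 4 * d :=
          (natDegree_reflect_le).trans (max_le le_rfl hr)
        refine Nat.lt_succ_of_le ?_
        simp only [quartic]
        compute_degree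
        omega
    refine eq_zero_of_infinite_isRoot _ (Set.Infinite.mono (fun x hx => ?_)
      (Set.finite_singleton (0 : ℂ)).infinite_compl)
    have hx : x ≠ 0 := hx
    have hPev : P.eval x = Tr.eval x⁻¹ * x ^ d := by
      simp only [hP, hTr, eval_finsetSum, eval_mul, eval_C, eval_pow, eval_X, Finset.sum_mul]
      refine Finset.sum_congr rfl fun j hj => ?_
      rw [mul_assoc, inv_pow, inv_mul_eq_div, pow_sub₀ _ hx (by
        rw [Finset.mem_range] at hj; omega), div_eq_mul_inv]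
    have h1 : (quartic (reflect (2 * d) p) (reflect (3 * d) q) (reflect (4 * d) r) Tr).eval x⁻¹
        * x ^ (4 * d) = 0 := by rw [hG, eval_zero, zero_mul]
    simp only [quartic, eval_add, eval_mul, eval_pow] at h1
    change (quartic p q r P).eval x = 0
    simp only [quartic, eval_add, eval_mul, eval_pow]
    rw [hPev, eval_eq_reflect p hp hx, eval_eq_reflect q hq hx, eval_eq_reflect r hr hx,
      ← h1]
    ring
  -- a recurring pattern in windows
  set len := 4 * (m + 1)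
  have hwin : ∀ᶠ s : ℕ in atTop, ∀ o ∈ Finset.range len, ∃ z : ℤ, ∃ i,
      ‖(z : ℂ) - ((s + o : ℕ) : ℂ) ^ d * (T i).eval (((s + o : ℕ) : ℂ)⁻¹)‖
        ≤ K * ((s + o : ℕ) : ℝ) ^ d * (((s + o : ℕ) : ℝ)⁻¹) ^ (n + 1) := by
    obtain ⟨s₀, hs₀⟩ := eventually_atTop.1 (hint.and hclose)
    filter_upwards [eventually_ge_atTop s₀] with s hs o _
    obtain ⟨⟨z, hz⟩, hc⟩ := hs₀ (s + o) (by omega)
    exact ⟨z, hc z hz⟩
  have hpat : ∀ᶠ s : ℕ in atTop, ∃ x ∈ ((Finset.univ : Finset (Fin 4)) ×ˢ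
      (Finset.range len).powersetCard (m + 1)), ∀ o ∈ x.2, ∃ z : ℤ,
      ‖(z : ℂ) - ((s + o : ℕ) : ℂ) ^ d * (T x.1).eval (((s + o : ℕ) : ℂ)⁻¹)‖
        ≤ K * ((s + o : ℕ) : ℝ) ^ d * (((s + o : ℕ) : ℝ)⁻¹) ^ (n + 1) := by
    filter_upwards [hwin] with s hs
    choose! z i hi using hs
    obtain ⟨i₀, -, hi₀⟩ := Finset.exists_le_card_fiber_of_mul_le_card_of_maps_to
      (s := Finset.range len) (t := (Finset.univ : Finset (Fin 4))) (f := i) (n := m + 1)
      (fun o _ => Finset.mem_univ _) Finset.univ_nonempty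
      (by rw [Finset.card_range]; simp [len])
    obtain ⟨O, hOsub, hO⟩ := Finset.exists_subset_card_eq hi₀
    refine ⟨(i₀, O), Finset.mem_product.2 ⟨Finset.mem_univ _, Finset.mem_powersetCard.2
      ⟨hOsub.trans (Finset.filter_subset _ _), hO⟩⟩, fun o ho => ⟨z o, ?_⟩⟩
    obtain ⟨ho1, ho2⟩ := Finset.mem_filter.1 (hOsub ho)
    rw [← ho2]
    exact hi o ho1
  obtain ⟨⟨i, O⟩, hmem, hfreq⟩ : ∃ x ∈ ((Finset.univ : Finset (Fin 4)) ×ˢ
      (Finset.range len).powersetCard (m + 1)), ∃ᶠ s : ℕ in atTop, ∀ o ∈ x.2, ∃ z : ℤ,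
      ‖(z : ℂ) - ((s + o : ℕ) : ℂ) ^ d * (T x.1).eval (((s + o : ℕ) : ℂ)⁻¹)‖
        ≤ K * ((s + o : ℕ) : ℝ) ^ d * (((s + o : ℕ) : ℝ)⁻¹) ^ (n + 1) := by
    by_contra hc
    push Not at hc
    have hall : ∀ᶠ s : ℕ in atTop, ∀ x ∈ ((Finset.univ : Finset (Fin 4)) ×ˢ
      (Finset.range len).powersetCard (m + 1)), ¬ ∀ o ∈ x.2, ∃ z : ℤ,
      ‖(z : ℂ) - ((s + o : ℕ) : ℂ) ^ d * (T x.1).eval (((s + o : ℕ) : ℂ)⁻¹)‖
        ≤ K * ((s + o : ℕ) : ℝ) ^ d * (((s + o : ℕ) : ℝ)⁻¹) ^ (n + 1) :=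
      (Filter.eventually_all_finset _).2 fun x hx => (hc x hx).mono fun s h1 h2 => by
        obtain ⟨o, ho, hlt⟩ := h1
        obtain ⟨z, hz⟩ := h2 o ho
        exact absurd hz (not_le.2 (hlt z))
    obtain ⟨s, ⟨x, hx, hs1⟩, hs2⟩ := (hpat.and hall).exists
    exact hs2 x hx hs1
  have hO : O.card = m + 1 := (Finset.mem_powersetCard.1 (Finset.mem_product.1 hmem).2).2
  obtain ⟨w, hw0, hwm⟩ := exists_int_weights O hO
  obtain ⟨j, ⟨hjd, hj4, hjne⟩, hjmin⟩ :
      ∃ j, (d < j ∧ j ≤ 4 * d ∧ (T i).coeff j ≠ 0) ∧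
        ∀ l, (d < l ∧ l ≤ 4 * d ∧ (T i).coeff l ≠ 0) → j ≤ l :=
    ⟨Nat.find (htail i), Nat.find_spec (htail i), fun _ hl => Nat.find_min' (htail i) hl⟩
  set k := j - d with hk
  obtain ⟨R, hR⟩ := exists_split (T i) (n + 1)
  -- the model difference quantity
  set Q : ℕ → ℂ := fun s => ∑ o ∈ O, (w o : ℂ)
    * (((s + o : ℕ) : ℂ) ^ d * (T i).eval (((s + o : ℕ) : ℂ)⁻¹)) with hQ
  have hdecay : ∀ (e o : ℕ) (f : ℂ[X]), Tendsto (fun s : ℕ => (s : ℂ) ^ e
      * ((((s + o : ℕ) : ℂ)⁻¹) ^ (e + 1) * f.eval (((s + o : ℕ) : ℂ)⁻¹))) atTop (𝓝 0) := by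
    intro e o f
    have h2 : Tendsto (fun s : ℕ => ((s + o : ℕ) : ℂ)⁻¹) atTop (𝓝 0) :=
      tendsto_inv_atTop_nhds_zero_nat.comp (tendsto_add_atTop_nat o)
    have h3 : Tendsto (fun s : ℕ => (1 - (o : ℂ) * ((s + o : ℕ) : ℂ)⁻¹) ^ e
        * (((s + o : ℕ) : ℂ)⁻¹ * f.eval (((s + o : ℕ) : ℂ)⁻¹))) atTop (𝓝 0) := by
      have := (((tendsto_const_nhds (x := (1 : ℂ))).sub (h2.const_mul (o : ℂ))).pow e).mul
        (h2.mul ((f.continuous.tendsto 0).comp h2))
      simpa using this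
    refine h3.congr' ?_
    filter_upwards [eventually_gt_atTop 0] with s hs
    have hne : ((s + o : ℕ) : ℂ) ≠ 0 := Nat.cast_ne_zero.2 (by omega)
    rw [show (1 - (o : ℂ) * ((s + o : ℕ) : ℂ)⁻¹) = (s : ℂ) * ((s + o : ℕ) : ℂ)⁻¹ by
      field_simp; push_cast; ring]
    ring
  have hQexp : ∀ s : ℕ, 0 < s → Q s
      = (∑ l ∈ Finset.Icc j n, (T i).coeff l
          * ∑ o ∈ O, (w o : ℂ) * (((s + o : ℕ) : ℂ)⁻¹) ^ (l - d))
        + ∑ o ∈ O, (w o : ℂ) * ((((s + o : ℕ) : ℂ)⁻¹) ^ (n + 1 - d)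
            * R.eval (((s + o : ℕ) : ℂ)⁻¹)) := by
    intro s hs
    have hterm : ∀ o, ((s + o : ℕ) : ℂ) ^ d * (T i).eval (((s + o : ℕ) : ℂ)⁻¹)
        = (∑ l ∈ Finset.range (n + 1), (T i).coeff l *
            (((s + o : ℕ) : ℂ) ^ d * (((s + o : ℕ) : ℂ)⁻¹) ^ l))
          + (((s + o : ℕ) : ℂ)⁻¹) ^ (n + 1 - d) * R.eval (((s + o : ℕ) : ℂ)⁻¹) := by
      intro o
      have hne : ((s + o : ℕ) : ℂ) ≠ 0 := Nat.cast_ne_zero.2 (by omega)
      conv_lhs => rw [hR]
      simp only [eval_add, eval_finsetSum, eval_mul, eval_C, eval_pow, eval_X, mul_add,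
        Finset.mul_sum]
      congr 1
      · exact Finset.sum_congr rfl fun l _ => by ring
      · rw [← mul_assoc]
        congr 1
        rw [inv_pow, inv_pow, pow_sub₀ _ hne (show d ≤ n + 1 by omega), mul_inv, inv_inv]
        ring
    simp only [hQ, hterm, mul_add, Finset.sum_add_distrib, Finset.mul_sum]
    congr 1
    rw [Finset.sum_comm]
    have hsub : Finset.Icc j n ⊆ Finset.range (n + 1) := fun l hl => by
      rw [Finset.mem_Icc] at hl; rw [Finset.mem_range]; omega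
    rw [← Finset.sum_subset hsub]
    · refine Finset.sum_congr rfl fun l hl => Finset.sum_congr rfl fun o _ => ?_
      rw [Finset.mem_Icc] at hl
      have hne : ((s + o : ℕ) : ℂ) ≠ 0 := Nat.cast_ne_zero.2 (by omega)
      rw [inv_pow, inv_pow, pow_sub₀ _ hne (show d ≤ l by omega), mul_inv, inv_inv]
      ring
    · intro l hl hl'
      rw [Finset.mem_range] at hl
      rw [Finset.mem_Icc] at hl'
      by_cases hld : l ≤ d
      · have hpow : ∀ o, ((s + o : ℕ) : ℂ) ^ d * (((s + o : ℕ) : ℂ)⁻¹) ^ l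
            = ((s + o : ℕ) : ℂ) ^ (d - l) := fun o => by
          rw [pow_sub₀ _ (Nat.cast_ne_zero.2 (by omega)) hld, inv_pow]
        simp only [hpow]
        simp only [Nat.cast_add, add_comm (s : ℂ), add_pow, Finset.mul_sum]
        rw [Finset.sum_comm]
        refine Finset.sum_eq_zero fun u hu => ?_
        rw [Finset.mem_range] at hu
        calc _ = (T i).coeff l * ((s : ℂ) ^ (d - l - u) * ((d - l).choose u : ℂ))
              * ∑ o ∈ O, (w o : ℂ) * (o : ℂ) ^ u := by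
              rw [Finset.mul_sum]
              exact Finset.sum_congr rfl fun o _ => by ring
          _ = 0 := by rw [hw0 u (by omega), mul_zero]
      · have : (T i).coeff l = 0 := by
          by_contra hne
          exact absurd (hjmin l ⟨by omega, by omega, hne⟩) (by omega)
        simp [this]
  set L : ℂ := (T i).coeff j * ((-1) ^ m * (Nat.choose (k - 1 + m) (k - 1) : ℂ)
    * ∑ o ∈ O, (w o : ℂ) * (o : ℂ) ^ m) with hLdef
  have hL : L ≠ 0 := mul_ne_zero hjne (mul_ne_zero (mul_ne_zero (pow_ne_zero _ (by norm_num))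
    (Nat.cast_ne_zero.2 (Nat.choose_pos (by omega)).ne')) hwm)
  have hlim : Tendsto (fun s : ℕ => (s : ℂ) ^ (k + m) * Q s) atTop (𝓝 L) := by
    have h2 : Tendsto (fun s : ℕ => (∑ l ∈ Finset.Icc j n, (T i).coeff l
          * (((s : ℂ)⁻¹) ^ (l - d - k)
            * ((s : ℂ) ^ (l - d + m) * ∑ o ∈ O, (w o : ℂ) * (((s + o : ℕ) : ℂ)⁻¹) ^ (l - d))))
        + ∑ o ∈ O, (w o : ℂ) * ((s : ℂ) ^ (k + m) * ((((s + o : ℕ) : ℂ)⁻¹) ^ (n + 1 - d)
            * R.eval (((s + o : ℕ) : ℂ)⁻¹)))) atTop (𝓝 (L + 0)) := by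
      refine Tendsto.add ?_ ?_
      · have hs := tendsto_finsetSum (Finset.Icc j n) fun l (hl : l ∈ Finset.Icc j n) =>
          ((tendsto_inv_atTop_nhds_zero_nat (𝕜 := ℂ)).pow (l - d - k)).mul
            (tendsto_diff_negPow (m := m) (k := l - d)
              (by rw [Finset.mem_Icc] at hl; omega) O (fun o => (w o : ℂ)) hw0)
            |>.const_mul ((T i).coeff l)
        refine hs.trans (le_of_eq ?_)
        rw [Finset.sum_eq_single j (fun l hl hne => ?_) (fun h => absurd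
          (Finset.mem_Icc.2 ⟨le_rfl, by omega⟩) h)]
        · rw [← hk, Nat.sub_self, pow_zero, one_mul, hLdef]
        · rw [Finset.mem_Icc] at hl
          rw [zero_pow (by omega), zero_mul, mul_zero]
      · have := tendsto_finsetSum O fun o (_ : o ∈ O) =>
          (hdecay (k + m) o (X ^ (n + 1 - d - (k + m + 1)) * R)).const_mul (w o : ℂ)
        simp only [mul_zero, Finset.sum_const_zero] at this
        refine this.congr fun s => Finset.sum_congr rfl fun o _ => ?_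
        rw [eval_mul, eval_pow, eval_X, ← mul_assoc ((((s + o : ℕ) : ℂ)⁻¹) ^ (k + m + 1)),
          ← pow_add, Nat.add_sub_cancel' (show k + m + 1 ≤ n + 1 - d by omega)]
    rw [add_zero] at h2
    refine h2.congr' ?_
    filter_upwards [eventually_gt_atTop 0] with s hs
    rw [hQexp s hs, mul_add, Finset.mul_sum, Finset.mul_sum]
    congr 1
    · refine Finset.sum_congr rfl fun l hl => ?_
      rw [Finset.mem_Icc] at hl
      have hsne : (s : ℂ) ≠ 0 := Nat.cast_ne_zero.2 hs.ne'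
      conv_lhs => rw [show l - d + m = (l - d - k) + (k + m) by omega, pow_add,
        mul_assoc ((s : ℂ) ^ (l - d - k)), ← mul_assoc (((s : ℂ)⁻¹) ^ (l - d - k)), inv_pow,
        inv_mul_cancel₀ (pow_ne_zero _ hsne), one_mul]
      ring
    · exact Finset.sum_congr rfl fun o _ => by ring
  -- closeness to integers
  have hQ0 : Tendsto Q atTop (𝓝 0) := by
    have := ((tendsto_inv_atTop_nhds_zero_nat (𝕜 := ℂ)).pow (k + m)).mul hlim
    rw [zero_pow (by omega), zero_mul] at this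
    refine this.congr' ?_
    filter_upwards [eventually_gt_atTop 0] with s hs
    rw [← mul_assoc, ← mul_pow, inv_mul_cancel₀ (Nat.cast_ne_zero.2 hs.ne'), one_pow, one_mul]
  set err : ℕ → ℝ := fun s => ∑ o ∈ O, |(w o : ℝ)|
    * (K * ((s + o : ℕ) : ℝ) ^ d * (((s + o : ℕ) : ℝ)⁻¹) ^ (n + 1)) with herr
  have herr0 : ∀ e, e + 1 + d ≤ n + 1 →
      Tendsto (fun s : ℕ => (s : ℝ) ^ e * err s) atTop (𝓝 0) := by
    intro e he
    have h := tendsto_finsetSum O fun o (_ : o ∈ O) =>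
      ((hdecay e o (X ^ (n + 1 - d - (e + 1)))).norm.const_mul (|(w o : ℝ)| * K))
    simp only [norm_zero, mul_zero, Finset.sum_const_zero] at h
    refine h.congr' ?_
    filter_upwards [eventually_gt_atTop 0] with s hs
    simp only [herr, Finset.mul_sum]
    refine Finset.sum_congr rfl fun o _ => ?_
    have hne : ((s + o : ℕ) : ℝ) ≠ 0 := Nat.cast_ne_zero.2 (by omega)
    rw [eval_pow, eval_X, ← pow_add, norm_mul, norm_pow, norm_pow, norm_inv,
      Complex.norm_natCast, Complex.norm_natCast,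
      Nat.add_sub_cancel' (show e + 1 ≤ n + 1 - d by omega)]
    rw [inv_pow, inv_pow, pow_sub₀ _ hne (show d ≤ n + 1 by omega), mul_inv, inv_inv]
    ring
  have hsmall : ∀ᶠ s in atTop, ‖Q s‖ < 1 / 2 ∧ err s < 1 / 2
      ∧ (s : ℝ) ^ (k + m) * err s < ‖L‖ / 2 ∧ ‖L‖ / 2 < ‖(s : ℂ) ^ (k + m) * Q s‖ := by
    have e0 := herr0 0 (by omega)
    simp only [pow_zero, one_mul] at e0
    exact ((tendsto_norm_zero.comp hQ0).eventually (gt_mem_nhds (by norm_num))).and
      ((e0.eventually (gt_mem_nhds (by norm_num))).and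
        (((herr0 (k + m) (by omega)).eventually (gt_mem_nhds (by positivity))).and
          (hlim.norm.eventually (lt_mem_nhds (half_lt_self (norm_pos_iff.2 hL))))))
  obtain ⟨s, hs, h1, h2, h3, h4⟩ := (hfreq.and_eventually hsmall).exists
  choose! z hz using hs
  set I : ℤ := ∑ o ∈ O, w o * z o with hI
  have hIQ : ‖(I : ℂ) - Q s‖ ≤ err s := by
    simp only [hI, hQ, herr, Int.cast_sum, Int.cast_mul, ← Finset.sum_sub_distrib, ← mul_sub]
    refine (norm_sum_le _ _).trans (Finset.sum_le_sum fun o ho => ?_)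
    rw [norm_mul, Complex.norm_intCast]
    exact mul_le_mul_of_nonneg_left (hz o ho) (abs_nonneg _)
  have hI0 : I = 0 := by
    have h5 : ‖(I : ℂ)‖ < 1 := by
      calc ‖(I : ℂ)‖ ≤ ‖(I : ℂ) - Q s‖ + ‖Q s‖ := norm_le_norm_sub_add _ _
        _ < 1 := by linarith
    rw [Complex.norm_intCast] at h5
    have h6 : |I| < 1 := by exact_mod_cast h5
    exact abs_eq_zero.1 (by linarith [abs_nonneg I])
  rw [hI0, Int.cast_zero, zero_sub, norm_neg] at hIQ
  have : ‖(s : ℂ) ^ (k + m) * Q s‖ ≤ (s : ℝ) ^ (k + m) * err s := by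
    rw [norm_mul, norm_pow, Complex.norm_natCast]
    exact mul_le_mul_of_nonneg_left hIQ (by positivity)
  linarith

end Setup

end Fermat.Agent.Switch
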