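import Mathlib
import Fermat.Agent.Switch.Expansion

/-!
# A one-parameter family whose discriminant has only 5-fold roots has no polynomial 3-torsion

If `4A³ + 27B² = γ E⁵` with `E` separable and coprime to `A`, the 3-division quartic of
`y² = x³ + Ax + B` has no polynomial root: a root gives
`48 x² (4A³ + 27B²) = (A + 3x²)³ (9A + 3x²)`.
-/

set_option autoImplicit false

open Polynomial

namespace Fermat.Agent.Switch

/-- The identity satisfied at a root of the 3-division quartic. -/
theorem discriminant_identity {R : Type*} [CommRing R] {A B x : R}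
    (h : 3 * x ^ 4 + 6 * A * x ^ 2 + 12 * B * x - A ^ 2 = 0) :
    48 * x ^ 2 * (4 * A ^ 3 + 27 * B ^ 2) = (A + 3 * x ^ 2) ^ 3 * (9 * A + 3 * x ^ 2) := by
  linear_combination 9 * (12 * B * x + (A ^ 2 - 6 * A * x ^ 2 - 3 * x ^ 4)) * h

variable {K : Type*} [Field K] [IsAlgClosed K] [CharZero K]

omit [IsAlgClosed K] [CharZero K] in
/-- Degree bound for a polynomial root of the 3-division quartic. -/
theorem natDegree_root_le {A B Z : K[X]} (hA : A.natDegree ≤ 20) (hB : B.natDegree ≤ 30)
    (h : quartic (18 * A) (108 * B) (-27 * A ^ 2) Z = 0) : Z.natDegree ≤ 10 := by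
  by_contra hlt
  rw [not_le] at hlt
  have h1 : (18 * A * Z ^ 2 + 108 * B * Z + -27 * A ^ 2).natDegree < 4 * Z.natDegree := by
    refine lt_of_le_of_lt (b := max (20 + 2 * Z.natDegree) (max (30 + Z.natDegree) 40)) ?_
      (by omega)
    compute_degree
    omega
  have h2 : Z ^ 4 = -(18 * A * Z ^ 2 + 108 * B * Z + -27 * A ^ 2) := by
    simp only [quartic] at h
    linear_combination h
  have h3 := congrArg natDegree h2
  rw [natDegree_pow, natDegree_neg] at h3
  omega

/-- **Main theorem**: the 3-division quartic of such a family has no polynomial root. -/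
theorem no_polynomial_root {A B E : K[X]} {γ : K} (hγ : γ ≠ 0)
    (hrel : 4 * A ^ 3 + 27 * B ^ 2 = C γ * E ^ 5) (hE : E.Separable) (hEd : 5 ≤ E.natDegree)
    (hA : A.natDegree ≤ 20) (hB : B.natDegree ≤ 30)
    (hco : ∀ μ, E.eval μ = 0 → A.eval μ ≠ 0) (Z : K[X]) :
    quartic (18 * A) (108 * B) (-27 * A ^ 2) Z ≠ 0 := by
  classical
  intro h
  have hE0 : E ≠ 0 := by rintro rfl; simp at hEd
  set x : K[X] := C (1/3 : K) * Z with hx
  have hx3 : Z = 3 * x := by
    rw [hx, ← mul_assoc, show (3 : K[X]) = C 3 from rfl, ← C_mul]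
    norm_num
  have hψ : 3 * x ^ 4 + 6 * A * x ^ 2 + 12 * B * x - A ^ 2 = 0 := by
    simp only [quartic, hx3] at h
    refine mul_left_cancel₀ (show (27 : K[X]) ≠ 0 by norm_num) ?_
    linear_combination h
  have hid := discriminant_identity hψ
  rw [hrel] at hid
  set P := A + 3 * x ^ 2 with hP
  set Q := 9 * A + 3 * x ^ 2 with hQ
  -- at a root of `E`, the factor `P` does not vanish
  have hPne : ∀ μ, E.eval μ = 0 → P.eval μ ≠ 0 := by
    intro μ hμ hPμ
    have hAμ := hco μ hμ
    have hxμ : x.eval μ ≠ 0 := by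
      intro h0
      apply hAμ
      simpa [hP, h0] using hPμ
    have hQμ : Q.eval μ ≠ 0 := by
      intro h0
      apply hAμ
      simp only [hP, hQ, eval_add, eval_mul, eval_pow, eval_ofNat] at hPμ h0
      linear_combination (1/8 : K) * h0 - (1/8 : K) * hPμ
    have hR : 48 * x ^ 2 * C γ ≠ 0 := by
      intro h0
      have := congrArg (Polynomial.eval μ) h0
      simp [hxμ, hγ] at this
    have hl : 48 * x ^ 2 * C γ * E ^ 5 ≠ 0 := mul_ne_zero hR (pow_ne_zero _ hE0)
    have hr : P ^ 3 * Q ≠ 0 := by rw [← hid]; simpa [mul_assoc] using hl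
    have e := congrArg (rootMultiplicity μ) hid
    rw [← mul_assoc, rootMultiplicity_mul hl, rootMultiplicity_mul hr] at e
    rw [rootMultiplicity_eq_zero (p := 48 * x ^ 2 * C γ) (by simp [hxμ, hγ]),
      rootMultiplicity_eq_zero (p := Q) hQμ, zero_add, add_zero] at e
    have hEμ : rootMultiplicity μ E = 1 :=
      le_antisymm (rootMultiplicity_le_one_of_separable hE μ) ((rootMultiplicity_pos hE0).2 hμ)
    have hpow : ∀ (F : K[X]) (n : ℕ), F ≠ 0 →
        rootMultiplicity μ (F ^ n) = n * rootMultiplicity μ F :=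
      fun F n hF => by rw [← count_roots, ← count_roots, roots_pow, Multiset.count_nsmul]
    have hP0 : P ≠ 0 := fun h0 => hr (by rw [h0]; ring)
    rw [hpow E 5 hE0, hpow P 3 hP0, hEμ] at e
    omega
  have hcop : IsCoprime (E ^ 5) (P ^ 3) := by
    refine IsCoprime.pow ((isCoprime_iff_aeval_ne_zero_of_isAlgClosed K K E P).2 fun μ => ?_)
    rw [coe_aeval_eq_eval]
    by_cases hμ : E.eval μ = 0
    · exact Or.inr (hPne μ hμ)
    · exact Or.inl hμ
  have hdvd : E ^ 5 ∣ Q := hcop.dvd_of_dvd_mul_left ⟨48 * x ^ 2 * C γ, by rw [← hid]; ring⟩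
  have hZ := natDegree_root_le hA hB h
  have hxd : x.natDegree ≤ 10 := natDegree_C_mul_le _ _ |>.trans hZ
  have hQd : Q.natDegree ≤ 20 := by
    rw [hQ]
    compute_degree
    omega
  have hQ0 : Q = 0 := eq_zero_of_dvd_of_natDegree_lt hdvd (by rw [natDegree_pow]; omega)
  rw [hQ0, mul_zero] at hid
  have hx0 : x = 0 := by
    rcases mul_eq_zero.1 hid with h0 | h0
    · rcases mul_eq_zero.1 h0 with h1 | h1
      · exact absurd h1 (by norm_num)
      · exact pow_eq_zero_iff two_ne_zero |>.1 h1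
    · exact absurd h0 (mul_ne_zero (by simpa using hγ) (pow_ne_zero _ hE0))
  have hA0 : A = 0 := by
    rw [hQ, hx0] at hQ0
    simpa using hQ0
  obtain ⟨μ, hμ⟩ := IsAlgClosed.exists_root E (by
    rw [degree_eq_natDegree hE0]; exact_mod_cast (show E.natDegree ≠ 0 by omega))
  exact hco μ hμ (by rw [hA0, eval_zero])

end Fermat.Agent.Switch
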