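import Mathlib
import Fermat.Agent.Switch.IntRoot
import Fermat.Agent.Switch.NoPolyRoot
import Fermat.Agent.Switch.Pencil
import Fermat.Agent.EC.Fifteen.Main

/-!
# Some member of the pencil has irreducible mod 3 representation

Main result: `exists_irreducible_three`.
-/

set_option autoImplicit false

open Polynomial Filter

namespace Fermat.Agent.Switch

local notation "Qbar" => AlgebraicClosure ℚ

/-- A reducible mod 3 representation gives an integer root of the 3-division quartic. -/
theorem exists_int_root_of_not_irreducible (W : WeierstrassCurve ℤ) (hΔ : W.Δ ≠ 0)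
    (h : ¬ W.ModRepIsIrreducible 3) :
    ∃ z : ℤ, quartic (18 * (-27 * W.c₄)) (108 * (-54 * W.c₆)) (-27 * (-27 * W.c₄) ^ 2) z = 0 := by
  obtain ⟨x, hx⟩ := Fermat.Agent.EC.Fifteen.exists_rat_psi3_root W hΔ h
  set P : ℤ[X] := quartic (C (18 * (-27 * W.c₄))) (C (108 * (-54 * W.c₆)))
    (C (-27 * (-27 * W.c₄) ^ 2)) X with hP
  have hmon : P.Monic := by
    simp only [hP, quartic]
    monicity!
  set r : ℚ := 3 * (36 * x + 3 * W.b₂) with hr
  have hid : quartic (18 * (-27 * (W.c₄ : ℚ))) (108 * (-54 * (W.c₆ : ℚ)))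
      (-27 * (-27 * (W.c₄ : ℚ)) ^ 2) r = 0 := by
    have hb : (4 : ℚ) * W.b₈ = W.b₂ * W.b₆ - W.b₄ ^ 2 := by exact_mod_cast W.b_relation
    simp only [quartic, hr, WeierstrassCurve.c₄, WeierstrassCurve.c₆]
    push_cast
    linear_combination (27 * 36 ^ 4 : ℚ) * hx - (27 * 36 ^ 4 / 4 : ℚ) * hb
  have hint : IsIntegral ℤ r := ⟨P, hmon, by
    simp only [hP, quartic, eval₂_add, eval₂_mul, eval₂_pow, eval₂_C, eval₂_X]
    simp only [eq_intCast]
    push_cast
    exact hid⟩
  obtain ⟨z, hz⟩ := IsIntegrallyClosed.algebraMap_eq_of_integral hint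
  refine ⟨z, ?_⟩
  rw [← hz, eq_intCast] at hid
  simp only [quartic] at hid ⊢
  exact_mod_cast hid

/-- A double root of the 3-division quartic forces a vanishing discriminant. -/
theorem quartic'_ne_zero {α β y : ℂ} (hne : 4 * α ^ 3 + 27 * β ^ 2 ≠ 0)
    (h : quartic (18 * α) (108 * β) (-27 * α ^ 2) y = 0) :
    quartic' (18 * α) (108 * β) y ≠ 0 := by
  intro h'
  simp only [quartic, quartic'] at h h'
  have hb : β = -(y ^ 3 + 9 * α * y) / 27 := by linear_combination (1/108 : ℂ) * h'
  subst hb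
  have ha : α = -y ^ 2 / 3 := by
    have h2 : (y ^ 2 + 3 * α) ^ 2 = 0 := by linear_combination (-1/3 : ℂ) * h
    linear_combination (1/3 : ℂ) * (pow_eq_zero_iff two_ne_zero).1 h2
  subst ha
  exact hne (by ring)

/-- **Main theorem**: some member of an integral family on a nondegenerate line of the pencil is
nonsingular with irreducible mod 3 representation. -/
theorem exists_irreducible_three {v d : Qbar × Qbar} (hdet : v.1 * d.2 - v.2 * d.1 ≠ 0)
    (hd : dP d ≠ 0) {CP TP : ℚ[X]} (hCP : CP.map (algebraMap ℚ Qbar) = hLine v d)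
    (hTP : TP.map (algebraMap ℚ Qbar) = tLine v d) (W' : ℕ → WeierstrassCurve ℤ)
    (h4 : ∀ s : ℕ, ((W' s).c₄ : ℚ) = CP.eval (s : ℚ))
    (h6 : ∀ s : ℕ, ((W' s).c₆ : ℚ) = TP.eval (s : ℚ)) :
    ∃ s : ℕ, (W' s).Δ ≠ 0 ∧ (W' s).ModRepIsIrreducible 3 := by
  obtain ⟨ι⟩ : Nonempty (Qbar →ₐ[ℚ] ℂ) := ⟨IsAlgClosed.lift⟩
  set f : Qbar →+* ℂ := ι.toRingHom
  have hf : f.comp (algebraMap ℚ Qbar) = algebraMap ℚ ℂ := RingHom.ext fun q => ι.commutes q
  set H : ℂ[X] := CP.map (algebraMap ℚ ℂ) with hH
  set T : ℂ[X] := TP.map (algebraMap ℚ ℂ) with hT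
  set E : ℂ[X] := (dLine v d).map f with hE
  have hHline : H = (hLine v d).map f := by rw [← hCP, Polynomial.map_map, hf]
  have hTline : T = (tLine v d).map f := by rw [← hTP, Polynomial.map_map, hf]
  set A : ℂ[X] := C (-27 : ℂ) * H with hA
  set B : ℂ[X] := C (-54 : ℂ) * T with hB
  have hrel : 4 * A ^ 3 + 27 * B ^ 2 = C (78732 * 1728 : ℂ) * E ^ 5 := by
    have h0 := congrArg (Polynomial.map f) (line_cube_sub_sq v d)
    simp only [Polynomial.map_sub, Polynomial.map_pow, Polynomial.map_mul, Polynomial.map_neg,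
      Polynomial.map_ofNat, ← hHline, ← hTline, ← hE] at h0
    simp only [hA, hB, map_mul, map_neg, map_ofNat]
    linear_combination (-78732 : ℂ[X]) * h0
  have hEsep : E.Separable := (separable_dLine hdet).map
  have hEdeg : E.natDegree = 12 := by
    rw [hE, natDegree_map_eq_of_injective f.injective, natDegree_dLine v hd]
  have hAdeg : A.natDegree ≤ 20 := (natDegree_C_mul_le _ _).trans (by
    rw [hHline]; exact natDegree_map_le.trans (natDegree_hLine v d))
  have hBdeg : B.natDegree ≤ 30 := (natDegree_C_mul_le _ _).trans (by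
    rw [hTline]; exact natDegree_map_le.trans (natDegree_tLine v d))
  have hcoQ : IsCoprime (dLine v d) (hLine v d) :=
    (isCoprime_iff_aeval_ne_zero_of_isAlgClosed Qbar Qbar _ _).2 fun μ => by
      simp only [coe_aeval_eq_eval]
      by_cases hμ : (dLine v d).eval μ = 0
      · exact Or.inr (hLine_ne_zero_of_root hdet hμ)
      · exact Or.inl hμ
  have hco : ∀ μ, E.eval μ = 0 → A.eval μ ≠ 0 := by
    intro μ hμ hAμ
    obtain ⟨a, b, hab⟩ := hcoQ.map (Polynomial.mapRingHom f)
    simp only [coe_mapRingHom, ← hE, ← hHline] at hab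
    have hHμ : H.eval μ = 0 := by
      rw [hA, eval_mul, eval_C] at hAμ
      simpa using hAμ
    simpa [hμ, hHμ] using congrArg (Polynomial.eval μ) hab
  set p : ℂ[X] := 18 * A with hp
  set q : ℂ[X] := 108 * B with hq
  set r : ℂ[X] := -27 * A ^ 2 with hr
  have hpd : p.natDegree ≤ 2 * 10 := by
    rw [hp]; compute_degree; omega
  have hqd : q.natDegree ≤ 3 * 10 := by
    rw [hq]; compute_degree; omega
  have hrd : r.natDegree ≤ 4 * 10 := by
    rw [hr]; compute_degree; omega
  have hA20 : A.coeff 20 = -27 * f (hP d) := by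
    rw [hA, coeff_C_mul, hHline, coeff_map, coeff_hLine]
  have hB30 : B.coeff 30 = -54 * f (tP d) := by
    rw [hB, coeff_C_mul, hTline, coeff_map, coeff_tLine]
  have htopne : 4 * A.coeff 20 ^ 3 + 27 * B.coeff 30 ^ 2 ≠ 0 := by
    rw [hA20, hB30]
    intro h0
    have h1 : f (hP d ^ 3 - tP d ^ 2) = 0 := by
      rw [map_sub, map_pow, map_pow]
      linear_combination (-1/78732 : ℂ) * h0
    rw [map_eq_zero, sub_eq_zero] at h1
    exact (dP_ne_zero_iff d).1 hd h1
  have hcp : p.coeff (2 * 10) = 18 * A.coeff 20 := by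
    rw [hp, show (18 : ℂ[X]) = C 18 from rfl, coeff_C_mul]
  have hcq : q.coeff (3 * 10) = 108 * B.coeff 30 := by
    rw [hq, show (108 : ℂ[X]) = C 108 from rfl, coeff_C_mul]
  have hcr : r.coeff (4 * 10) = -27 * A.coeff 20 ^ 2 := by
    rw [hr, show (-27 : ℂ[X]) = C (-27) by rw [C_neg]; rfl, coeff_C_mul,
      show 4 * 10 = 2 * 20 from rfl, coeff_pow_of_natDegree_le hAdeg]
  by_contra hno
  push Not at hno
  have hcubic : hLine v d ^ 3 - tLine v d ^ 2 ≠ 0 := by
    rw [line_cube_sub_sq]
    refine mul_ne_zero (by norm_num) (pow_ne_zero _ fun h0 => ?_)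
    have := natDegree_dLine v hd
    rw [h0, natDegree_zero] at this
    omega
  obtain ⟨P, hPoly⟩ : ∃ P : ℂ[X], quartic p q r P = 0 := by
    refine exists_polynomial_root hpd hqd hrd (fun y hy => ?_) ?_
    · rw [hcp, hcq] at *
      rw [hcr] at hy
      exact quartic'_ne_zero htopne hy
    · have hΔev : ∀ᶠ s : ℕ in atTop, (W' s).Δ ≠ 0 := by
        have hfin := (finite_setOfPred_isRoot hcubic).preimage
          (Nat.cast_injective (R := Qbar)).injOn
        obtain ⟨N, hN⟩ := hfin.bddAbove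
        filter_upwards [eventually_gt_atTop N] with s hs h0
        refine absurd (hN ?_) (not_le.2 hs)
        change (hLine v d ^ 3 - tLine v d ^ 2).IsRoot (s : Qbar)
        have e4 : (hLine v d).eval (s : Qbar) = ((W' s).c₄ : Qbar) := by
          rw [← hCP, show (s : Qbar) = algebraMap ℚ Qbar (s : ℚ) by simp, eval_map_apply, ← h4,
            map_intCast]
        have e6 : (tLine v d).eval (s : Qbar) = ((W' s).c₆ : Qbar) := by
          rw [← hTP, show (s : Qbar) = algebraMap ℚ Qbar (s : ℚ) by simp, eval_map_apply, ← h6,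
            map_intCast]
        rw [IsRoot, eval_sub, eval_pow, eval_pow, e4, e6]
        have := (W' s).c_relation
        rw [h0, mul_zero] at this
        exact_mod_cast this.symm
      filter_upwards [hΔev] with s hs
      obtain ⟨z, hz⟩ := exists_int_root_of_not_irreducible (W' s) hs (hno s hs)
      refine ⟨z, ?_⟩
      have e4 : H.eval (s : ℂ) = ((W' s).c₄ : ℂ) := by
        rw [hH, show (s : ℂ) = algebraMap ℚ ℂ (s : ℚ) by simp, eval_map_apply, ← h4, map_intCast]
      have e6 : T.eval (s : ℂ) = ((W' s).c₆ : ℂ) := by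
        rw [hT, show (s : ℂ) = algebraMap ℚ ℂ (s : ℚ) by simp, eval_map_apply, ← h6, map_intCast]
      have hzC := congrArg (Int.cast : ℤ → ℂ) hz
      simp only [quartic] at hzC ⊢
      push_cast at hzC
      simp only [hp, hq, hr, hA, hB, eval_mul, eval_pow, eval_neg, eval_ofNat, eval_C, e4, e6]
      linear_combination hzC
  exact no_polynomial_root (γ := 78732 * 1728) (by norm_num) hrel hEsep (by omega) hAdeg hBdeg hco P
    hPoly

end Fermat.Agent.Switch
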